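import Fermat.Agent.Entry.QOne.CoboundaryHecke
import Fermat.Agent.LevelRaise.DiamondTrivial
import Fermat.Agent.PeriodHecke.Action

/-!
# The sums over the labels form a coboundary

Descent on the augmentation filtration of the functions on the labels: the top piece is a
homomorphism which is an eigenvector up to one killing `Γ₁(qM')`, so it is the coboundary of a
piece of the correction of the eigenvector equation.
-/

set_option autoImplicit false
set_option linter.unusedSectionVars false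
set_option linter.style.haveILetI false

noncomputable section

set_option synthInstance.maxHeartbeats 400000
set_option maxHeartbeats 1000000

open scoped MatrixGroups
open CongruenceSubgroup FLTAgent.PeriodHecke

namespace FLTAgent.Entry.QOne

section Module

variable {K : Type*} [CommRing K] {C : Type*} [CommGroup C]

/-- Translation of functions on a commutative group. -/
def shiftFun (t : C) : Module.End K (C → K) := LinearMap.funLeft K K fun c => c * t

theorem shiftFun_apply (t : C) (f : C → K) (c : C) : shiftFun t f c = f (c * t) := rfl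

theorem shiftFun_comm (t t' : C) : Commute (shiftFun (K := K) t) (shiftFun t') :=
  LinearMap.ext fun f => funext fun c => by
    show f (c * t * t') = f (c * t' * t)
    rw [mul_right_comm]

theorem shiftFun_pow (t : C) (n : ℕ) : shiftFun (K := K) t ^ n = shiftFun (t ^ n) := by
  induction n with
  | zero => exact LinearMap.ext fun f => funext fun c => by simp [shiftFun_apply]
  | succ n ih =>
    rw [pow_succ, ih]
    exact LinearMap.ext fun f => funext fun c => by
      show f (c * t ^ n * t) = f (c * t ^ (n + 1))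
      rw [mul_assoc, pow_succ]

/-- The difference operator. -/
def diffOp (σ : C) : Module.End K (C → K) := shiftFun σ - 1

theorem diffOp_pow_shift (σ t : C) (j : ℕ) (f : C → K) :
    (diffOp σ ^ j) (shiftFun t f) = shiftFun t ((diffOp σ ^ j) f) :=
  LinearMap.congr_fun
    (Commute.pow_left (show Commute (diffOp (K := K) σ) (shiftFun t) from
      (shiftFun_comm σ t).sub_left (Commute.one_left _)) j).eq f

/-- Fixed functions are constant. -/
theorem eq_const_of_diffOp {σ : C} (hσ : ∀ c : C, ∃ m : ℕ, c = σ ^ m) {f : C → K}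
    (h : diffOp σ f = 0) (c : C) : f c = f 1 := by
  obtain ⟨m, rfl⟩ := hσ c
  induction m with
  | zero => rw [pow_zero]
  | succ m ih =>
    rw [pow_succ, ← ih, ← sub_eq_zero]
    exact congrFun h (σ ^ m)

theorem diffOp_pow_eq_zero {p : ℕ} [Fact p.Prime] [CharP K p] (σ : C) (n : ℕ)
    (hσ : σ ^ p ^ n = 1) : diffOp (K := K) σ ^ p ^ n = 0 := by
  have hX : (Polynomial.X - 1 : Polynomial K) ^ p ^ n = Polynomial.X ^ p ^ n - 1 := by
    rw [sub_pow_char_pow, one_pow]
  have h := congrArg (Polynomial.aeval (R := K) (shiftFun (K := K) σ)) hX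
  simp only [map_pow, map_sub, Polynomial.aeval_X, map_one] at h
  rw [diffOp, h, shiftFun_pow, hσ]
  exact LinearMap.ext fun f => funext fun c => by simp [shiftFun_apply]

end Module

variable {q p M' : ℕ} [Fact q.Prime] [Fact p.Prime]

/-- The coboundary of a function on the labels. -/
def dG (G : Cls q p → ZMod p) (γ : Gamma0 (q * M')) (c : Cls q p) : ZMod p :=
  G (c * chi p γ) - G c

theorem dG_eq (G : Cls q p → ZMod p) (γ : Gamma0 (q * M')) :
    dG G γ = shiftFun (chi p γ) G - G := rfl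

/-- The labels are generated by one of them, killed by a power of `p`. -/
theorem exists_generator : ∃ σ : Cls q p,
    (∀ c : Cls q p, ∃ m : ℕ, c = σ ^ m) ∧ σ ^ p ^ q = 1 := by
  obtain ⟨u, hu⟩ := IsCyclic.exists_generator (α := (ZMod q)ˣ)
  refine ⟨QuotientGroup.mk u, fun c => ?_, ?_⟩
  · obtain ⟨v, rfl⟩ := QuotientGroup.mk_surjective c
    obtain ⟨m, hm⟩ := mem_powers_iff_mem_zpowers.2 (hu v)
    exact ⟨m, by rw [← QuotientGroup.mk_pow, ← hm]⟩
  · rw [← QuotientGroup.mk_pow, QuotientGroup.eq_one_iff]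
    exact ⟨u, rfl⟩

/-- The class of `δ/α` of a Fricke conjugate. -/
theorem chi_fricke_eq_one [NeZero (q * M')] {γ : Gamma0 (q * M')}
    (h : ((q * M' : ℕ) : ℤ) ∣ mat γ 1 1 - 1) : chi p (fricke (q * M') γ) = 1 := by
  have hq : ((mat γ 1 1 : ℤ) : ZMod q) = 1 := by
    have h1 := (ZMod.intCast_zmod_eq_zero_iff_dvd _ q).2
      ((Int.natCast_dvd_natCast.2 (dvd_mul_right q M')).trans h)
    push_cast at h1
    exact sub_eq_zero.1 h1
  have hdet := mat_det γ
  rw [Matrix.det_fin_two] at hdet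
  have h0 := congrArg (fun z : ℤ => (z : ZMod q)) hdet
  simp only [Int.cast_sub, Int.cast_mul, mat_lower_eq_zero, mul_zero, sub_zero, hq, mul_one,
    Int.cast_one] at h0
  have e0 : ((mat (fricke (q * M') γ) 0 0 : ℤ) : ZMod q) = 1 := hq
  have e1 : ((mat (fricke (q * M') γ) 1 1 : ℤ) : ZMod q) = 1 := h0
  rw [chi_apply, dcl_eq (by rw [e0]; exact one_ne_zero) (by rw [e1]; exact one_ne_zero),
    QuotientGroup.eq_one_iff]
  have : Units.mk0 _ (show ((mat (fricke (q * M') γ) 1 1 : ℤ) : ZMod q) ≠ 0 by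
      rw [e1]; exact one_ne_zero) =
    Units.mk0 _ (show ((mat (fricke (q * M') γ) 0 0 : ℤ) : ZMod q) ≠ 0 by
      rw [e0]; exact one_ne_zero) := Units.ext (e1.trans e0.symm)
  rw [this, div_self']
  exact one_mem _

variable (bad : Finset ℕ) (a : ℕ → ℤ)

/-- A cocycle which is an eigenvector up to coboundaries. -/
structure IsGood [NeZero (q * M')] (z : Gamma0 (q * M') → Cls q p → ZMod p) : Prop where
  mul : ∀ γ γ' c, z (γ * γ') c = z γ c + z γ' (c * chi p γ)
  par : ∀ γ : Gamma0 (q * M'), (mat γ).trace ^ 2 ≤ 4 → ∀ c, z γ c = 0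
  eigen : ∀ (r : ℕ) [Fact r.Prime], r ∉ bad → ¬ r ∣ q * M' →
    ∃ B : Cls q p → ZMod p, ∀ (γ : Gamma0 (q * M')) (c : Cls q p),
      ∑ i, z ((heckeFam' (q * M') r).coc γ i) (c * (dcl q p (heckeRep' (q * M') r i))⁻¹) =
        a r • z γ c + (B c - B (c * chi p γ))

variable {bad a}

theorem dcl_rel {r : ℕ} [Fact r.Prime] [NeZero (q * M')] (hrN : ¬ r ∣ q * M')
    (γ : Gamma0 (q * M')) (i : HeckeIdx (q * M') r) :
    chi p ((heckeFam' (q * M') r).coc γ i) *
        dcl q p (heckeRep' (q * M') r ((heckeFam' (q * M') r).next γ i)) =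
      dcl q p (heckeRep' (q * M') r i) * chi p γ := by
  have hrel : heckeRep' (q * M') r i * mat γ = mat ((heckeFam' (q * M') r).coc γ i) *
      heckeRep' (q * M') r ((heckeFam' (q * M') r).next γ i) := (heckeFam' (q * M') r).rel γ i
  have hB := dg_heckeRep hrN i
  have hB' := dg_heckeRep hrN ((heckeFam' (q * M') r).next γ i)
  rw [chi_apply, chi_apply, ← dcl_mul (mat_lower_eq_zero _) hB'.lower (diag_ne_zero _).1
    (diag_ne_zero _).2 hB'.left hB'.right, ← hrel, dcl_mul hB.lower (mat_lower_eq_zero γ) hB.left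
    hB.right (diag_ne_zero γ).1 (diag_ne_zero γ).2]

theorem IsGood.sub_dG [NeZero (q * M')] (hp : Odd p) (hM : 2 ∣ M')
    {z : Gamma0 (q * M') → Cls q p → ZMod p} (hz : IsGood bad a z) (G : Cls q p → ZMod p) :
    IsGood bad a (fun γ c => z γ c - dG G γ c) where
  mul γ γ' c := by
    simp only [dG, map_mul, hz.mul, mul_assoc]
    ring
  par γ hγ c := by
    simp [dG, chi_eq_one_of_trace hp hM γ hγ, hz.par γ hγ c]
  eigen r _ hr hrN := by
    obtain ⟨B, hB⟩ := hz.eigen r hr hrN
    refine ⟨fun c => B c + (∑ i, G (c * (dcl q p (heckeRep' (q * M') r i))⁻¹) - a r • G c),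
      fun γ c => ?_⟩
    have hkey : ∀ i, c * (dcl q p (heckeRep' (q * M') r i))⁻¹ *
        chi p ((heckeFam' (q * M') r).coc γ i) =
        c * chi p γ * (dcl q p (heckeRep' (q * M') r ((heckeFam' (q * M') r).next γ i)))⁻¹ := by
      intro i
      rw [eq_mul_inv_iff_mul_eq, mul_assoc, dcl_rel hrN, ← mul_assoc, inv_mul_cancel_right]
    have hperm : ∑ i, G (c * chi p γ *
        (dcl q p (heckeRep' (q * M') r ((heckeFam' (q * M') r).next γ i)))⁻¹) =
        ∑ i, G (c * chi p γ * (dcl q p (heckeRep' (q * M') r i))⁻¹) :=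
      Equiv.sum_comp ((heckeFam' (q * M') r).perm γ)
        (fun i => G (c * chi p γ * (dcl q p (heckeRep' (q * M') r i))⁻¹))
    simp only [dG, Finset.sum_sub_distrib, hkey, hperm, hB γ c, smul_sub]
    ring

variable [NeZero (q * M')]

/-- Two Hecke operators commute on parabolic homomorphisms. -/
theorem heckePar_comm (r s : ℕ) [Fact r.Prime] [Fact s.Prime]
    (η : Hpar (Gamma0 (q * M')) (ZMod p)) :
    (heckeFam (q * M') r).heckePar ((heckeFam (q * M') s).heckePar η) =
      (heckeFam (q * M') s).heckePar ((heckeFam (q * M') r).heckePar η) := by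
  rw [← actA_heckeGen (q * M') r ((heckeFam (q * M') s).heckePar η),
    ← actA_heckeGen (q * M') s ((heckeFam (q * M') r).heckePar η),
    ← actA_heckeGen (q * M') s η, ← actA_heckeGen (q * M') r η]
  show (actA (q * M') (ZMod p) _ * actA (q * M') (ZMod p) _) η =
    (actA (q * M') (ZMod p) _ * actA (q * M') (ZMod p) _) η
  rw [← map_mul, ← map_mul]
  exact DFunLike.congr_fun (congrArg _ (mul_comm _ _)) η

/-- One step of the descent. -/
theorem IsGood.step (hp : Odd p) (hM : 2 ∣ M')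
    (hne : ∃ r : ℕ, r.Prime ∧ r ∉ bad ∧ ¬ r ∣ q * M' ∧ ((a r : ℤ) : ZMod p) ≠ (r : ZMod p) + 1)
    (hnone : ∀ η ∈ Hpar (Gamma0 (q * M')) (ZMod p),
      (∀ (r : ℕ) [Fact r.Prime], r ∉ bad → ¬ r ∣ q * M' →
        (heckeFam (q * M') r).hecke η = a r • η) → η = 0)
    {σ : Cls q p} (hσ : ∀ c : Cls q p, ∃ m : ℕ, c = σ ^ m) (j : ℕ)
    {z : Gamma0 (q * M') → Cls q p → ZMod p} (hz : IsGood bad a z)
    (hj : ∀ γ, (diffOp σ ^ (j + 1)) (z γ) = 0) :
    ∃ G : Cls q p → ZMod p, ∀ γ, (diffOp σ ^ j) (z γ - dG G γ) = 0 := by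
  have hconst : ∀ γ c, (diffOp σ ^ j) (z γ) c = (diffOp σ ^ j) (z γ) 1 := fun γ c =>
    eq_const_of_diffOp hσ (by rw [← Module.End.mul_apply, ← pow_succ']; exact hj γ) c
  have hzmul : ∀ γ γ', z (γ * γ') = z γ + shiftFun (chi p γ) (z γ') := fun γ γ' =>
    funext fun c => hz.mul γ γ' c
  let η : Additive (Gamma0 (q * M')) →+ ZMod p :=
    AddMonoidHom.mk' (fun γ => (diffOp σ ^ j) (z (Additive.toMul γ)) 1) fun γ γ' => by
      show (diffOp σ ^ j) (z (Additive.toMul γ * Additive.toMul γ')) 1 = _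
      rw [hzmul, map_add, Pi.add_apply, diffOp_pow_shift, shiftFun_apply, hconst (Additive.toMul γ') (1 * _)]
  have hη : ∀ γ, η (Additive.ofMul γ) = (diffOp σ ^ j) (z γ) 1 := fun _ => rfl
  have hηpar : η ∈ Hpar (Gamma0 (q * M')) (ZMod p) := fun γ hγ => by
    rw [hη, show z γ = 0 from funext (hz.par γ hγ), map_zero]
    rfl
  -- the equations of the top piece
  have heq : ∀ (r : ℕ) [Fact r.Prime], r ∉ bad → ¬ r ∣ (q * M') → ∃ B : Cls q p → ZMod p,
      ∀ γ c, (heckeFam' (q * M') r).hecke η (Additive.ofMul γ) =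
        a r • η (Additive.ofMul γ) + ((diffOp σ ^ j) B c - (diffOp σ ^ j) B (c * chi p γ)) := by
    intro r _ hr hrN
    obtain ⟨B, hB⟩ := hz.eigen r hr hrN
    refine ⟨B, fun γ c => ?_⟩
    have hfun : ∑ i, shiftFun (dcl q p (heckeRep' (q * M') r i))⁻¹ (z ((heckeFam' (q * M') r).coc γ i)) =
        a r • z γ + (B - shiftFun (chi p γ) B) := funext fun c' => by
      simp only [Finset.sum_apply, Pi.add_apply, Pi.smul_apply, Pi.sub_apply, shiftFun_apply]
      exact hB γ c'
    have h := congrFun (congrArg (fun f => (diffOp σ ^ j) f) hfun) c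
    simp only [map_sum, map_add, map_zsmul, map_sub, diffOp_pow_shift, Finset.sum_apply,
      Pi.add_apply, Pi.smul_apply, Pi.sub_apply, shiftFun_apply] at h
    rw [hconst γ c] at h
    rw [HeckeFamily.hecke_apply, hη, ← h]
    exact Finset.sum_congr rfl fun i _ => ((hη _).trans (hconst _ _).symm)
  -- transported by the Fricke involution
  set η' : Additive (Gamma0 (q * M')) →+ ZMod p := η.comp (fricke (q * M')).toAdditive
  have hη'par : η' ∈ Hpar (Gamma0 (q * M')) (ZMod p) := fricke_mem_Hpar (q * M') hηpar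
  have hkill : ∀ (r : ℕ) [Fact r.Prime], r ∉ bad → ¬ r ∣ (q * M') →
      ∀ γ : Gamma0 (q * M'), (((q * M') : ℕ) : ℤ) ∣ mat γ 1 1 - 1 →
        ((heckeFam (q * M') r).hecke η' - a r • η') (Additive.ofMul γ) = 0 := by
    intro r _ hr hrN γ hγ
    obtain ⟨B, hB⟩ := heq r hr hrN
    show (heckeFam (q * M') r).hecke η' (Additive.ofMul γ) - a r • η' (Additive.ofMul γ) = 0
    rw [hecke_fricke]
    show (heckeFam' (q * M') r).hecke η (Additive.ofMul (fricke (q * M') γ)) -
      a r • η (Additive.ofMul (fricke (q * M') γ)) = 0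
    rw [hB (fricke (q * M') γ) 1, chi_fricke_eq_one hγ, mul_one, sub_self, add_zero, sub_self]
  obtain ⟨r₀, hr₀, hr₀b, hr₀N, hne⟩ := hne
  haveI := Fact.mk hr₀
  set θ := (heckeFam (q * M') r₀).hecke η' - (r₀ + 1) • η'
  have hθ : θ = 0 := by
    refine hnone θ (sub_mem ((heckeFam (q * M') r₀).hecke_mem hη'par) (AddSubgroup.nsmul_mem _ hη'par _))
      fun r _ hr hrN => ?_
    set v := (heckeFam (q * M') r).hecke η' - a r • η'
    have hv : (heckeFam (q * M') r₀).hecke v = (r₀ + 1) • v :=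
      LevelRaise.hecke_of_kills_Gamma1 hr₀N (hkill r hr hrN)
    have hc : (heckeFam (q * M') r).hecke ((heckeFam (q * M') r₀).hecke η') =
        (heckeFam (q * M') r₀).hecke ((heckeFam (q * M') r).hecke η') :=
      congrArg Subtype.val (heckePar_comm r r₀ ⟨η', hη'par⟩)
    have hexp : (heckeFam (q * M') r).hecke η' = v + a r • η' := (sub_add_cancel _ _).symm
    show (heckeFam (q * M') r).hecke ((heckeFam (q * M') r₀).hecke η' - (r₀ + 1) • η') =
      a r • ((heckeFam (q * M') r₀).hecke η' - (r₀ + 1) • η')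
    rw [map_sub, map_nsmul, hc, hexp, map_add, map_zsmul, hv]
    clear_value v
    module
  obtain ⟨B₀, hB₀⟩ := heq r₀ hr₀b hr₀N
  set e : ZMod p := (r₀ : ZMod p) + 1 - ((a r₀ : ℤ) : ZMod p)
  have he : e ≠ 0 := sub_ne_zero.2 hne.symm
  refine ⟨(-e⁻¹) • B₀, fun γ => funext fun c => ?_⟩
  have hT : (heckeFam' (q * M') r₀).hecke η (Additive.ofMul γ) = (r₀ + 1) • η (Additive.ofMul γ) := by
    have h := DFunLike.congr_fun (sub_eq_zero.1 hθ) (Additive.ofMul (fricke (q * M') γ))
    rw [hecke_fricke] at h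
    change (heckeFam' (q * M') r₀).hecke η (Additive.ofMul (fricke (q * M') (fricke (q * M') γ))) =
      (r₀ + 1) • η (Additive.ofMul (fricke (q * M') (fricke (q * M') γ))) at h
    rwa [fricke_fricke] at h
  have h1 := hB₀ γ c
  rw [hT, nsmul_eq_mul, zsmul_eq_mul, hη, ← hconst γ c] at h1
  push_cast at h1
  rw [map_sub, dG_eq, map_sub, diffOp_pow_shift, map_smul, map_smul]
  simp only [Pi.sub_apply, Pi.zero_apply, Pi.smul_apply, shiftFun_apply, smul_eq_mul]
  have h2 : e * (diffOp σ ^ j) (z γ) c =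
      (diffOp σ ^ j) B₀ c - (diffOp σ ^ j) B₀ (c * chi p γ) := by
    simp only [e]; linear_combination h1
  field_simp
  linear_combination h2

/-- The descent. -/
theorem IsGood.exists_primitive (hp : Odd p) (hM : 2 ∣ M')
    (hne : ∃ r : ℕ, r.Prime ∧ r ∉ bad ∧ ¬ r ∣ q * M' ∧ ((a r : ℤ) : ZMod p) ≠ (r : ZMod p) + 1)
    (hnone : ∀ η ∈ Hpar (Gamma0 (q * M')) (ZMod p),
      (∀ (r : ℕ) [Fact r.Prime], r ∉ bad → ¬ r ∣ q * M' →
        (heckeFam (q * M') r).hecke η = a r • η) → η = 0)
    {σ : Cls q p} (hσ : ∀ c : Cls q p, ∃ m : ℕ, c = σ ^ m) (j : ℕ)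
    {z : Gamma0 (q * M') → Cls q p → ZMod p} (hz : IsGood bad a z)
    (hj : ∀ γ, (diffOp σ ^ j) (z γ) = 0) : ∃ E : Cls q p → ZMod p, ∀ γ, z γ = dG E γ := by
  induction j generalizing z with
  | zero => exact ⟨0, fun γ => by rw [dG_eq, map_zero, sub_zero]; simpa using hj γ⟩
  | succ j ih =>
    obtain ⟨G, hG⟩ := hz.step hp hM hne hnone hσ j hj
    obtain ⟨E, hE⟩ := ih (hz.sub_dG hp hM G) hG
    refine ⟨E + G, fun γ => funext fun c => ?_⟩
    have h := congrFun (hE γ) c
    simp only [dG, Pi.add_apply] at h ⊢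
    linear_combination h

/-- **The sums over the labels form a coboundary.** -/
theorem targetCoboundary : TargetCoboundary := by
  intro q M' p _ _ _ _ _ _ _ hco hM hp2 _ bad a hne hnone ψ hψ heig g hg
  classical
  have hp : Odd p := (Fact.out : p.Prime).odd_of_ne_two hp2
  have hgood : IsGood bad a (zeta p hg (ψ.comp (semb hco).toAdditive)) :=
    { mul := zeta_mul hg _
      par := fun γ hγ c => zeta_eq_zero hg _ hp hM
        (fun s hs => hψ _ (by rw [semb_trace]; exact hs)) γ hγ c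
      eigen := fun r _ hr hrN => exists_hecke_zeta hg p hco hrN ψ (a r) (heig r hr hrN) }
  obtain ⟨σ, hσ, hσ1⟩ := exists_generator (q := q) (p := p)
  obtain ⟨E, hE⟩ := hgood.exists_primitive hp hM hne hnone hσ (p ^ q) fun γ => by
    rw [diffOp_pow_eq_zero σ q hσ1]
    rfl
  refine ⟨E, fun γ y₀ => ?_⟩
  have h := congrFun (hE γ) (lab y₀)
  rw [lab_nxt]
  refine Eq.trans ?_ h
  rw [zeta, Finset.sum_filter]
  refine Finset.sum_congr rfl fun y _ => ?_
  by_cases hy : lab (p := p) y = lab y₀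
  · rw [if_pos hy, if_pos hy, hs, dif_pos (hg.coc_mem γ y)]
    rfl
  · rw [if_neg hy, if_neg hy]

end FLTAgent.Entry.QOne
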