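import Fermat.Agent.Entry.QOne.CoboundaryPairs
import Fermat.Agent.LevelRaise.Classify

/-!
# The Hecke operators on the sums over the labels

The representatives of the adjoint operator at the level `qM'` are, after conjugation by
`diag(1, q)`, those at the level `q²M'`. They permute the pairs, so the sums of an eigenvector are
an eigenvector up to a coboundary.
-/

set_option autoImplicit false
set_option linter.unusedSectionVars false

noncomputable section

open scoped MatrixGroups
open CongruenceSubgroup FLTAgent.PeriodHecke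

namespace FLTAgent.Entry.QOne

local notation "M2" => Matrix (Fin 2) (Fin 2) ℤ

/-! ### Classification for the adjoint operator -/

/-- The Fricke conjugate of an integral matrix. -/
def frMat (N : ℕ) (A : M2) : M2 := !![A 1 1, -(A 1 0 / N); -((N : ℤ) * A 0 1), A 0 0]

theorem frMat_rel (N : ℕ) {A : M2} (hA : (N : ℤ) ∣ A 1 0) :
    frickeMat N * frMat N A = A * frickeMat N := by
  have h := Int.ediv_mul_cancel hA
  ext i j
  fin_cases i <;> fin_cases j <;>
    simp [frickeMat, frMat, Matrix.mul_apply, Fin.sum_univ_two] <;>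
    first | ring1 | linear_combination h | linear_combination -h

/-- Every matrix of determinant `r` with lower left entry divisible by the level is in one of the
left cosets of the adjoint operator. -/
theorem exists_heckeRep' (N r : ℕ) [NeZero N] [Fact r.Prime] (hr : ¬ r ∣ N) (A : M2)
    (hdet : A.det = (r : ℤ)) (hA : (N : ℤ) ∣ A 1 0) :
    ∃ (i : HeckeIdx N r) (δ : Gamma0 N), A = mat δ * heckeRep' N r i := by
  have hd : (frMat N A).det = (r : ℤ) := by
    rw [Matrix.det_fin_two] at hdet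
    simp [frMat, Matrix.det_fin_two_of]
    linear_combination hdet - A 0 1 * Int.ediv_mul_cancel hA
  have hlow : (N : ℤ) ∣ frMat N A 1 0 := ⟨-A 0 1, by simp [frMat]⟩
  obtain ⟨i, δ, h⟩ := LevelRaise.exists_heckeRep N r (frMat N A) hd hlow fun h => absurd h hr
  refine ⟨i, fricke N δ, frickeMat_cancel N ?_⟩
  rw [← frMat_rel N hA, h, ← mul_assoc, fricke_rel, mul_assoc, frickeMat_heckeRep, mul_assoc]

/-! ### Conjugation by `diag(1, q)` -/

variable {q M' : ℕ}

/-- `diag(1, q)`. -/
def dq (q : ℕ) : M2 := !![1, 0; 0, (q : ℤ)]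

theorem dq_det (q : ℕ) : (dq q).det = q := by simp [dq, Matrix.det_fin_two_of]

theorem dq_det_ne [NeZero q] : (dq q).det ≠ 0 := by
  rw [dq_det]; exact_mod_cast NeZero.ne q

theorem dq_splitEmb (hco : Nat.Coprime q M') (s : Split q M') :
    dq q * mat s = mat (splitEmb q M' s hco) * dq q := by
  have h : (s : SL(2, ℤ)) 0 1 / (q : ℤ) * q = (s : SL(2, ℤ)) 0 1 := Int.ediv_mul_cancel s.2.1
  rw [splitEmb, mat_gamma0Mk]
  ext i j
  fin_cases i <;> fin_cases j <;>
    simp [dq, mat, Matrix.mul_apply, Fin.sum_univ_two] <;>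
    first | ring1 | linear_combination h | linear_combination -h

variable [NeZero q]

theorem splitEmb_mul (hco : Nat.Coprime q M') (s t : Split q M') :
    splitEmb q M' (s * t) hco = splitEmb q M' s hco * splitEmb q M' t hco := by
  apply mat_injective
  refine LevelRaise.mul_right_cancel_det (dq_det_ne (q := q)) ?_
  rw [← dq_splitEmb, mat_mul, mat_mul, mul_assoc (mat (splitEmb q M' s hco)), ← dq_splitEmb,
    ← mul_assoc, ← mul_assoc, dq_splitEmb hco s]

/-- The conjugation as a homomorphism. -/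
def semb (hco : Nat.Coprime q M') : Split q M' →* Gamma0 (q * M' * q) :=
  MonoidHom.mk' (fun s => splitEmb q M' s hco) (splitEmb_mul hco)

theorem semb_rel (hco : Nat.Coprime q M') (s : Split q M') :
    dq q * mat s = mat (semb hco s) * dq q := dq_splitEmb hco s

theorem semb_surjective (hco : Nat.Coprime q M') : Function.Surjective (semb (q := q) hco) := by
  intro δ
  obtain ⟨c', hc⟩ := dvd_lower_left _ δ
  push_cast at hc
  have hdet := mat_det δ
  rw [Matrix.det_fin_two] at hdet
  let s : Split q M' := ⟨⟨!![mat δ 0 0, (q : ℤ) * mat δ 0 1; (q : ℤ) * M' * c', mat δ 1 1], by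
      rw [Matrix.det_fin_two_of]; linear_combination hdet + mat δ 0 1 * hc⟩,
    ⟨dvd_mul_right _ _, dvd_mul_of_dvd_left (dvd_mul_right _ _) _,
      dvd_mul_of_dvd_left (dvd_mul_left _ _) _⟩⟩
  refine ⟨s, mat_injective (LevelRaise.mul_right_cancel_det (dq_det_ne (q := q)) ?_)⟩
  rw [← semb_rel]
  have hc' : ((δ : SL(2, ℤ)) 1 0 : ℤ) = (q : ℤ) * M' * q * c' := hc
  ext i j
  fin_cases i <;> fin_cases j <;>
    simp [s, dq, mat, Matrix.mul_apply, Fin.sum_univ_two] <;>
    first | ring1 | linear_combination -hc' | linear_combination hc' | rfl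

theorem semb_trace (hco : Nat.Coprime q M') (s : Split q M') :
    (mat (semb hco s)).trace = (mat s).trace := by
  show (mat (splitEmb q M' s hco)).trace = _
  rw [splitEmb, mat_gamma0Mk]
  simp [Matrix.trace_fin_two, mat]

/-! ### The representatives -/

variable [Fact q.Prime] {r : ℕ} [Fact r.Prime]

/-- The indices at the two levels. -/
def idxEquiv (hrN : ¬ r ∣ q * M') (hrN2 : ¬ r ∣ q * M' * q) :
    HeckeIdx (q * M') r ≃ HeckeIdx (q * M' * q) r where
  toFun i := ⟨i.1, fun _ => hrN2⟩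
  invFun i := ⟨i.1, fun _ => hrN⟩
  left_inv _ := rfl
  right_inv _ := rfl

theorem dq_heckeRep (hrN : ¬ r ∣ q * M') (hrN2 : ¬ r ∣ q * M' * q) (i : HeckeIdx (q * M') r) :
    dq q * heckeRep' (q * M') r i =
      heckeRep' (q * M' * q) r (idxEquiv hrN hrN2 i) * dq q := by
  rcases HeckeIdx.cases (q * M') r i with ⟨h, rfl⟩ | ⟨j, rfl⟩
  · rw [show idxEquiv hrN hrN2 ⟨none, h⟩ = ⟨none, fun _ => hrN2⟩ from rfl]
    ext a b
    fin_cases a <;> fin_cases b <;>
      simp [dq, heckeRep', Matrix.mul_apply, Fin.sum_univ_two] <;> ring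
  · rw [show idxEquiv hrN hrN2 (idxSome (q * M') r j) = idxSome (q * M' * q) r j from rfl]
    ext a b
    fin_cases a <;> fin_cases b <;>
      simp [dq, heckeRep', idxSome, Matrix.mul_apply, Fin.sum_univ_two] <;> ring

theorem det_heckeRep' (N : ℕ) (i : HeckeIdx N r) : (heckeRep' N r i).det = (r : ℤ) := by
  rcases HeckeIdx.cases N r i with ⟨h, rfl⟩ | ⟨j, rfl⟩ <;>
    simp [heckeRep', idxSome, Matrix.det_fin_two_of]

theorem heckeRep'_upper (N : ℕ) (i : HeckeIdx N r) : heckeRep' N r i 0 1 = 0 := by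
  rcases HeckeIdx.cases N r i with ⟨h, rfl⟩ | ⟨j, rfl⟩ <;> simp [heckeRep', idxSome]

theorem heckeRep'_lower (N : ℕ) (i : HeckeIdx N r) : (N : ℤ) ∣ heckeRep' N r i 1 0 := by
  rcases HeckeIdx.cases N r i with ⟨h, rfl⟩ | ⟨j, rfl⟩ <;> simp [heckeRep', idxSome]

theorem dg_heckeRep (hrN : ¬ r ∣ q * M') (i : HeckeIdx (q * M') r) :
    Dg q (heckeRep' (q * M') r i) := by
  have hr0 : ((r : ℕ) : ZMod q) ≠ 0 := fun h => hrN <| by
    rw [ZMod.natCast_eq_zero_iff, Nat.prime_dvd_prime_iff_eq Fact.out Fact.out] at h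
    exact h ▸ dvd_mul_right q M'
  rcases HeckeIdx.cases (q * M') r i with ⟨h, rfl⟩ | ⟨j, rfl⟩ <;>
    constructor <;> simp [heckeRep', idxSome, hr0]

variable {g : Pair q → SL(2, ℤ)} (hg : IsRep M' g)

/-- Scaling of a pair by a matrix diagonal modulo `q`. -/
def scale {B : M2} (hB : Dg q B) (y : Pair q) : Pair q :=
  ⟨(y.1.1 * (B 1 1 : ℤ) / (B 0 0 : ℤ), y.1.2 * (B 1 1 : ℤ) / (B 0 0 : ℤ)), fun h =>
    y.2 (mul_right_cancel₀ hB.right ((div_left_inj' hB.left).1 h))⟩

theorem lab_scale {p : ℕ} {B : M2} (hB : Dg q B) (y : Pair q) :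
    lab (p := p) (scale hB y) = lab y * dcl q p B := by
  rw [dcl_eq hB.left hB.right, lab, lab, ← QuotientGroup.mk_mul]
  refine congrArg QuotientGroup.mk (Units.ext ?_)
  simp only [scale, Units.val_mk0, Units.val_mul, Units.val_div_eq_div_val]
  field_simp

include hg in
/-- A representative times an element of the double coset. -/
theorem exists_split_mul [NeZero (q * M' * q)] (hco : Nat.Coprime q M') (hrN : ¬ r ∣ q * M')
    (hrN2 : ¬ r ∣ q * M' * q) (y : Pair q) (i : HeckeIdx (q * M') r) :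
    ∃ (k : HeckeIdx (q * M') r) (s : Split q M'), ((g y : SL(2, ℤ)) : M2) * heckeRep' (q * M') r i =
      mat s * heckeRep' (q * M') r k * ((g (scale (dg_heckeRep hrN i) y) : SL(2, ℤ)) : M2) := by
  set B := heckeRep' (q * M') r i
  have hB : Dg q B := dg_heckeRep hrN i
  set X := ((g y : SL(2, ℤ)) : M2) * B with hX
  set z := scale hB y
  set G := ((g z : SL(2, ℤ)) : M2)
  set A := X * G.adjugate with hA
  obtain ⟨hm, -, -, e01, e11⟩ := hg y
  obtain ⟨hm', -, -, f01, f11⟩ := hg z
  have hX0 : ((X 0 1 : ℤ) : ZMod q) = (X 0 0 : ℤ) * z.1.1 ∧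
      ((X 1 1 : ℤ) : ZMod q) = (X 1 0 : ℤ) * z.1.2 := by
    have hl := hB.left
    constructor <;>
      simp only [hX, z, scale, Matrix.mul_apply, Fin.sum_univ_two, Int.cast_add, Int.cast_mul,
        hB.upper, hB.lower, mul_zero, add_zero, zero_add, e01, e11] <;> field_simp
  have hA01 : (q : ℤ) ∣ A 0 1 := by
    rw [← ZMod.intCast_zmod_eq_zero_iff_dvd]
    simp [hA, G, Matrix.adjugate_fin_two, Matrix.mul_apply, Fin.sum_univ_two, hX0.1, f01]
    ring
  have hA10 : (q : ℤ) ∣ A 1 0 := by
    rw [← ZMod.intCast_zmod_eq_zero_iff_dvd]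
    simp [hA, G, Matrix.adjugate_fin_two, Matrix.mul_apply, Fin.sum_univ_two, hX0.2, f11]
    ring
  have hAM : (M' : ℤ) ∣ A 1 0 := by
    have h1 : (M' : ℤ) ∣ (g y 1 0 : ℤ) := (ZMod.intCast_zmod_eq_zero_iff_dvd _ _).1 (Gamma0_mem.1 hm)
    have h2 : (M' : ℤ) ∣ (g z 1 0 : ℤ) := (ZMod.intCast_zmod_eq_zero_iff_dvd _ _).1 (Gamma0_mem.1 hm')
    have h3 : (M' : ℤ) ∣ B 1 0 :=
      (Int.natCast_dvd_natCast.2 (dvd_mul_left M' q)).trans (heckeRep'_lower _ i)
    simp only [hA, hX, G, Matrix.adjugate_fin_two, Matrix.mul_apply, Fin.sum_univ_two,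
      Matrix.of_apply, Matrix.cons_val', Matrix.cons_val_zero, Matrix.cons_val_one,
      Matrix.cons_val_fin_one]
    exact dvd_add (dvd_mul_of_dvd_left (dvd_add (dvd_mul_of_dvd_left h1 _)
      (dvd_mul_of_dvd_right h3 _)) _) (dvd_mul_of_dvd_right (dvd_neg.2 h2) _)
  have hqM : ((q * M' : ℕ) : ℤ) ∣ A 1 0 := by
    push_cast
    exact (Int.isCoprime_iff_nat_coprime.mpr (by simpa using hco)).mul_dvd hA10 hAM
  -- the conjugate at the level `q²M'`
  obtain ⟨b, hb⟩ := hA01
  set A' : M2 := !![A 0 0, b; (q : ℤ) * A 1 0, A 1 1]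
  have hrel : dq q * A = A' * dq q := by
    ext i j
    fin_cases i <;> fin_cases j <;>
      simp [A', dq, Matrix.mul_apply, Fin.sum_univ_two] <;>
      first | ring1 | linear_combination hb | linear_combination -hb
  have hdetA : A.det = (r : ℤ) := by
    rw [hA, hX, Matrix.det_mul, Matrix.det_mul, Matrix.det_adjugate, (g z).2, (g y).2,
      det_heckeRep']
    simp
  have hdetA' : A'.det = (r : ℤ) := by
    have h := congrArg Matrix.det hrel
    rw [Matrix.det_mul (dq q), Matrix.det_mul A', hdetA, mul_comm A'.det] at h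
    exact (mul_left_cancel₀ dq_det_ne h).symm
  obtain ⟨k', δ, hk⟩ := exists_heckeRep' (q * M' * q) r hrN2 A' hdetA' (by
    show _ ∣ (q : ℤ) * A 1 0
    push_cast
    rw [mul_comm ((q : ℤ) * M')]
    exact mul_dvd_mul_left _ (by exact_mod_cast hqM))
  obtain ⟨s, rfl⟩ := semb_surjective hco δ
  refine ⟨(idxEquiv hrN hrN2).symm k', s, ?_⟩
  have hcancel : A = mat s * heckeRep' (q * M') r ((idxEquiv hrN hrN2).symm k') := by
    refine LevelRaise.mul_left_cancel_det (dq_det_ne (q := q)) ?_
    rw [hrel, hk, mul_assoc, ← mul_assoc (dq q), semb_rel hco s, mul_assoc (mat (semb hco s)) (dq q),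
      dq_heckeRep hrN hrN2, Equiv.apply_symm_apply]
  show X = _
  rw [← hcancel, hA, Matrix.mul_assoc, Matrix.adjugate_mul]
  simp [G, (g z).2]

include hg in
/-- The coset of the representatives determines index and pair. -/
theorem coset_inj (hrN : ¬ r ∣ q * M') {s t : Split q M'} {y z : Pair q}
    {i k : HeckeIdx (q * M') r}
    (h : mat s * ((g y : SL(2, ℤ)) : M2) * heckeRep' (q * M') r i =
      mat t * ((g z : SL(2, ℤ)) : M2) * heckeRep' (q * M') r k) : i = k ∧ y = z := by
  set x : SL(2, ℤ) := ((t : SL(2, ℤ)) * g z)⁻¹ * ((s : SL(2, ℤ)) * g y) with hx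
  have hxe : (x : M2) * heckeRep' (q * M') r i = heckeRep' (q * M') r k := by
    rw [hx, Matrix.SpecialLinearGroup.coe_mul, Matrix.mul_assoc,
      show ((((s : SL(2, ℤ)) * g y) : SL(2, ℤ)) : M2) * heckeRep' (q * M') r i =
        (((t : SL(2, ℤ)) * g z : SL(2, ℤ)) : M2) * heckeRep' (q * M') r k from h,
      ← Matrix.mul_assoc, ← Matrix.SpecialLinearGroup.coe_mul, inv_mul_cancel,
      Matrix.SpecialLinearGroup.coe_one, Matrix.one_mul]
  have h10 := congrFun (congrFun hxe 1) 0
  rw [Matrix.mul_apply, Fin.sum_univ_two] at h10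
  have hdvd : ((q * M' : ℕ) : ℤ) ∣ x 1 0 * heckeRep' (q * M') r i 0 0 := by
    rw [eq_sub_of_add_eq h10]
    exact dvd_sub (heckeRep'_lower _ k) (dvd_mul_of_dvd_right (heckeRep'_lower _ i) _)
  have hcop : IsCoprime ((q * M' : ℕ) : ℤ) (heckeRep' (q * M') r i 0 0) := by
    rcases HeckeIdx.cases (q * M') r i with ⟨_, rfl⟩ | ⟨j, rfl⟩
    · simp [heckeRep', isCoprime_one_right]
    · show IsCoprime ((q * M' : ℕ) : ℤ) (r : ℤ)
      rw [Int.isCoprime_iff_nat_coprime, Int.natAbs_natCast, Int.natAbs_natCast]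
      exact ((Fact.out : r.Prime).coprime_iff_not_dvd.2 hrN).symm
  let xΓ : Gamma0 (q * M') := ⟨x, Gamma0_mem.2
    ((ZMod.intCast_zmod_eq_zero_iff_dvd _ _).2 (hcop.dvd_of_dvd_mul_right hdvd))⟩
  obtain rfl : i = k := by
    haveI : NeZero (q * M') := ⟨fun e => hrN (e ▸ dvd_zero r)⟩
    exact (heckeFam' (q * M') r).inj xΓ i k hxe
  refine ⟨rfl, hg.eq_of_dg_mul (dg_split s) (dg_split t)
    (LevelRaise.mul_right_cancel_det (by rw [det_heckeRep']; exact_mod_cast
      (Fact.out : r.Prime).ne_zero) h)⟩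

/-! ### The eigenvector up to a coboundary -/

variable (p : ℕ) [Fintype (Pair q)] {A : Type*} [AddCommGroup A]

open scoped Classical in
/-- **The sums over the labels are an eigenvector up to a coboundary.** -/
theorem exists_hecke_zeta [NeZero (q * M')] [NeZero (q * M' * q)] (hco : Nat.Coprime q M')
    (hrN : ¬ r ∣ q * M') (ψ : Additive (Gamma0 (q * M' * q)) →+ A) (a : ℤ)
    (hψ : (heckeFam' (q * M' * q) r).hecke ψ = a • ψ) :
    ∃ B : Cls q p → A, ∀ (γ : Gamma0 (q * M')) (c : Cls q p),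
      ∑ i, zeta p hg (ψ.comp (semb hco).toAdditive) ((heckeFam' (q * M') r).coc γ i)
          (c * (dcl q p (heckeRep' (q * M') r i))⁻¹) =
        a • zeta p hg (ψ.comp (semb hco).toAdditive) γ c + (B c - B (c * chi p γ)) := by
  have hrN2 : ¬ r ∣ q * M' * q := fun h => ((Fact.out : r.Prime).dvd_mul.1 h).elim hrN
    fun h => hrN (h.mul_right _)
  set φ := ψ.comp (semb hco).toAdditive
  set F := heckeFam' (q * M') r
  set e := idxEquiv hrN hrN2
  have hFα : F.α = heckeRep' (q * M') r := rfl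
  choose kk ss hks using exists_split_mul hg hco hrN hrN2
  set S : HeckeIdx (q * M') r → Cls q p := fun i => dcl q p (heckeRep' (q * M') r i)
  set zz : Pair q → HeckeIdx (q * M') r → Pair q := fun y i => scale (dg_heckeRep hrN i) y
  let Φ : Pair q × HeckeIdx (q * M') r → Pair q × HeckeIdx (q * M') r :=
    fun x => (zz x.1 x.2, kk x.1 x.2)
  have hΦ : Function.Bijective Φ := by
    refine Finite.injective_iff_bijective.1 fun x x' h => ?_
    obtain ⟨h1, h2⟩ := Prod.ext_iff.1 h
    obtain ⟨e1, e2⟩ := coset_inj hg hrN (s := (ss x.1 x.2)⁻¹) (t := (ss x'.1 x'.2)⁻¹)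
      (y := x.1) (z := x'.1) (i := x.2) (k := x'.2) (by
        rw [mul_assoc, mul_assoc, hks, hks, ← mul_assoc, ← mul_assoc, ← mul_assoc, ← mul_assoc,
          ← mat_mul, ← mat_mul, inv_mul_cancel, inv_mul_cancel, mat_one, one_mul, one_mul]
        simp only [Φ, zz] at h1 h2
        rw [h1, h2])
    exact Prod.ext e2 e1
  -- the cocycle of the representatives on the split group
  have hcoc : ∀ (δ : Split q M') k, ∃ (k' : HeckeIdx (q * M') r) (σ : Split q M'),
      heckeRep' (q * M') r k * mat δ = mat σ * heckeRep' (q * M') r k' ∧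
      semb hco σ = (heckeFam' (q * M' * q) r).coc (semb hco δ) (e k) := by
    intro δ k
    obtain ⟨σ, hσ⟩ := semb_surjective hco ((heckeFam' (q * M' * q) r).coc (semb hco δ) (e k))
    refine ⟨e.symm ((heckeFam' (q * M' * q) r).next (semb hco δ) (e k)), σ, ?_, hσ⟩
    refine LevelRaise.mul_left_cancel_det (dq_det_ne (q := q)) ?_
    rw [← mul_assoc, dq_heckeRep hrN hrN2, mul_assoc, semb_rel hco, ← mul_assoc,
      ← mul_assoc, semb_rel hco, mul_assoc (mat (semb hco σ)) (dq q), dq_heckeRep hrN hrN2,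
      Equiv.apply_symm_apply, ← mul_assoc, hσ]
    exact congrArg (· * dq q) ((heckeFam' (q * M' * q) r).rel (semb hco δ) (e k))
  choose kn σc hσrel hσemb using hcoc
  have hsum : ∀ δ : Split q M', ∑ k, φ (Additive.ofMul (σc δ k)) = a • φ (Additive.ofMul δ) := by
    intro δ
    show ∑ k, ψ (Additive.ofMul (semb hco (σc δ k))) = a • ψ (Additive.ofMul (semb hco δ))
    simp only [hσemb]
    rw [Equiv.sum_comp e (fun k => ψ (Additive.ofMul
      ((heckeFam' (q * M' * q) r).coc (semb hco δ) k))), ← HeckeFamily.hecke_apply, hψ]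
    rfl
  let bv : Pair q × HeckeIdx (q * M') r → A := fun x => φ (Additive.ofMul (ss x.1 x.2))
  refine ⟨fun c => ∑ x : Pair q × HeckeIdx (q * M') r,
    if lab (p := p) x.1 * S x.2 = c then bv x else 0, fun γ c => ?_⟩
  let J : Pair q × HeckeIdx (q * M') r → Pair q × HeckeIdx (q * M') r :=
    fun x => (nxt (F.coc γ x.2) x.1, F.next γ x.2)
  have hJlab : ∀ x, lab (p := p) (J x).1 * S (J x).2 = lab x.1 * S x.2 * chi p γ := by
    intro x
    show lab (p := p) (nxt (F.coc γ x.2) x.1) * S (F.next γ x.2) = _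
    have hrel : heckeRep' (q * M') r x.2 * mat γ =
        mat (F.coc γ x.2) * heckeRep' (q * M') r (F.next γ x.2) := F.rel γ x.2
    have hB := dg_heckeRep hrN x.2
    have hB' := dg_heckeRep hrN (F.next γ x.2)
    rw [lab_nxt, mul_assoc, mul_assoc, chi_apply, chi_apply]
    simp only [S]
    rw [← dcl_mul (mat_lower_eq_zero _) hB'.lower (diag_ne_zero _).1 (diag_ne_zero _).2 hB'.left
      hB'.right, ← hrel, dcl_mul hB.lower (mat_lower_eq_zero γ) hB.left hB.right (diag_ne_zero γ).1
      (diag_ne_zero γ).2]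
  have hJ : Function.Bijective J := by
    refine Finite.injective_iff_bijective.1 fun x x' h => ?_
    obtain ⟨h1, h2⟩ := Prod.ext_iff.1 h
    have h3 : x.2 = x'.2 := (F.perm γ).injective h2
    refine Prod.ext ?_ h3
    simp only [J, h3] at h1
    exact (nxtPerm hg _).injective h1
  have key : ∀ x : Pair q × HeckeIdx (q * M') r,
      φ (Additive.ofMul (dl hg (F.coc γ x.2) x.1)) =
        φ (Additive.ofMul (σc (dl hg γ (Φ x).1) (Φ x).2)) + bv x - bv (J x) := by
    rintro ⟨y, i⟩
    set ε := F.coc γ i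
    set y'' := nxt ε y
    set j := F.next γ i
    set z := zz y i
    set k := kk y i
    have h1 : ((g y : SL(2, ℤ)) : M2) * heckeRep' (q * M') r i * mat γ =
        mat (dl hg ε y * ss y'' j) * heckeRep' (q * M') r (kk y'' j) *
          ((g (zz y'' j) : SL(2, ℤ)) : M2) := by
      have hd : ((g y : SL(2, ℤ)) : M2) * mat ε = mat (dl hg ε y) * ((g y'' : SL(2, ℤ)) : M2) := by
        have := congrArg (fun x : SL(2, ℤ) => (x : M2)) (dl_mul_g hg ε y)
        simpa [mat] using this.symm
      rw [mat_mul, mul_assoc (mat (dl hg ε y)), mul_assoc (mat (dl hg ε y)), ← hks y'' j,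
        ← mul_assoc, ← hd, mul_assoc, mul_assoc, ← hFα, F.rel γ i]
    have h2 : ((g y : SL(2, ℤ)) : M2) * heckeRep' (q * M') r i * mat γ =
        mat (ss y i * σc (dl hg γ z) k) * heckeRep' (q * M') r (kn (dl hg γ z) k) *
          ((g (nxt γ z) : SL(2, ℤ)) : M2) := by
      have hd : ((g z : SL(2, ℤ)) : M2) * mat γ =
          mat (dl hg γ z) * ((g (nxt γ z) : SL(2, ℤ)) : M2) := by
        have := congrArg (fun x : SL(2, ℤ) => (x : M2)) (dl_mul_g hg γ z)
        simpa [mat] using this.symm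
      rw [hks y i, mul_assoc _ _ (mat γ), hd, mat_mul, mul_assoc (mat (ss y i)) (heckeRep' _ _ _),
        ← mul_assoc (heckeRep' (q * M') r k), hσrel]
      simp only [mul_assoc]
    have h3 := h1.symm.trans h2
    have hz : zz y'' j = nxt γ z := hg.eq_of_dg_mul
      ((dg_split _).mul (dg_heckeRep hrN _)) ((dg_split _).mul (dg_heckeRep hrN _)) h3
    rw [hz] at h3
    have h4 := LevelRaise.mul_right_cancel_det (by rw [(g (nxt γ z)).2]; exact one_ne_zero) h3
    have h5 := congrArg (fun X => dq q * X) h4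
    simp only [← mul_assoc, semb_rel hco] at h5
    rw [mul_assoc _ (dq q), mul_assoc _ (dq q), dq_heckeRep hrN hrN2, dq_heckeRep hrN hrN2,
      ← mul_assoc, ← mul_assoc] at h5
    have h6 := LevelRaise.mul_right_cancel_det dq_det_ne h5
    have hidx : e (kk y'' j) = e (kn (dl hg γ z) k) :=
      (heckeFam' (q * M' * q) r).inj
        ((semb hco (ss y i * σc (dl hg γ z) k))⁻¹ * semb hco (dl hg ε y * ss y'' j)) _ _ (by
          show _ * heckeRep' (q * M' * q) r _ = _
          rw [mat_mul, mul_assoc, h6, ← mul_assoc, ← mat_mul, inv_mul_cancel, mat_one, one_mul]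
          rfl)
    rw [hidx] at h6
    have h7 : φ (Additive.ofMul (dl hg ε y * ss y'' j)) =
        φ (Additive.ofMul (ss y i * σc (dl hg γ z) k)) :=
      congrArg (fun x => ψ (Additive.ofMul x)) ((heckeFam' (q * M' * q) r).cancel h6)
    simp only [ofMul_mul, map_add] at h7
    show φ (Additive.ofMul (dl hg ε y)) =
      φ (Additive.ofMul (σc (dl hg γ z) k)) + φ (Additive.ofMul (ss y i)) -
        φ (Additive.ofMul (ss y'' j))
    rw [eq_sub_of_add_eq h7]
    abel
  have hzlab : ∀ x : Pair q × HeckeIdx (q * M') r, lab (p := p) (Φ x).1 = lab x.1 * S x.2 :=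
    fun x => lab_scale (dg_heckeRep hrN x.2) x.1
  calc ∑ i, zeta p hg φ (F.coc γ i) (c * (S i)⁻¹)
      = ∑ x : Pair q × HeckeIdx (q * M') r, if lab (p := p) x.1 * S x.2 = c then
          φ (Additive.ofMul (dl hg (F.coc γ x.2) x.1)) else 0 := by
        rw [Fintype.sum_prod_type, Finset.sum_comm]
        refine Finset.sum_congr rfl fun i _ => Finset.sum_congr rfl fun y _ => ?_
        simp only [eq_mul_inv_iff_mul_eq]
    _ = ∑ x : Pair q × HeckeIdx (q * M') r,
          ((if lab (p := p) (Φ x).1 = c then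
              φ (Additive.ofMul (σc (dl hg γ (Φ x).1) (Φ x).2)) else 0) +
            ((if lab (p := p) x.1 * S x.2 = c then bv x else 0) -
              if lab (p := p) (J x).1 * S (J x).2 = c * chi p γ then bv (J x) else 0)) := by
        refine Finset.sum_congr rfl fun x _ => ?_
        simp only [hzlab, hJlab, mul_left_inj]
        split_ifs
        · rw [key]; abel
        · abel
    _ = _ := by
        rw [Finset.sum_add_distrib, Finset.sum_sub_distrib,
          Fintype.sum_bijective J hJ _ (fun x =>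
            if lab (p := p) x.1 * S x.2 = c * chi p γ then bv x else 0) (fun x => rfl),
          Fintype.sum_bijective Φ hΦ _ (fun x =>
            if lab (p := p) x.1 = c then φ (Additive.ofMul (σc (dl hg γ x.1) x.2)) else 0)
            (fun x => rfl), Fintype.sum_prod_type]
        congr 1
        rw [zeta, Finset.smul_sum]
        refine Finset.sum_congr rfl fun y _ => ?_
        dsimp only
        by_cases hy : lab (p := p) y = c
        · simp only [hy, if_true]
          exact hsum (dl hg γ y)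
        · simp [hy]

end FLTAgent.Entry.QOne
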