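import Fermat.Agent.Entry.QOne.Interface

/-!
# The cocycle on pairs of different residues

`Γ₀(qM')` permutes the pairs, the representatives differ by elements of the split group, and the
labels move by the character `δ/α`. The sums over a label of a parabolic homomorphism vanish at
elliptic and parabolic elements.
-/

set_option autoImplicit false

noncomputable section

open scoped MatrixGroups
open CongruenceSubgroup FLTAgent.PeriodHecke

namespace FLTAgent.Entry.QOne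

local notation "M2" => Matrix (Fin 2) (Fin 2) ℤ

variable {q p : ℕ} [Fact q.Prime] {M' : ℕ}

/-! ### Matrices diagonal modulo `q` -/

variable (q) in
/-- Invertible and diagonal modulo `q`. -/
structure Dg (A : M2) : Prop where
  upper : ((A 0 1 : ℤ) : ZMod q) = 0
  lower : ((A 1 0 : ℤ) : ZMod q) = 0
  left : ((A 0 0 : ℤ) : ZMod q) ≠ 0
  right : ((A 1 1 : ℤ) : ZMod q) ≠ 0

theorem Dg.mul {A B : M2} (hA : Dg q A) (hB : Dg q B) : Dg q (A * B) := by
  constructor <;>
    simp only [Matrix.mul_apply, Fin.sum_univ_two, Int.cast_add, Int.cast_mul, hA.upper, hA.lower,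
      hB.upper, hB.lower, mul_zero, zero_mul, add_zero, zero_add, ne_eq, mul_eq_zero, not_or]
  · exact ⟨hA.left, hB.left⟩
  · exact ⟨hA.right, hB.right⟩

theorem cast_det_eq_one (x : SL(2, ℤ)) :
    ((x 0 0 : ℤ) : ZMod q) * (x 1 1 : ℤ) - ((x 0 1 : ℤ) : ZMod q) * (x 1 0 : ℤ) = 1 := by
  have h' := x.2
  rw [Matrix.det_fin_two] at h'
  have h := congrArg (fun z : ℤ => (z : ZMod q)) h'
  simpa using h

theorem dg_split (s : Split q M') : Dg q (mat s) := by
  have h01 : ((mat s 0 1 : ℤ) : ZMod q) = 0 := (ZMod.intCast_zmod_eq_zero_iff_dvd _ _).2 s.2.1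
  have h10 : ((mat s 1 0 : ℤ) : ZMod q) = 0 := (ZMod.intCast_zmod_eq_zero_iff_dvd _ _).2 s.2.2.1
  have h : ((mat s 0 0 : ℤ) : ZMod q) * (mat s 1 1 : ℤ) - ((mat s 0 1 : ℤ) : ZMod q) *
      (mat s 1 0 : ℤ) = 1 := cast_det_eq_one (s : SL(2, ℤ))
  rw [h01, zero_mul, sub_zero] at h
  exact ⟨h01, h10, left_ne_zero_of_mul_eq_one h, right_ne_zero_of_mul_eq_one h⟩

/-- The rows are proportional to `(1, y₁)` and `(1, y₂)`. -/
def Rows (X : M2) (y : Pair q) : Prop :=
  ((X 0 1 : ℤ) : ZMod q) = (X 0 0 : ℤ) * y.1.1 ∧ ((X 1 1 : ℤ) : ZMod q) = (X 1 0 : ℤ) * y.1.2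

theorem rows_dg_mul {A X : M2} (hA : Dg q A) {y : Pair q} (h : Rows X y) : Rows (A * X) y := by
  constructor <;>
    simp only [Matrix.mul_apply, Fin.sum_univ_two, Int.cast_add, Int.cast_mul, hA.upper, hA.lower,
      zero_mul, add_zero, zero_add, h.1, h.2] <;> ring

variable {g : Pair q → SL(2, ℤ)}

theorem IsRep.rows (hg : IsRep M' g) (y : Pair q) : Rows ((g y : SL(2, ℤ)) : M2) y :=
  ⟨(hg y).2.2.2.1, (hg y).2.2.2.2⟩

/-- The pair is determined by the coset. -/
theorem IsRep.eq_of_dg_mul (hg : IsRep M' g) {A B : M2} (hA : Dg q A) (hB : Dg q B) {y z : Pair q}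
    (h : A * ((g y : SL(2, ℤ)) : M2) = B * ((g z : SL(2, ℤ)) : M2)) : y = z := by
  obtain ⟨-, h00, h10, e01, e11⟩ := hg y
  have hr := rows_dg_mul hB (hg.rows z)
  rw [← h] at hr
  obtain ⟨r1, r2⟩ := hr
  simp only [Matrix.mul_apply, Fin.sum_univ_two, Int.cast_add, Int.cast_mul, hA.upper, hA.lower,
    zero_mul, add_zero, zero_add, e01, e11] at r1 r2
  refine Subtype.ext (Prod.ext ?_ ?_)
  · exact mul_left_cancel₀ (mul_ne_zero hA.left h00) (by linear_combination r1)
  · exact mul_left_cancel₀ (mul_ne_zero hA.right h10) (by linear_combination r2)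

theorem IsRep.eq_of_split_mul (hg : IsRep M' g) {s t : Split q M'} {y z : Pair q}
    (h : (s : SL(2, ℤ)) * g y = t * g z) : y = z :=
  hg.eq_of_dg_mul (dg_split s) (dg_split t)
    (congrArg (fun x : SL(2, ℤ) => (x : M2)) h)

/-! ### The permutation of pairs -/

section Action

variable (hg : IsRep M' g)

/-- The element of the split group between representatives. -/
def dl (γ : Gamma0 (q * M')) (y : Pair q) : Split q M' :=
  ⟨g y * (γ : SL(2, ℤ)) * (g (nxt γ y))⁻¹, hg.coc_mem γ y⟩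

theorem dl_mul_g (γ : Gamma0 (q * M')) (y : Pair q) :
    (dl hg γ y : SL(2, ℤ)) * g (nxt γ y) = g y * (γ : SL(2, ℤ)) :=
  inv_mul_cancel_right _ _

include hg in
theorem nxt_mul (γ γ' : Gamma0 (q * M')) (y : Pair q) :
    nxt (γ * γ') y = nxt γ' (nxt γ y) := by
  refine hg.eq_of_split_mul (s := dl hg (γ * γ') y) (t := dl hg γ y * dl hg γ' (nxt γ y)) ?_
  rw [dl_mul_g, Subgroup.coe_mul, Subgroup.coe_mul, mul_assoc (dl hg γ y : SL(2, ℤ)), dl_mul_g,
    ← mul_assoc, ← mul_assoc, dl_mul_g]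

include hg in
theorem nxt_one (y : Pair q) : nxt (1 : Gamma0 (q * M')) y = y :=
  hg.eq_of_split_mul (s := dl hg 1 y) (t := 1) (by simpa using dl_mul_g hg 1 y)

theorem dl_mul (γ γ' : Gamma0 (q * M')) (y : Pair q) :
    dl hg (γ * γ') y = dl hg γ y * dl hg γ' (nxt γ y) := by
  refine Subtype.ext (mul_right_cancel (b := g (nxt (γ * γ') y)) ?_)
  rw [dl_mul_g, Subgroup.coe_mul, Subgroup.coe_mul, nxt_mul hg, mul_assoc (dl hg γ y : SL(2, ℤ)),
    dl_mul_g, ← mul_assoc, ← mul_assoc, dl_mul_g]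

theorem dl_one (y : Pair q) : dl hg 1 y = 1 := by
  refine Subtype.ext (mul_right_cancel (b := g (nxt (1 : Gamma0 (q * M')) y)) ?_)
  rw [dl_mul_g, nxt_one hg]
  simp

/-- The permutation of pairs. -/
def nxtPerm (γ : Gamma0 (q * M')) : Equiv.Perm (Pair q) where
  toFun := nxt γ
  invFun := nxt γ⁻¹
  left_inv y := by rw [← nxt_mul hg, mul_inv_cancel, nxt_one hg]
  right_inv y := by rw [← nxt_mul hg, inv_mul_cancel, nxt_one hg]

@[simp] theorem nxtPerm_apply (γ : Gamma0 (q * M')) (y : Pair q) : nxtPerm hg γ y = nxt γ y := rfl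

end Action

/-! ### The labels -/

variable (q p) in
open scoped Classical in
/-- The class of `δ/α`. -/
def dcl (A : M2) : Cls q p :=
  if h : ((A 0 0 : ℤ) : ZMod q) ≠ 0 ∧ ((A 1 1 : ℤ) : ZMod q) ≠ 0 then
    QuotientGroup.mk (Units.mk0 _ h.2 / Units.mk0 _ h.1)
  else 1

theorem dcl_eq {A : M2} (h0 : ((A 0 0 : ℤ) : ZMod q) ≠ 0) (h1 : ((A 1 1 : ℤ) : ZMod q) ≠ 0) :
    dcl q p A = QuotientGroup.mk (Units.mk0 _ h1 / Units.mk0 _ h0) := dif_pos ⟨h0, h1⟩

theorem dcl_mul {A B : M2} (hA : ((A 1 0 : ℤ) : ZMod q) = 0) (hB : ((B 1 0 : ℤ) : ZMod q) = 0)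
    (a0 : ((A 0 0 : ℤ) : ZMod q) ≠ 0) (a1 : ((A 1 1 : ℤ) : ZMod q) ≠ 0)
    (b0 : ((B 0 0 : ℤ) : ZMod q) ≠ 0) (b1 : ((B 1 1 : ℤ) : ZMod q) ≠ 0) :
    dcl q p (A * B) = dcl q p A * dcl q p B := by
  have e0 : (((A * B) 0 0 : ℤ) : ZMod q) = (A 0 0 : ℤ) * (B 0 0 : ℤ) := by
    simp [Matrix.mul_apply, Fin.sum_univ_two, hB]
  have e1 : (((A * B) 1 1 : ℤ) : ZMod q) = (A 1 1 : ℤ) * (B 1 1 : ℤ) := by
    simp [Matrix.mul_apply, Fin.sum_univ_two, hA]
  rw [dcl_eq a0 a1, dcl_eq b0 b1, dcl_eq (e0 ▸ mul_ne_zero a0 b0) (e1 ▸ mul_ne_zero a1 b1),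
    ← QuotientGroup.mk_mul, div_mul_div_comm]
  congr 2 <;> exact Units.ext (by simp [e0, e1])

theorem mat_lower_eq_zero (γ : Gamma0 (q * M')) : ((mat γ 1 0 : ℤ) : ZMod q) = 0 :=
  (ZMod.intCast_zmod_eq_zero_iff_dvd _ _).2
    ((Int.natCast_dvd_natCast.2 (dvd_mul_right q M')).trans (dvd_lower_left _ γ))

variable (p) in
/-- The character moving the labels. -/
def chi : Gamma0 (q * M') →* Cls q p where
  toFun γ := dcl q p (mat γ)
  map_one' := by
    rw [mat_one, dcl_eq (by simp) (by simp)]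
    simp
  map_mul' γ γ' := by
    rw [mat_mul, dcl_mul (mat_lower_eq_zero γ) (mat_lower_eq_zero γ') (diag_ne_zero γ).1
      (diag_ne_zero γ).2 (diag_ne_zero γ').1 (diag_ne_zero γ').2]

theorem chi_apply (γ : Gamma0 (q * M')) : chi p γ = dcl q p (mat γ) := rfl

theorem lab_nxt (γ : Gamma0 (q * M')) (y : Pair q) :
    lab (p := p) (nxt γ y) = lab y * chi p γ := by
  obtain ⟨h0, h1⟩ := diag_ne_zero γ
  rw [chi_apply, dcl_eq h0 h1, lab, lab, ← QuotientGroup.mk_mul]
  refine congrArg QuotientGroup.mk (Units.ext ?_)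
  simp only [nxt, Units.val_mk0, Units.val_mul, Units.val_div_eq_div_val]
  field_simp
  ring

/-- An element of trace `0` or `±2` fixes every label. -/
theorem chi_eq_one_of_trace (hp : Odd p) (hM : 2 ∣ M') (γ : Gamma0 (q * M'))
    (hγ : (mat γ).trace ^ 2 ≤ 4) : chi p γ = 1 := by
  obtain ⟨h0, h1⟩ := diag_ne_zero γ
  rw [chi_apply, dcl_eq h0 h1, QuotientGroup.eq_one_iff]
  have hdet := mat_det γ
  rw [Matrix.det_fin_two] at hdet
  rw [Matrix.trace_fin_two] at hγ
  have hodd : Even (mat γ 0 0 + mat γ 1 1) := by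
    have hc : (2 : ℤ) ∣ mat γ 1 0 := (Int.natCast_dvd_natCast.2 (dvd_mul_of_dvd_right hM q)).trans
      (dvd_lower_left _ γ)
    have hprod : Odd (mat γ 0 0 * mat γ 1 1) := by
      obtain ⟨c, hc⟩ := hc
      exact ⟨mat γ 0 1 * c, by linear_combination hdet + mat γ 0 1 * hc⟩
    exact (Int.odd_mul.1 hprod).1.add_odd (Int.odd_mul.1 hprod).2
  have hq : ((mat γ 0 0 : ℤ) : ZMod q) * (mat γ 1 1 : ℤ) = 1 := by
    have h := congrArg (fun z : ℤ => (z : ZMod q)) hdet
    simpa [mat_lower_eq_zero] using h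
  have hb : -2 ≤ mat γ 0 0 + mat γ 1 1 ∧ mat γ 0 0 + mat γ 1 1 ≤ 2 := by constructor <;> nlinarith
  have hsum : ∀ t : ℤ, mat γ 0 0 + mat γ 1 1 = t →
      ((mat γ 0 0 : ℤ) : ZMod q) + (mat γ 1 1 : ℤ) = t := fun t ht => by rw [← ht]; push_cast; rfl
  obtain ⟨t, ht⟩ := hodd
  obtain h | h | h : mat γ 0 0 + mat γ 1 1 = -2 ∨ mat γ 0 0 + mat γ 1 1 = 0 ∨
      mat γ 0 0 + mat γ 1 1 = 2 := by omega
  · have hs := hsum _ h
    push_cast at hs
    have he : ((mat γ 0 0 : ℤ) : ZMod q) = -1 := by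
      have : (((mat γ 0 0 : ℤ) : ZMod q) + 1) ^ 2 = 0 := by
        linear_combination ((mat γ 0 0 : ℤ) : ZMod q) * hs - hq
      exact eq_neg_of_add_eq_zero_left (pow_eq_zero_iff two_ne_zero |>.1 this)
    have heq : Units.mk0 _ h1 = Units.mk0 _ h0 := Units.ext (by
      simp only [Units.val_mk0]
      linear_combination hs - 2 * he)
    rw [heq, div_self']
    exact one_mem _
  · have hs := hsum _ h
    push_cast at hs
    refine ⟨-1, ?_⟩
    rw [powMonoidHom_apply, Odd.neg_one_pow (α := (ZMod q)ˣ) (hp.pow (n := q)), eq_div_iff_mul_eq']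
    exact Units.ext (by simp only [Units.val_mk0, Units.val_mul, Units.val_neg, Units.val_one]
                        linear_combination -hs)
  · have hs := hsum _ h
    push_cast at hs
    have he : ((mat γ 0 0 : ℤ) : ZMod q) = 1 := by
      have : (((mat γ 0 0 : ℤ) : ZMod q) - 1) ^ 2 = 0 := by
        linear_combination ((mat γ 0 0 : ℤ) : ZMod q) * hs - hq
      exact sub_eq_zero.1 (pow_eq_zero_iff two_ne_zero |>.1 this)
    have heq : Units.mk0 _ h1 = Units.mk0 _ h0 := Units.ext (by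
      simp only [Units.val_mk0]
      linear_combination hs - 2 * he)
    rw [heq, div_self']
    exact one_mem _

/-! ### The cocycle -/

/-- A sum over a finite type vanishes when all orbit sums of a permutation do. -/
theorem sum_eq_zero_of_orbits {I A : Type*} [Fintype I] [AddCommGroup A] (σ : Equiv.Perm I)
    (f : I → A)
    (h : ∀ i, ∑ k ∈ Finset.range (Function.minimalPeriod σ i), f (σ^[k] i) = 0) :
    ∑ i, f i = 0 := by
  classical
  let S : Setoid I := Equiv.Perm.SameCycle.setoid σ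
  rw [Finset.sum_partition S]
  refine Finset.sum_eq_zero fun c hc => ?_
  obtain ⟨i, -, rfl⟩ := Finset.mem_image.1 hc
  have hd : 0 < Function.minimalPeriod σ i := Function.minimalPeriod_pos_of_mem_periodicPts
    (Function.injective_iff_periodicPts_eq_univ.1 σ.injective ▸ Set.mem_univ i)
  rw [← h i, ← Finset.sum_image (f := f) (g := fun k => σ^[k] i)]
  · refine Finset.sum_congr ?_ fun _ _ => rfl
    ext j
    simp only [Finset.mem_filter, Finset.mem_univ, true_and, Quotient.eq, Finset.mem_image,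
      Finset.mem_range]
    constructor
    · intro hj
      obtain ⟨k, hk⟩ := (Equiv.Perm.SameCycle.symm hj).exists_nat_pow_eq
      refine ⟨k % Function.minimalPeriod σ i, Nat.mod_lt _ hd, ?_⟩
      rw [Function.iterate_mod_minimalPeriod_eq, ← hk]
      simp [Equiv.Perm.coe_pow]
    · rintro ⟨k, -, rfl⟩
      exact Equiv.Perm.SameCycle.symm ⟨k, by rw [zpow_natCast, Equiv.Perm.coe_pow]⟩
  · intro a ha b hb hab
    exact (Function.iterate_eq_iterate_iff_of_lt_minimalPeriod (Finset.mem_range.1 ha)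
      (Finset.mem_range.1 hb)).1 hab

variable [Fintype (Pair q)] {A : Type*} [AddCommGroup A] (hg : IsRep M' g)
  (φ : Additive (Split q M') →+ A)

variable (p) in
open scoped Classical in
/-- The sums over the labels. -/
def zeta (γ : Gamma0 (q * M')) (c : Cls q p) : A :=
  ∑ y : Pair q, if lab (p := p) y = c then φ (Additive.ofMul (dl hg γ y)) else 0

theorem zeta_mul (γ γ' : Gamma0 (q * M')) (c : Cls q p) :
    zeta p hg φ (γ * γ') c = zeta p hg φ γ c + zeta p hg φ γ' (c * chi p γ) := by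
  classical
  unfold zeta
  rw [← Equiv.sum_comp (nxtPerm hg γ) (fun y => if lab (p := p) y = c * chi p γ then _ else 0),
    ← Finset.sum_add_distrib]
  refine Finset.sum_congr rfl fun y _ => ?_
  simp only [nxtPerm_apply, lab_nxt, mul_left_inj]
  split_ifs with h
  · rw [dl_mul hg, ofMul_mul, map_add]
  · rw [add_zero]

theorem dl_pow (γ : Gamma0 (q * M')) (y : Pair q) (d : ℕ) :
    nxt (γ ^ d) y = (nxtPerm hg γ)^[d] y ∧ φ (Additive.ofMul (dl hg (γ ^ d) y)) =
      ∑ k ∈ Finset.range d, φ (Additive.ofMul (dl hg γ ((nxtPerm hg γ)^[k] y))) := by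
  induction d with
  | zero => simp [nxt_one hg, dl_one hg]
  | succ d ih =>
    rw [pow_succ, nxt_mul hg, dl_mul hg, ofMul_mul, map_add, Finset.sum_range_succ, ih.2, ih.1,
      Function.iterate_succ_apply']
    exact ⟨rfl, rfl⟩

/-- The sums vanish at elliptic and parabolic elements. -/
theorem zeta_eq_zero (hp : Odd p) (hM : 2 ∣ M')
    (hφ : ∀ s : Split q M', (mat s).trace ^ 2 ≤ 4 → φ (Additive.ofMul s) = 0)
    (γ : Gamma0 (q * M')) (hγ : (mat γ).trace ^ 2 ≤ 4) (c : Cls q p) : zeta p hg φ γ c = 0 := by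
  classical
  have hchi := chi_eq_one_of_trace (p := p) hp hM γ hγ
  have hlab : ∀ (k : ℕ) y, lab (p := p) ((nxtPerm hg γ)^[k] y) = lab y := by
    intro k y
    induction k with
    | zero => rfl
    | succ k ih => rw [Function.iterate_succ_apply', nxtPerm_apply, lab_nxt, hchi, mul_one, ih]
  refine sum_eq_zero_of_orbits (nxtPerm hg γ) _ fun y => ?_
  simp only [hlab]
  by_cases hy : lab (p := p) y = c
  swap
  · simp [hy]
  simp only [hy, if_true]
  obtain ⟨h1, h2⟩ := dl_pow hg φ γ y (Function.minimalPeriod (nxtPerm hg γ) y)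
  rw [← h2]
  refine hφ _ ?_
  rw [Function.iterate_minimalPeriod] at h1
  set d := Function.minimalPeriod (nxtPerm hg γ) y
  have hr := dl_mul_g hg (γ ^ d) y
  rw [h1] at hr
  have htr : (mat (dl hg (γ ^ d) y)).trace = (mat (γ ^ d)).trace := by
    show ((dl hg (γ ^ d) y : SL(2, ℤ)) : M2).trace = (((γ ^ d : Gamma0 (q * M')) : SL(2, ℤ)) : M2).trace
    rw [eq_mul_inv_of_mul_eq hr, Matrix.SpecialLinearGroup.coe_mul, Matrix.trace_mul_comm,
      ← Matrix.SpecialLinearGroup.coe_mul, inv_mul_cancel_left]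
  rw [htr, show mat (γ ^ d) = mat γ ^ d by simp [mat]]
  exact trace_pow_le _ (mat_det γ) hγ d

end FLTAgent.Entry.QOne
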