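import Fermat.Agent.PeriodHecke.Families

/-!
# Lowering `q²` for `q ≡ 1`: classes of pairs of roots and the cohomological statement

`Split` is the conjugate of `Γ₀(q²M')` inside `Γ₀(M')`. A pair of different residues stands for a
coset of `Split` with both rows finite; it is labelled by the difference modulo the elements of
order prime to `p`. The sums of a homomorphism over the pairs of one label form a cocycle on
`Γ₀(qM')`; `TargetCoboundary` says that it is a coboundary.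
-/

set_option autoImplicit false

noncomputable section

open scoped MatrixGroups
open CongruenceSubgroup FLTAgent.PeriodHecke

namespace FLTAgent.Entry.QOne

/-- The elements of `Γ₀(M')` diagonal modulo `q`. -/
def Split (q M' : ℕ) : Subgroup SL(2, ℤ) where
  carrier := {γ | (q : ℤ) ∣ γ 0 1 ∧ (q : ℤ) ∣ γ 1 0 ∧ (M' : ℤ) ∣ γ 1 0}
  one_mem' := by simp
  mul_mem' := fun {a b} ha hb => by
    simp only [Set.mem_ofPred_eq, Matrix.SpecialLinearGroup.coe_mul, Matrix.mul_apply,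
      Fin.sum_univ_two] at ha hb ⊢
    exact ⟨dvd_add (dvd_mul_of_dvd_right hb.1 _) (dvd_mul_of_dvd_left ha.1 _),
      dvd_add (dvd_mul_of_dvd_left ha.2.1 _) (dvd_mul_of_dvd_right hb.2.1 _),
      dvd_add (dvd_mul_of_dvd_left ha.2.2 _) (dvd_mul_of_dvd_right hb.2.2 _)⟩
  inv_mem' := fun {a} ha => by
    simpa [Matrix.SpecialLinearGroup.coe_inv, Matrix.adjugate_fin_two] using ha

/-- The image in `Γ₀(q²M')` under conjugation by `diag(1, q)`. -/
def splitEmb (q M' : ℕ) (γ : Split q M') (hco : Nat.Coprime q M') : Gamma0 (q * M' * q) :=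
  gamma0Mk (q * M' * q) ((γ : SL(2, ℤ)) 0 0) ((γ : SL(2, ℤ)) 0 1 / q) ((γ : SL(2, ℤ)) 1 0 * q)
    ((γ : SL(2, ℤ)) 1 1)
    (by
      have h := (γ : SL(2, ℤ)).2
      rw [Matrix.det_fin_two] at h
      rw [show (γ : SL(2, ℤ)) 0 1 / (q : ℤ) * ((γ : SL(2, ℤ)) 1 0 * q) =
        ((γ : SL(2, ℤ)) 0 1 / (q : ℤ) * q) * (γ : SL(2, ℤ)) 1 0 by ring,
        Int.ediv_mul_cancel γ.2.1]
      exact h)
    (by
      push_cast
      exact mul_dvd_mul_right ((Int.isCoprime_iff_nat_coprime.mpr (by simpa using hco)).mul_dvd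
        γ.2.2.1 γ.2.2.2) _)

open scoped Classical in
/-- The values on the split group. -/
def hs {q M' : ℕ} (hco : Nat.Coprime q M') {A : Type*} [AddCommGroup A]
    (ψ : Additive (Gamma0 (q * M' * q)) →+ A) (x : SL(2, ℤ)) : A :=
  if h : x ∈ Split q M' then ψ (Additive.ofMul (splitEmb q M' ⟨x, h⟩ hco)) else 0

variable (q p : ℕ) [Fact q.Prime]

/-- Pairs of different residues. -/
abbrev Pair : Type := {y : ZMod q × ZMod q // y.1 ≠ y.2}

/-- The labels: units modulo those of order prime to `p`. -/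
abbrev Cls : Type := (ZMod q)ˣ ⧸ (powMonoidHom (p ^ q) : (ZMod q)ˣ →* (ZMod q)ˣ).range

variable {q p}

/-- The label of a pair. -/
def lab (y : Pair q) : Cls q p :=
  QuotientGroup.mk (Units.mk0 (y.1.2 - y.1.1) (sub_ne_zero.2 (Ne.symm y.2)))

variable {M' : ℕ}

theorem diag_ne_zero (γ : Gamma0 (q * M')) :
    ((mat γ 0 0 : ℤ) : ZMod q) ≠ 0 ∧ ((mat γ 1 1 : ℤ) : ZMod q) ≠ 0 := by
  have h10 : ((mat γ 1 0 : ℤ) : ZMod q) = 0 := (ZMod.intCast_zmod_eq_zero_iff_dvd _ _).2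
    ((Int.natCast_dvd_natCast.2 (dvd_mul_right q M')).trans (dvd_lower_left _ γ))
  have h := congrArg (fun z : ℤ => (z : ZMod q)) (mat_det γ)
  simp only [Matrix.det_fin_two, Int.cast_sub, Int.cast_mul, h10, mul_zero, sub_zero,
    Int.cast_one] at h
  exact ⟨left_ne_zero_of_mul_eq_one h, right_ne_zero_of_mul_eq_one h⟩

/-- The right action of `Γ₀(qM')` on pairs. -/
def nxt (γ : Gamma0 (q * M')) (y : Pair q) : Pair q :=
  ⟨((((mat γ 0 1 : ℤ) : ZMod q) + y.1.1 * (mat γ 1 1 : ℤ)) / (mat γ 0 0 : ℤ),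
    (((mat γ 0 1 : ℤ) : ZMod q) + y.1.2 * (mat γ 1 1 : ℤ)) / (mat γ 0 0 : ℤ)), fun h => y.2 <| by
      obtain ⟨h0, h1⟩ := diag_ne_zero γ
      exact mul_right_cancel₀ h1 (add_left_cancel ((div_left_inj' h0).1 h))⟩

/-- Representatives of pairs: rows proportional to `(1, y₁)` and `(1, y₂)` modulo `q`. -/
def IsRep (M' : ℕ) (g : Pair q → SL(2, ℤ)) : Prop :=
  ∀ y, g y ∈ Gamma0 M' ∧ ((g y 0 0 : ℤ) : ZMod q) ≠ 0 ∧ ((g y 1 0 : ℤ) : ZMod q) ≠ 0 ∧
    ((g y 0 1 : ℤ) : ZMod q) = (g y 0 0 : ℤ) * y.1.1 ∧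
    ((g y 1 1 : ℤ) : ZMod q) = (g y 1 0 : ℤ) * y.1.2

/-- The representatives differ by elements of the split group. -/
theorem IsRep.coc_mem {g : Pair q → SL(2, ℤ)} (hg : IsRep M' g)
    (γ : Gamma0 (q * M')) (y : Pair q) :
    g y * (γ : SL(2, ℤ)) * (g (nxt γ y))⁻¹ ∈ Split q M' := by
  obtain ⟨hm, -, -, e01, e11⟩ := hg y
  obtain ⟨hm', -, -, f01, f11⟩ := hg (nxt γ y)
  obtain ⟨h0, h1⟩ := diag_ne_zero γ
  have hdvd := dvd_lower_left _ γ
  push_cast at hdvd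
  have h10 : ((mat γ 1 0 : ℤ) : ZMod q) = 0 :=
    (ZMod.intCast_zmod_eq_zero_iff_dvd _ _).2 ((dvd_mul_right _ _).trans hdvd)
  have hγ : (γ : SL(2, ℤ)) ∈ Gamma0 M' :=
    Gamma0_mem.2 ((ZMod.intCast_zmod_eq_zero_iff_dvd _ _).2 ((dvd_mul_left _ _).trans hdvd))
  have hn : (nxt γ y).1.1 = (((mat γ 0 1 : ℤ) : ZMod q) + y.1.1 * (mat γ 1 1 : ℤ)) / (mat γ 0 0 : ℤ) ∧
      (nxt γ y).1.2 = (((mat γ 0 1 : ℤ) : ZMod q) + y.1.2 * (mat γ 1 1 : ℤ)) / (mat γ 0 0 : ℤ) :=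
    ⟨rfl, rfl⟩
  generalize g (nxt γ y) = z at hm' f01 f11 ⊢
  generalize nxt γ y = y' at hn f01 f11
  rw [hn.1] at f01
  rw [hn.2] at f11
  refine ⟨?_, ?_, (ZMod.intCast_zmod_eq_zero_iff_dvd _ _).1
    (Gamma0_mem.1 (mul_mem (mul_mem hm hγ) (inv_mem hm')))⟩
  all_goals
    rw [← ZMod.intCast_zmod_eq_zero_iff_dvd]
    simp only [Matrix.SpecialLinearGroup.coe_mul, Matrix.SpecialLinearGroup.coe_inv,
      Matrix.adjugate_fin_two, Matrix.mul_apply, Fin.sum_univ_two, Matrix.of_apply,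
      Matrix.cons_val', Matrix.cons_val_zero, Matrix.cons_val_one, Matrix.cons_val_fin_one,
      Int.cast_add, Int.cast_mul, Int.cast_neg]
    simp only [mat] at h0 h10
    simp only [h10, e01, e11, f01, f11, mat]
    field_simp
    ring

/-- The sums over the pairs with one label form a coboundary. -/
def TargetCoboundary : Prop :=
  ∀ (q M' p : ℕ) [Fact q.Prime] [NeZero q] [NeZero M'] [NeZero (q * M')] [NeZero (q * M' * q)]
    [Fact p.Prime] [Fintype (Pair q)] (hco : Nat.Coprime q M'), 2 ∣ M' → p ≠ 2 → p ∣ q - 1 →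
  ∀ (bad : Finset ℕ) (a : ℕ → ℤ),
    (∃ r : ℕ, r.Prime ∧ r ∉ bad ∧ ¬ r ∣ q * M' ∧ ((a r : ℤ) : ZMod p) ≠ (r : ZMod p) + 1) →
    (∀ η ∈ Hpar (Gamma0 (q * M')) (ZMod p),
      (∀ (r : ℕ) [Fact r.Prime], r ∉ bad → ¬ r ∣ q * M' →
        (heckeFam (q * M') r).hecke η = a r • η) → η = 0) →
  ∀ ψ ∈ Hpar (Gamma0 (q * M' * q)) (ZMod p),
    (∀ (r : ℕ) [Fact r.Prime], r ∉ bad → ¬ r ∣ q * M' →
      (heckeFam' (q * M' * q) r).hecke ψ = a r • ψ) →
  ∀ g : Pair q → SL(2, ℤ), IsRep M' g →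
    ∃ E : Cls q p → ZMod p, ∀ (γ : Gamma0 (q * M')) (y₀ : Pair q),
      haveI : DecidableEq (Cls q p) := Classical.decEq _
      (∑ y ∈ Finset.univ.filter (fun y : Pair q => lab (p := p) y = lab y₀),
        hs hco ψ (g y * (γ : SL(2, ℤ)) * (g (nxt γ y))⁻¹)) =
        E (lab (nxt γ y₀)) - E (lab y₀)

end FLTAgent.Entry.QOne
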