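import Fermat.Agent.Carayol.Normalise

/-!
# Orders of a function with both norms constant multiples of `p`th powers, `q ≡ 1` modulo `p`

The expansions at the branches of kinds `0` and `2` have coefficients in the small ring, so the
orders there are multiples of `q - 1`; the difference of the two roots has order one on the middle
kind. Hence the orders are congruent to one multiple of `q - 1` modulo `p`, and the function is,
up to a power of `q` and a `p`th power, outside all branches, with normalised norm relations.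
-/

set_option autoImplicit false
set_option linter.unusedSectionVars false
set_option linter.style.haveILetI false

noncomputable section

open UpperHalfPlane hiding I I_re I_im
open Filter Topology Complex Function FLTAgent.ModEq FLTAgent.GoodModel ModularCurve
open scoped MatrixGroups Manifold Classical

namespace FLTAgent.Carayol

variable {q M0 N' : ℕ} [NeZero M0] [NeZero N'] [NeZero q] [Fact q.Prime]

namespace Ctx

variable {C : Ctx q M0 N'}

theorem root_none_or_zero {σ : C.S ≃+* C.S} (hσ : ∀ w, σ (C.inc w) = C.inc w)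
    {r : Option (ZMod q)} (hr : r = none ∨ r = some 0) :
    coeffMap σ.toRingHom (C.rHom r C.co.H) = C.rHom r C.co.H := by
  obtain ⟨π, -, h1, h0, hπ⟩ := C.exists_root_perm hσ
  rw [hπ]
  rcases hr with rfl | rfl
  · rw [h1]
  · rw [h0]

theorem emb_xR (l : C.Idx) (b : Bool) : C.emb l (C.xR b) = C.rHom (C.rt l b) C.co.H :=
  (C.embAt_eq _ (C.rX_mem _) (C.rt_spec l b)).trans (C.ser_rX _)

/-- An embedding with both roots rational has expansions over the small ring. -/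
theorem coeff_emb_of_rt (hF : C.FixedPart) {l : C.Idx}
    (h : ∀ b, C.rt l b = none ∨ C.rt l b = some 0) (a : C.R) (i : ℤ) :
    (C.emb l a).coeff i ∈ C.inc.range := by
  refine hF _ fun σ hσ => ?_
  obtain ⟨e, he⟩ := C.exists_galois_perm hσ
  have hn := C.node_mem0 (C.sheet l).2
  have hel : e l = l := by
    refine C.idx_ext (C.emb_etaR_iff.1 ?_) ((C.emb_xR_iff false).1 ?_) ((C.emb_xR_iff true).1 ?_)
    · rw [← he, show C.emb l C.etaR = ser ⟨(C.sheet l).1, C.lift_level hn⟩ from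
        C.embAt_eq _ (C.lift_level hn) rfl]
      exact C.ser_lift_fix hσ hn
    all_goals rw [← he, C.emb_xR]; exact C.root_none_or_zero hσ (h _)
  have h2 := congrArg (fun z : LaurentSeries C.S => z.coeff i) (he l a)
  rw [hel] at h2
  simpa using h2

theorem fib_eq_of_mem {b : Bool} {l l' : C.Idx} (h : l' ∈ C.fib b l) : C.fib b l' = C.fib b l := by
  obtain ⟨e1, e2⟩ := C.mem_fib'.1 h
  ext x
  simp only [C.mem_fib', e1, e2]

end Ctx

variable {C : Ctx q M0 N'} {k : Type} [Field k] {Ω : Res C k} (ρ : Ram Ω)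
variable [IsDiscreteValuationRing C.S]

namespace Ram

theorem dvd_ord_of_small : ∀ (i : ℕ) {X : LaurentSeries C.S},
    (∀ j, X.coeff j ∈ C.inc.range) → ρ.Ord X i → (q - 1) ∣ i := by
  intro i
  induction i using Nat.strong_induction_on with
  | _ i ih =>
    intro X hX hi
    by_cases hz : Ω.rd X = 0
    · choose w hw using hX
      have hw' : ∀ j, ∃ w', w j = (q : C.W) * w' := fun j => Ω.kerW _ (by
        have := congrArg (fun z : LaurentSeries k => z.coeff j) hz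
        simp only [coeffMap_coeff, HahnSeries.coeff_zero] at this
        rwa [hw])
      choose w' hw' using hw'
      have hq0 : (q : C.S) ≠ 0 := Nat.cast_ne_zero.2 (NeZero.ne q)
      let Y : LaurentSeries C.S :=
        { coeff := fun j => C.inc (w' j)
          isPWO_support' := X.isPWO_support.mono fun j hj => by
            rw [HahnSeries.mem_support, ← hw j, hw', map_mul, map_natCast]
            exact mul_ne_zero hq0 hj }
      have hXY : X = (q : LaurentSeries C.S) * Y := by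
        ext j
        rw [← map_natCast (HahnSeries.C : C.S →+* LaurentSeries C.S), HahnSeries.C_mul_eq_smul,
          HahnSeries.coeff_smul, smul_eq_mul, ← hw j, hw', map_mul, map_natCast]
      have hY : Y ≠ 0 := fun h => ρ.ord_ne hi (by rw [hXY, h, mul_zero])
      obtain ⟨i', hi'⟩ := ρ.exists_ord hY
      have he := ρ.ord_unique hi (hXY ▸ ρ.ord_mul ρ.ord_natCast hi')
      have h2 := C.hq.two_le
      have := ih i' (by omega) (fun j => ⟨_, rfl⟩) hi'
      rw [he]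
      exact dvd_add dvd_rfl this
    · rw [ρ.ord_unique hi (ρ.ord_zero_iff.2 hz)]
      exact dvd_zero _

variable [IsAlgClosed k] [IsNoetherianRing C.W]

theorem dvd_oe_of_kind {l : C.Idx} (hl : C.kind l ≠ 1) {x : C.R} (hx : x ≠ 0) :
    (q - 1) ∣ ρ.oe l x := by
  rw [ρ.oe_lg l hx]
  refine ρ.dvd_ord_of_small _ (fun i => C.coeff_emb_of_rt Ω.fixed (fun b => ?_) x i) (ρ.ord_oe hx)
  rw [(C.lg_data _ _).2]
  revert hl
  generalize C.kind l = j
  intro hl
  fin_cases j <;> cases b <;> simp_all [Ctx.kroot]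

theorem not_sq_dvd_zeta {z : C.S} (hz : IsPrimitiveRoot z q) : ¬ ρ.ϖ ^ 2 ∣ z - 1 := by
  intro h
  have hq := C.hq
  have hprod : ∏ μ ∈ primitiveRoots q C.S, (1 - μ) = (q : C.S) := by
    have h1 := congrArg (Polynomial.eval (1 : C.S))
      (Polynomial.cyclotomic_eq_prod_X_sub_primitiveRoots hz)
    rw [Polynomial.eval_one_cyclotomic_prime, Polynomial.eval_prod] at h1
    rw [h1]
    simp
  have hall : ∀ μ ∈ primitiveRoots q C.S, ρ.ϖ ^ 2 ∣ 1 - μ := by
    intro μ hμ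
    obtain ⟨i, -, rfl⟩ := hz.eq_pow_of_pow_eq_one ((mem_primitiveRoots hq.pos).1 hμ).pow_eq_one
    exact h.trans (by simpa [neg_sub] using (sub_one_dvd_pow_sub_one z i).neg_right)
  have h2 := Finset.prod_dvd_prod_of_dvd _ _ hall
  rw [Finset.prod_const, hz.card_primitiveRoots, Nat.totient_prime hq, hprod, ρ.hq, ← pow_mul] at h2
  have h3 : ρ.ϖ ^ (2 * (q - 1)) ∣ ρ.ϖ ^ (q - 1) := ρ.hu.dvd_mul_left.1 h2
  have := (pow_dvd_pow_iff ρ.irr.ne_zero ρ.irr.not_isUnit).1 h3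
  have := hq.two_le
  omega

/-- On the middle kind the difference of the two roots has order one. -/
theorem oe_diff_middle (g : C.Sheet) :
    C.xR false - C.xR true ≠ 0 ∧ ρ.oe (C.lg g 1) (C.xR false - C.xR true) = 1 := by
  set X := C.emb (C.lg g 1) (C.xR false - C.xR true) with hX
  have hXe : X = C.rHom (some 0) C.co.H - C.rHom (some 1) C.co.H := by
    rw [hX, map_sub, Ctx.emb_xR, Ctx.emb_xR, (C.lg_data g 1).2, (C.lg_data g 1).2]
    rfl
  have hrd : Ω.rd X = 0 := by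
    rw [hXe, map_sub, Ω.rd_rHom_some, Ω.rd_rHom_some, sub_self]
  have hco : ¬ ρ.ϖ ^ 2 ∣ X.coeff (((1 * N' : ℕ) : ℤ) * (-1)) := by
    have hprim : IsPrimitiveRoot ((C.zq⁻¹ : C.Sˣ) : C.S) q :=
      (IsPrimitiveRoot.coe_units_iff).2 ((IsPrimitiveRoot.coe_units_iff).1 C.zq_primitive).inv
    rw [hXe, HahnSeries.coeff_sub, C.rHom_some, C.rHom_some, substHom_coeff_mul, substHom_coeff_mul,
      ZMod.val_zero, ZMod.val_one, pow_zero, one_zpow, pow_one, zpow_neg_one, coeffMap_coeff,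
      Units.val_one, one_mul]
    set c := C.inc (C.co.H.coeff (-1))
    have hc : IsUnit c := C.co.leadH.2.map C.inc
    rw [show c - ((C.zq⁻¹ : C.Sˣ) : C.S) * c = -((((C.zq⁻¹ : C.Sˣ) : C.S) - 1) * c) by ring,
      dvd_neg, hc.dvd_mul_right]
    exact ρ.not_sq_dvd_zeta hprim
  have hne : X ≠ 0 := fun h => hco (by rw [h, HahnSeries.coeff_zero]; exact dvd_zero _)
  refine ⟨fun h => hne (by rw [hX, h, map_zero]), ?_⟩
  obtain ⟨i, hi⟩ := ρ.exists_ord hne
  refine (ρ.ordS_eq hi).trans ?_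
  have h0 : i ≠ 0 := fun h => (ρ.ord_zero_iff.1 (h ▸ hi)) hrd
  by_contra h1
  obtain ⟨Y, -, hY⟩ := hi
  refine hco ?_
  rw [hY, ← map_pow, HahnSeries.C_mul_eq_smul, HahnSeries.coeff_smul, smul_eq_mul]
  exact dvd_mul_of_dvd_left (pow_dvd_pow _ (by omega)) _

/-- An element with orders prescribed on all branches. -/
theorem exists_orders_gen (t : C.Sheet → Fin 3 → ℕ)
    (ht : ∀ g j g' j', RingHom.ker (Ω.rs g j) = RingHom.ker (Ω.rs g' j') → t g j = t g' j')
    (hdiv : ∀ g j, j ≠ 1 → (q - 1) ∣ t g j) :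
    ∃ r : C.R, r ≠ 0 ∧ ∀ g j, ρ.oe (C.lg g j) r = t g j := by
  haveI : Fintype C.Sheet := Finset.Subtype.fintype C.nodes
  set K : C.Sheet × Fin 3 → Ideal C.R := fun i => RingHom.ker (Ω.rs i.1 i.2)
  set ks := (Finset.univ : Finset (C.Sheet × Fin 3)).image K
  haveI : ∀ i, (K i).IsPrime := fun i => RingHom.ker_isPrime _
  have hrep : ∀ P ∈ ks, ∃ i, K i = P := fun P hP => by
    obtain ⟨i, -, hi⟩ := Finset.mem_image.1 hP
    exact ⟨i, hi⟩
  haveI : Nonempty C.Sheet := ⟨⟨C.eta, C.eta_mem_nodes⟩⟩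
  choose! rep hrep using hrep
  have hsep : ∀ P ∈ ks, ∀ Q ∈ ks, Q ≠ P → ∃ e, e ∈ Q ∧ e ∉ P := fun P hP Q hQ hne => by
    by_contra hcon
    push Not at hcon
    have hle : K (rep Q) ≤ K (rep P) := by rw [hrep Q hQ, hrep P hP]; exact hcon
    exact hne (by rw [← hrep P hP, ← hrep Q hQ]; exact Ω.ker_eq_of_le hle)
  choose! e he he' using hsep
  set ep : Ideal C.R → C.R := fun P => ∏ Q ∈ ks.erase P, e P Q
  have hep : ∀ P ∈ ks, ∀ Q ∈ ks, (ep P ∈ Q ↔ Q ≠ P) := by
    intro P hP Q hQ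
    refine ⟨fun h hQP => ?_, fun hne => ?_⟩
    · subst hQP
      haveI : Q.IsPrime := hrep Q hQ ▸ inferInstance
      obtain ⟨R', hR', hmem⟩ := (Ideal.IsPrime.prod_mem_iff).1 h
      exact he' Q hP R' (Finset.mem_erase.1 hR').2 (Finset.mem_erase.1 hR').1 hmem
    · exact Ideal.mem_of_dvd _ (Finset.dvd_prod_of_mem _ (Finset.mem_erase.2 ⟨hne, hQ⟩))
        (he P hP Q hQ hne)
  set x : C.Sheet × Fin 3 → C.R := fun i =>
    if i.2 = 1 then (C.xR false - C.xR true) ^ t i.1 i.2 else (q : C.R) ^ (t i.1 i.2 / (q - 1))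
  have hx : ∀ i, x i ≠ 0 ∧ ρ.oe (C.lg i.1 i.2) (x i) = t i.1 i.2 := by
    rintro ⟨g, j⟩
    by_cases hj : j = 1
    · subst hj
      obtain ⟨h1, h2⟩ := ρ.oe_diff_middle g
      simp only [x, if_true]
      exact ⟨pow_ne_zero _ h1, by rw [ρ.oe_pow _ h1, h2, mul_one]⟩
    · simp only [x, if_neg hj]
      exact ⟨pow_ne_zero _ (Eqs.natCast_q_ne (C := C)), by
        rw [ρ.oe_pow _ (Eqs.natCast_q_ne (C := C)), ρ.oe_natCast, Nat.div_mul_cancel (hdiv g j hj)]⟩
  set M := Finset.univ.sup fun i : C.Sheet × Fin 3 => t i.1 i.2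
  set r := ∑ P ∈ ks, x (rep P) * ep P ^ (M + 1)
  have key : ∀ g j, ρ.Ord (C.emb (C.lg g j) r) (t g j) := by
    intro g j
    set P := K (g, j)
    have hP : P ∈ ks := Finset.mem_image.2 ⟨(g, j), Finset.mem_univ _, rfl⟩
    have hxo : ρ.oe (C.lg g j) (x (rep P)) = t g j := by
      rw [← ρ.oe_eq_of_ker (l := C.lg (rep P).1 (rep P).2) (g := g) (j := j) ?_ (hx _).1, (hx _).2]
      · exact ht _ _ _ _ (hrep P hP)
      · refine Eq.trans ?_ (hrep P hP)
        ext y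
        rw [RingHom.mem_ker, RingHom.mem_ker, ← Ω.rd_emb, Ω.rs_lg]
    rw [map_sum, ← Finset.add_sum_erase _ _ hP]
    refine ρ.ord_add ?_ (Finset.dvd_sum fun Q hQ => ?_)
    · rw [map_mul, map_pow]
      have h0 : ρ.Ord (C.emb (C.lg g j) (ep P)) 0 := by
        rw [ρ.ord_zero_iff, Ω.rs_lg]
        exact fun h => ((hep P hP P hP).1 h) rfl
      have h2 := ρ.ord_oe (l := C.lg g j) (hx (rep P)).1
      rw [hxo] at h2
      have := ρ.ord_mul h2 (ρ.ord_pow h0 (M + 1))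
      rwa [mul_zero, add_zero] at this
    · obtain ⟨hne, hQks⟩ := Finset.mem_erase.1 hQ
      rw [map_mul, map_pow (C.emb (C.lg g j)) (ep Q)]
      refine dvd_mul_of_dvd_right ((pow_dvd_pow _ ?_).trans (pow_dvd_pow_of_dvd ?_ _)) _
      · exact Nat.add_le_add_right (Finset.le_sup (f := fun i : C.Sheet × Fin 3 => t i.1 i.2)
          (Finset.mem_univ (g, j))) 1
      · refine ρ.exists_of_rd_eq_zero ?_
        rw [Ω.rs_lg]
        exact (hep Q hQks P hP).2 (Ne.symm hne)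
  exact ⟨r, fun h => ρ.ord_ne (key ⟨C.eta, C.eta_mem_nodes⟩ 0) (by rw [h, map_zero]), fun g j =>
    ρ.ordS_eq (key g j)⟩

include ρ in
/-- The orders are congruent to one multiple of `q - 1`. -/
theorem ord_congr_one {p : ℕ} [Fact p.Prime] (hp2 : p ≠ 2) (hqp : p ∣ q - 1) {f : C.R} (hf : f ≠ 0)
    (hα : C.RelB p false f) (hβ : C.RelB p true f) :
    ∃ J : ℕ, J < p ∧ ∀ g j, (ρ.oe (C.lg g j) f : ZMod p) = ((q - 1) * J : ℕ) ∧
      (j ≠ 1 → ∃ w : ℕ, ρ.oe (C.lg g j) f = (q - 1) * w ∧ (w : ZMod p) = J) := by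
  have hq1 : 0 < q - 1 := by have := C.hq.two_le; omega
  have hqz : (q : ZMod p) = 1 := by
    rw [← Nat.sub_add_cancel C.hq.one_le, Nat.cast_add, Nat.cast_one,
      (ZMod.natCast_eq_zero_iff _ _).2 hqp, zero_add]
  have hsum : ∀ b, C.RelB p b f → ∃ c : ZMod p, ∀ l l' : C.Idx, l' ∈ C.fib b l → C.kind l' ≠ 1 →
      ∀ s : ℕ, (∑ x ∈ C.fib b l, ρ.oe x f) = (q - 1) * s → (s : ZMod p) = c := by
    rintro b ⟨c0, c1, g0, g1, h0, h1, hg0, hg1, h⟩
    obtain ⟨a0, ha0⟩ := ρ.exists_q_pow h0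
    obtain ⟨a1, ha1⟩ := ρ.exists_q_pow h1
    refine ⟨(a0 : ZMod p) - a1, fun l l' hl' hk s hs => ?_⟩
    obtain ⟨u0, hu0⟩ := ρ.dvd_oe_of_kind hk hg0
    obtain ⟨u1, hu1⟩ := ρ.dvd_oe_of_kind hk hg1
    have hC : ∀ {c : C.W} {a : ℕ}, (∃ w', c = (q : C.W) ^ a * w' ∧ Ω.φW w' ≠ 0) →
        ρ.Ord (HahnSeries.C (C.inc c)) ((q - 1) * a) := by
      rintro c a ⟨w', rfl, hw'⟩
      have hu : ρ.Ord (HahnSeries.C (C.inc w')) 0 := by
        rw [ρ.ord_zero_iff, HahnSeries.C_apply, Res.rd, coeffMap_single]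
        exact fun h => hw' (HahnSeries.single_eq_zero_iff.1 h)
      have := ρ.ord_mul (ρ.ord_pow ρ.ord_natCast a) hu
      rw [add_zero] at this
      rw [mul_comm (q - 1) a]
      rwa [map_mul, map_mul, map_pow, map_pow, map_natCast, map_natCast]
    have hL := ρ.ord_mul (ρ.ord_mul (hC ha1) (ρ.ord_pow (ρ.ord_oe (l := l') hg1) p))
      (ρ.ord_prod (C.fib b l') _ _ fun x _ => ρ.ord_oe (l := x) hf)
    rw [h l'] at hL
    have he := ρ.ord_unique hL (ρ.ord_mul (hC ha0) (ρ.ord_pow (ρ.ord_oe (l := l') hg0) p))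
    rw [Ctx.fib_eq_of_mem hl', hs, hu0, hu1] at he
    have he' : a1 + p * u1 + s = a0 + p * u0 := Nat.eq_of_mul_eq_mul_left hq1 (by linarith)
    have := congrArg (fun z : ℕ => (z : ZMod p)) he'
    push_cast at this
    simp only [ZMod.natCast_self, zero_mul, add_zero] at this
    linear_combination this
  obtain ⟨ca, hca⟩ := hsum false hα
  obtain ⟨cb, hcb⟩ := hsum true hβ
  have hkind : ∀ g j, C.kind (C.lg g j) = j := fun g j => by
    rw [Ctx.kind, (C.lg_data g j).2, (C.lg_data g j).2, C.kindOf_kroot]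
  have hw : ∀ g j, j ≠ 1 → ∃ w, ρ.oe (C.lg g j) f = (q - 1) * w := fun g j hj =>
    ρ.dvd_oe_of_kind (by rw [hkind]; exact hj) hf
  choose! w hw using hw
  have hself : ∀ b (l : C.Idx), l ∈ C.fib b l := fun b l => C.mem_fib'.2 ⟨rfl, rfl⟩
  have key : ∀ g, (w g 0 : ZMod p) = ca ∧ (w g 2 : ZMod p) = cb ∧
      (ρ.oe (C.lg g 1) f : ZMod p) = 0 ∧ ca = cb := by
    intro g
    obtain ⟨s1, s2, s3, s4⟩ := ρ.sum_fib g f hf
    have e0 : (w g 0 : ZMod p) = ca := by
      have := hca _ _ (hself false (C.lg g 0)) (by rw [hkind]; decide) (q * w g 0) (by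
        rw [s1, hw g 0 (by decide)]; ring)
      rwa [Nat.cast_mul, hqz, one_mul] at this
    have e2 : (w g 2 : ZMod p) = cb := by
      have := hcb _ _ (hself true (C.lg g 2)) (by rw [hkind]; decide) (q * w g 2) (by
        rw [s3, hw g 2 (by decide)]; ring)
      rwa [Nat.cast_mul, hqz, one_mul] at this
    have h21 : C.lg g 2 ∈ C.fib false (C.lg g 1) :=
      C.mem_fib'.2 ⟨(C.lg_data g 2).1.trans (C.lg_data g 1).1.symm, by
        rw [(C.lg_data g 2).2, (C.lg_data g 1).2]; rfl⟩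
    have ea := hca _ _ h21 (by rw [hkind]; decide) (w g 2 + ρ.oe (C.lg g 1) f) (by
      rw [s2, hw g 2 (by decide), mul_add])
    have hne : (none : Option (ZMod q)) ≠ some 1 := by simp
    obtain ⟨m1, m2, m3⟩ := C.mkIdx_data g hne
    have h01 : C.mkIdx g hne ∈ C.fib true (C.lg g 1) :=
      C.mem_fib'.2 ⟨m1.trans (C.lg_data g 1).1.symm, by rw [m3, (C.lg_data g 1).2]; rfl⟩
    have eb := hcb _ _ h01 (by rw [Ctx.kind, m2, m3]; simp [Ctx.kindOf])
      (w g 0 + ρ.oe (C.lg g 1) f) (by rw [s4, hw g 0 (by decide), mul_add])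
    push_cast at ea eb
    have h20 : (2 : ZMod p) ≠ 0 := by
      intro h
      have : ((2 : ℕ) : ZMod p) = 0 := by exact_mod_cast h
      rw [ZMod.natCast_eq_zero_iff] at this
      exact hp2 ((Nat.prime_dvd_prime_iff_eq Fact.out Nat.prime_two).1 this)
    have hv : (ρ.oe (C.lg g 1) f : ZMod p) = 0 :=
      (mul_eq_zero.1 (show (2 : ZMod p) * ρ.oe (C.lg g 1) f = 0 by linear_combination ea + eb - e0 - e2)).resolve_left h20
    exact ⟨e0, e2, hv, by linear_combination e2 + hv - ea⟩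
  have hca' : ((ca.val : ℕ) : ZMod p) = ca := ZMod.natCast_zmod_val ca
  refine ⟨ca.val, ZMod.val_lt ca, fun g j => ?_⟩
  obtain ⟨e0, e2, e1, ec⟩ := key g
  have hz : (((q - 1) * ca.val : ℕ) : ZMod p) = 0 :=
    (ZMod.natCast_eq_zero_iff _ _).2 (dvd_mul_of_dvd_left hqp _)
  rw [hz]
  have hmul : ∀ x : ℕ, (((q - 1) * x : ℕ) : ZMod p) = 0 := fun x =>
    (ZMod.natCast_eq_zero_iff _ _).2 (dvd_mul_of_dvd_left hqp _)
  obtain rfl | rfl | rfl : j = 0 ∨ j = 1 ∨ j = 2 := by fin_cases j <;> simp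
  · exact ⟨by rw [hw g 0 (by decide), hmul],
      fun _ => ⟨w g 0, hw g 0 (by decide), by rw [hca']; exact e0⟩⟩
  · exact ⟨e1, fun h => absurd rfl h⟩
  · exact ⟨by rw [hw g 2 (by decide), hmul],
      fun _ => ⟨w g 2, hw g 2 (by decide), by rw [hca', ec]; exact e2⟩⟩

include ρ in
/-- Up to a power of `q` and `p`th powers, a function outside all branches. -/
theorem exists_normalised_one {p : ℕ} [Fact p.Prime] (hp2 : p ≠ 2) (hqp : p ∣ q - 1) {f : C.R}
    (hf : f ≠ 0) (hα : C.RelB p false f) (hβ : C.RelB p true f) (hv : C.VDvd p f) :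
    ∃ (J : ℕ) (F t r : C.R), t ≠ 0 ∧ r ≠ 0 ∧ (∀ g j, Ω.rs g j F ≠ 0) ∧
      t ^ p * f = F * C.cW ((q : C.W) ^ J) * r ^ p ∧ C.VDvd p F ∧
      C.RelB p false F ∧ C.RelB p true F := by
  obtain ⟨J, hJ, hcon⟩ := ρ.ord_congr_one hp2 hqp hf hα hβ
  have hp : p.Prime := Fact.out
  have hqne := Eqs.natCast_q_ne (C := C)
  have hq1 : 0 < q - 1 := by have := C.hq.two_le; omega
  set T : C.Sheet → Fin 3 → ℕ := fun g j => ((q - 1) * p + ρ.oe (C.lg g j) f - (q - 1) * J) / p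
  have hle : ∀ g j, (q - 1) * J ≤ (q - 1) * p + ρ.oe (C.lg g j) f := fun g j =>
    (Nat.mul_le_mul_left _ hJ.le).trans (Nat.le_add_right _ _)
  have hT : ∀ g j, p * T g j + (q - 1) * J = (q - 1) * p + ρ.oe (C.lg g j) f := fun g j => by
    have hd : p ∣ (q - 1) * p + ρ.oe (C.lg g j) f - (q - 1) * J := by
      rw [← ZMod.natCast_eq_zero_iff, Nat.cast_sub (hle g j), Nat.cast_add, (hcon g j).1]
      simp
    simp only [T]
    rw [Nat.mul_div_cancel' hd, Nat.sub_add_cancel (hle g j)]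
  obtain ⟨r, hr, hrord⟩ := ρ.exists_orders_gen T (fun g j g' j' hker => by
      simp only [T]
      rw [ρ.oe_eq_of_ker (l := C.lg g j) (g := g') (j := j') ?_ hf]
      rw [← hker]
      ext x
      rw [RingHom.mem_ker, RingHom.mem_ker, ← Ω.rd_emb, Ω.rs_lg])
    fun g j hj => by
      obtain ⟨w, hw, hwJ⟩ := (hcon g j).2 hj
      have hd : p ∣ p + w - J := by
        rw [← ZMod.natCast_eq_zero_iff, Nat.cast_sub (by omega), Nat.cast_add, hwJ]
        simp
      refine ⟨(p + w - J) / p, ?_⟩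
      have h := hT g j
      rw [hw] at h
      refine Nat.eq_of_mul_eq_mul_left hp.pos ?_
      have h2 : p * ((q - 1) * ((p + w - J) / p)) = (q - 1) * (p + w - J) := by
        rw [mul_left_comm, Nat.mul_div_cancel' hd]
      rw [h2, Nat.mul_sub, Nat.mul_add]
      omega
  obtain ⟨t, a, hta, he⟩ := ρ.exists_clear (x := (q : C.R) ^ p * f) (y := (q : C.R) ^ J * r ^ p)
    (mul_ne_zero (pow_ne_zero _ hqne) hf) (mul_ne_zero (pow_ne_zero _ hqne) (pow_ne_zero _ hr))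
    fun g j => by
      rw [ρ.oe_mul _ (pow_ne_zero _ hqne) hf, ρ.oe_mul _ (pow_ne_zero _ hqne) (pow_ne_zero _ hr),
        ρ.oe_pow _ hqne, ρ.oe_pow _ hqne, ρ.oe_pow _ hr, ρ.oe_natCast, hrord]
      linarith [hT g j]
  have ht0 : t ≠ 0 := fun h => (hta ⟨C.eta, C.eta_mem_nodes⟩ 0).1 (by rw [h, map_zero])
  have hc : ((q : C.W) ^ J) ≠ 0 := pow_ne_zero _ fun h => NeZero.ne q (by
    simpa using congrArg (fun z : C.W => (z : ℂ)) h)
  set F := a * t ^ (p - 1)
  have he' : (t * q) ^ p * f = F * C.cW ((q : C.W) ^ J) * r ^ p := by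
    have hpred : t ^ p = t ^ (p - 1) * t := by rw [← pow_succ, Nat.sub_add_cancel hp.one_le]
    rw [map_pow, map_natCast, mul_pow, hpred]
    linear_combination t ^ (p - 1) * he
  have hF : ∀ g j, Ω.rs g j F ≠ 0 := fun g j => by
    rw [map_mul, map_pow]; exact mul_ne_zero (hta g j).2 (pow_ne_zero _ (hta g j).1)
  have htq : t * q ≠ 0 := mul_ne_zero ht0 hqne
  exact ⟨J, F, t * q, r, htq, hr, hF, he',
    Ctx.vDvd_change hc hf (fun h => hF ⟨C.eta, C.eta_mem_nodes⟩ 0 (by rw [h, map_zero])) htq hr he' hv,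
    Ctx.relB_change Ω.fixed hc htq hr he' hα, Ctx.relB_change Ω.fixed hc htq hr he' hβ⟩

include ρ in
/-- The norm relations of a function outside all branches can be normalised. -/
theorem nonempty_nrel_one {n : ℕ} (hn0 : n ≠ 0) {b : Bool} {F : C.R} (hF : ∀ g j, Ω.rs g j F ≠ 0)
    (h : C.RelB n b F) : Nonempty (NRel Ω n b F) := by
  obtain ⟨c0, c1, g0, g1, h0, h1, hg0, hg1, h⟩ := h
  obtain ⟨v0, c0', rfl, hc0'⟩ := ρ.exists_q_pow h0
  obtain ⟨v1, c1', rfl, hc1'⟩ := ρ.exists_q_pow h1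
  have hFne : F ≠ 0 := fun h0 => hF ⟨C.eta, C.eta_mem_nodes⟩ 0 (by rw [h0, map_zero])
  have hFord : ∀ l, ρ.oe l F = 0 := fun l => (ρ.oe_eq_zero_iff l hFne).2 (by rw [Ω.rd_emb]; exact hF _ _)
  have hcq : ∀ (v : ℕ) (c : C.W), Ω.φW c ≠ 0 →
      ρ.Ord (HahnSeries.C (C.inc ((q : C.W) ^ v * c))) (v * (q - 1)) := by
    intro v c hc
    have hu : ρ.Ord (HahnSeries.C (C.inc c)) 0 := by
      rw [ρ.ord_zero_iff, HahnSeries.C_apply, Res.rd, coeffMap_single]
      exact fun h => hc (HahnSeries.single_eq_zero_iff.1 h)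
    have := ρ.ord_mul (ρ.ord_pow ρ.ord_natCast v) hu
    rw [add_zero] at this
    rwa [map_mul, map_mul, map_pow, map_pow, map_natCast, map_natCast]
  have hbal : ∀ l, v1 * (q - 1) + n * ρ.oe l g1 = v0 * (q - 1) + n * ρ.oe l g0 := fun l => by
    have hL := ρ.ord_mul (ρ.ord_mul (hcq v1 c1' hc1') (ρ.ord_pow (ρ.ord_oe (l := l) hg1) n))
      (ρ.ord_prod (C.fib b l) _ _ fun l' _ => ρ.ord_oe (l := l') hFne)
    rw [h l, Finset.sum_eq_zero fun l' _ => hFord l', add_zero] at hL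
    exact ρ.ord_unique hL (ρ.ord_mul (hcq v0 c0' hc0') (ρ.ord_pow (ρ.ord_oe (l := l) hg0) n))
  set l0 := C.lg ⟨C.eta, C.eta_mem_nodes⟩ 0
  have hl0 : C.kind l0 ≠ 1 := by
    rw [Ctx.kind, (C.lg_data _ 0).2, (C.lg_data _ 0).2, C.kindOf_kroot]; decide
  obtain ⟨D0, hD0⟩ := ρ.dvd_oe_of_kind hl0 hg0
  obtain ⟨D1, hD1⟩ := ρ.dvd_oe_of_kind hl0 hg1
  have hdiff : ∀ l, ρ.oe l g0 + ρ.oe l0 g1 = ρ.oe l g1 + ρ.oe l0 g0 := fun l => by
    have a := hbal l
    have b := hbal l0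
    have : n * (ρ.oe l g0 + ρ.oe l0 g1) = n * (ρ.oe l g1 + ρ.oe l0 g0) := by
      rw [mul_add, mul_add]; omega
    exact mul_left_cancel₀ hn0 this
  have hqne := Eqs.natCast_q_ne (C := C)
  obtain ⟨t, a, hta, he⟩ := ρ.exists_clear (x := g0 * (q : C.R) ^ D1) (y := g1 * (q : C.R) ^ D0)
    (mul_ne_zero hg0 (pow_ne_zero _ hqne)) (mul_ne_zero hg1 (pow_ne_zero _ hqne)) fun g j => by
      rw [ρ.oe_mul _ hg0 (pow_ne_zero _ hqne), ρ.oe_mul _ hg1 (pow_ne_zero _ hqne),
        ρ.oe_pow _ hqne, ρ.oe_pow _ hqne, ρ.oe_natCast]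
      have := hdiff (C.lg g j)
      rw [hD0, hD1] at this
      linarith
  have hexp : v1 + n * D1 = v0 + n * D0 := by
    have := hbal l0
    rw [hD0, hD1] at this
    refine Nat.eq_of_mul_eq_mul_left (show 0 < q - 1 by have := C.hq.two_le; omega) ?_
    linarith
  refine ⟨⟨c0', c1', a, t, hc0', hc1', fun g j => ⟨(hta g j).2, (hta g j).1⟩, fun l => ?_⟩⟩
  have h2 := h l
  have h3 := congrArg (fun z => C.emb l z ^ n) he
  simp only [map_mul, map_pow, map_natCast, mul_pow, ← pow_mul] at h2 h3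
  refine mul_left_cancel₀ (mul_ne_zero (pow_ne_zero (v1 + n * D1) (ρ.ord_ne ρ.ord_natCast))
    (pow_ne_zero n (Ram.emb_ne (l := l) hg1))) ?_
  have e1 : (q : LaurentSeries C.S) ^ (v1 + n * D1) = (q : LaurentSeries C.S) ^ v1 * q ^ (D1 * n) := by
    rw [pow_add, mul_comm n D1]
  have e2 : (q : LaurentSeries C.S) ^ (v1 + n * D1) = (q : LaurentSeries C.S) ^ v0 * q ^ (D0 * n) := by
    rw [hexp, pow_add, mul_comm n D0]
  linear_combination (C.emb l t ^ n * HahnSeries.C (C.inc c1') *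
      C.emb l g1 ^ n * ∏ l' ∈ C.fib b l, C.emb l' F) * e1 -
    (C.emb l g1 ^ n * HahnSeries.C (C.inc c0') * C.emb l a ^ n) * e2 +
    (C.emb l t ^ n * (q : LaurentSeries C.S) ^ (D1 * n)) * h2 +
    ((q : LaurentSeries C.S) ^ v0 * HahnSeries.C (C.inc c0')) * h3

end Ram

end FLTAgent.Carayol
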