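import Fermat.Agent.Carayol.Residues
import Fermat.Agent.Entry.QOne.Orders

/-!
# A unit at the supersingular points

There are finitely many supersingular points. A function outside all branches whose valuations are
divisible by `n` is, up to an `n`th power, outside all branches and a unit at all of them.
-/

set_option autoImplicit false
set_option linter.unusedSectionVars false
set_option linter.style.haveILetI false
set_option synthInstance.maxHeartbeats 400000

noncomputable section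

open UpperHalfPlane hiding I I_re I_im
open Filter Topology Complex Function FLTAgent.ModEq FLTAgent.GoodModel ModularCurve
open scoped MatrixGroups Manifold Classical

namespace FLTAgent.Carayol

variable {q M0 N' : ℕ} [NeZero M0] [NeZero N'] [NeZero q] [Fact q.Prime]
variable {C : Ctx q M0 N'} {k : Type} [Field k] {Ω : Res C k}

namespace Eqs

variable (E : Eqs Ω)

theorem map_coeff_ne_zero : (E.G.coeff q).map Ω.φW ≠ 0 := by
  intro h0
  have h := E.G_top 1 (one_mem _)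
  rw [Ω.red_of_evY (one_mem _) (E.G.coeff q), Ω.red_of_evY (one_mem _) C.dltW, h0,
    Polynomial.eval₂_zero, zero_eq_neg] at h
  rcases mul_eq_zero.1 h with h1 | h1
  · have h2 := congrArg (Ω.red 1) C.evR_dltW_mul_dR
    rw [map_mul, map_one, Ω.red_of_evY (one_mem _) C.dltW, eq_zero_of_pow_eq_zero h1, zero_mul] at h2
    exact zero_ne_one h2
  · exact div_ne_zero (pow_ne_zero _ Ω.ee_ne) (pow_ne_zero _ Ω.ee_ne) h1

/-- There are finitely many supersingular points. -/
theorem finite_ss : {p : Pt Ω | p.π E.OmR = 0}.Finite := by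
  set g : Polynomial k := (E.G.coeff q).map Ω.φW
  have hg := E.map_coeff_ne_zero
  set Ny : k → Polynomial k := fun a =>
    E.N.map (Polynomial.eval₂RingHom Ω.φW a)
  set val : Pt Ω → k × k := fun p => (p.π C.yR, p.π C.etaR)
  have hval : ∀ p : Pt Ω, p.π E.OmR = 0 →
      g.IsRoot (p.π C.yR) ∧ (Ny (p.π C.yR)).IsRoot (p.π C.etaR) ∧ Ny (p.π C.yR) ≠ 0 ∧
        (Polynomial.derivative (Ny (p.π C.yR))).eval (p.π C.etaR) * p.π C.rhoR =
          p.π (C.evR C.dltW) ^ E.sN := by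
    intro p hp
    have hdR : p.π C.dR ≠ 0 := fun h0 => by
      have := congrArg p.π C.evR_dltW_mul_dR
      rw [map_mul, h0, mul_zero, map_one] at this
      exact zero_ne_one this
    have h1 : p.π (C.evR (E.G.coeff q)) * p.π C.dR ^ E.s = 0 := by
      rw [← map_pow, ← map_mul, ← neg_eq_zero, ← map_neg]; exact hp
    have hbv : ∀ P : Polynomial (Polynomial C.W), p.π (bv C.cW C.yR C.etaR P) =
        (P.map (Polynomial.eval₂RingHom Ω.φW (p.π C.yR))).eval (p.π C.etaR) := by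
      intro P
      rw [map_bv, p.comp, Polynomial.eval_map, bv, Polynomial.coe_eval₂RingHom]
    obtain ⟨e1, e2⟩ := E.node
    have h2 := congrArg p.π e1
    have h3 := congrArg p.π e2
    rw [map_zero, hbv] at h2
    rw [map_mul, hbv, map_pow, ← Polynomial.derivative_map] at h3
    refine ⟨?_, h2, fun h0 => ?_, h3⟩
    · rw [Polynomial.IsRoot, ← p.π_evR]
      exact (mul_eq_zero.1 h1).resolve_right (pow_ne_zero _ hdR)
    · change E.N.map _ = 0 at h0
      rw [h0, Polynomial.derivative_zero, Polynomial.eval_zero, zero_mul] at h3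
      exact pow_ne_zero _ p.π_dlt h3.symm
  have himg : (val '' {p : Pt Ω | p.π E.OmR = 0}).Finite := by
    refine Set.Finite.subset (s := ⋃ a ∈ {a | g.IsRoot a},
      (fun e => (a, e)) '' {e | Ny a ≠ 0 ∧ (Ny a).IsRoot e})
      ((Polynomial.finite_setOf_isRoot hg).biUnion' fun a _ => ?_) ?_
    · refine Set.Finite.image _ ?_
      by_cases h : Ny a = 0
      · simp [h]
      · exact (Polynomial.finite_setOf_isRoot h).subset fun e he => he.2
    · rintro _ ⟨p, hp, rfl⟩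
      obtain ⟨r1, r2, r3, -⟩ := hval p hp
      exact Set.mem_biUnion r1 ⟨_, ⟨r3, r2⟩, rfl⟩
  refine himg.of_finite_image fun p hp p' hp' hv => ?_
  obtain ⟨hy, he⟩ := Prod.mk.inj hv
  suffices h : ∀ a : C.R, p.π a = p'.π a by
    cases p; cases p'
    congr 1
    exact RingHom.ext h
  have hW : ∀ w, p.π (C.cW w) = p'.π (C.cW w) := fun w => (p.π_cW w).trans (p'.π_cW w).symm
  have hx : ∀ b, p.π (C.xR b) = p'.π (C.xR b) := fun b => by
    rw [(E.π_L p hp b).2, (E.π_L p' hp' b).2, hy]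
  obtain ⟨-, -, -, r⟩ := hval p hp
  obtain ⟨-, -, -, r'⟩ := hval p' hp'
  intro a
  refine C.mem_subring_of (RingHom.eqLocus p.π p'.π) hW hy ?_ he ?_ (fun b => ⟨hx b, ?_, ?_, ?_⟩) a
  · show p.π C.dR = p'.π C.dR
    have h1 := congrArg p.π C.evR_dltW_mul_dR
    have h2 := congrArg p'.π C.evR_dltW_mul_dR
    rw [map_mul, map_one, p.π_evR, hy, ← p'.π_evR] at h1
    rw [map_mul, map_one] at h2
    exact mul_left_cancel₀ p'.π_dlt (h1.trans h2.symm)
  · show p.π C.rhoR = p'.π C.rhoR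
    rw [hy, he, p.π_evR, hy, ← p'.π_evR] at r
    refine mul_left_cancel₀ ?_ (r.trans r'.symm)
    intro h0
    rw [h0, zero_mul] at r'
    exact pow_ne_zero _ p'.π_dlt r'.symm
  · exact ((p.side_zero E hp b).1).trans (p'.side_zero E hp' b).1.symm
  · exact ((p.side_zero E hp b).2).trans (p'.side_zero E hp' b).2.symm
  · show p.π (C.uR b) = p'.π (C.uR b)
    have h1 := congrArg p.π (C.dltW_x_mul_uR b)
    have h2 := congrArg p'.π (C.dltW_x_mul_uR b)
    rw [map_mul, map_one, Polynomial.hom_eval₂, p.comp, hx] at h1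
    rw [map_mul, map_one, Polynomial.hom_eval₂, p'.comp] at h2
    exact mul_left_cancel₀ (left_ne_zero_of_mul_eq_one h2) (h1.trans h2.symm)

end Eqs

variable [IsDiscreteValuationRing C.S] [IsAlgClosed k] [IsNoetherianRing C.W]

namespace Ram

variable (ρ : Ram Ω)

include ρ in
/-- Up to an `n`th power, a unit at all supersingular points. -/
theorem exists_ss_unit (E : Eqs Ω) {n : ℕ} (hn : 0 < n) {F : C.R} (hF : ∀ g j, Ω.rs g j F ≠ 0)
    (hv : C.VDvd n F) :
    ∃ F' t r : C.R, t ≠ 0 ∧ r ≠ 0 ∧ (∀ g j, Ω.rs g j F' ≠ 0) ∧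
      (∀ p : Pt Ω, p.π E.OmR = 0 → p.π F' ≠ 0) ∧ t ^ n * F = F' * r ^ n := by
  haveI : Fintype C.Sheet := Finset.Subtype.fintype C.nodes
  haveI : Nonempty C.Sheet := ⟨⟨C.eta, C.eta_mem_nodes⟩⟩
  haveI : ∀ i : C.Sheet × Fin 3, (RingHom.ker (Ω.rs i.1 i.2)).IsPrime := fun i => RingHom.ker_isPrime _
  set P0 := (E.finite_ss).toFinset.image fun p : Pt Ω => p.ideal
  set K0 := ((Finset.univ : Finset (C.Sheet × Fin 3)).image fun i => RingHom.ker (Ω.rs i.1 i.2)).filter
    fun K => ∀ P ∈ P0, ¬ K ≤ P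
  set T := P0 ∪ K0
  have hP0 : ∀ P ∈ P0, ∃ p : Pt Ω, p.π E.OmR = 0 ∧ p.ideal = P ∧ P.IsMaximal := by
    intro P hP
    obtain ⟨p, hp, rfl⟩ := Finset.mem_image.1 hP
    refine ⟨p, by simpa using hp, rfl, ?_⟩
    refine RingHom.ker_isMaximal_of_surjective p.π fun x => ?_
    obtain ⟨w, hw⟩ := Ω.surjW x
    exact ⟨C.cW w, (p.π_cW w).trans hw⟩
  have hK0 : ∀ K ∈ K0, (∃ g j, RingHom.ker (Ω.rs g j) = K) ∧ ∀ P ∈ P0, ¬ K ≤ P := by
    intro K hK
    obtain ⟨h1, h2⟩ := Finset.mem_filter.1 hK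
    obtain ⟨i, -, hi⟩ := Finset.mem_image.1 h1
    exact ⟨⟨i.1, i.2, hi⟩, h2⟩
  have hprime : ∀ Q ∈ T, Q.IsPrime := by
    intro Q hQ
    rcases Finset.mem_union.1 hQ with h | h
    · obtain ⟨-, -, -, hm⟩ := hP0 Q h
      exact hm.isPrime
    · obtain ⟨⟨g, j, rfl⟩, -⟩ := hK0 Q h
      exact RingHom.ker_isPrime _
  -- incomparable
  have hsep : ∀ P ∈ T, ∀ Q ∈ T, Q ≠ P → ∃ e, e ∈ Q ∧ e ∉ P := by
    intro P hP Q hQ hne
    by_contra hcon
    push Not at hcon
    rcases Finset.mem_union.1 hQ with hq' | hq'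
    · obtain ⟨-, -, -, hm⟩ := hP0 Q hq'
      exact hne (hm.eq_of_le (hprime P hP).ne_top hcon)
    · obtain ⟨⟨g, j, rfl⟩, hno⟩ := hK0 Q hq'
      rcases Finset.mem_union.1 hP with hp' | hp'
      · exact hno P hp' hcon
      · obtain ⟨⟨g', j', rfl⟩, -⟩ := hK0 P hp'
        exact hne (Ω.ker_eq_of_le hcon)
  choose! e he he' using hsep
  set ep : Ideal C.R → C.R := fun P => ∏ Q ∈ T.erase P, e P Q
  -- the local roots
  have hloc : ∀ P ∈ P0, ∃ s v h : C.R, s ∉ P ∧ v ∉ P ∧ s * F = v * h ^ n ∧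
      ∀ b, F ∣ b ^ n → ∃ s', s' ∉ P ∧ h ∣ s' * b := by
    intro P hP
    obtain ⟨p, -, rfl, -⟩ := hP0 P hP
    obtain ⟨s, v, h, hs, hv', heq⟩ := ρ.exists_local_factor hF hv p
    refine ⟨s, v, h, fun h0 => hs (p.mem_ideal.1 h0), fun h0 => hv' (p.mem_ideal.1 h0), heq,
      fun b hb => ?_⟩
    haveI := p.isNoetherian_loc
    haveI := p.ufd_loc
    haveI := p.isIntegrallyClosed_loc
    set φ := algebraMap C.R p.Loc
    have hinj : Injective φ :=
      IsLocalization.injective p.Loc (Ideal.primeCompl_le_nonZeroDivisors p.ideal)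
    have hsu : IsUnit (φ s) := p.isUnit_algebraMap hs
    have hvu : IsUnit (φ v) := p.isUnit_algebraMap hv'
    have h1 : φ h ^ n ∣ φ b ^ n := by
      have h2 : φ v * φ h ^ n ∣ φ s * φ b ^ n := by
        rw [← map_pow φ h, ← map_mul, ← heq, map_mul, ← map_pow φ b]
        exact mul_dvd_mul_left _ (map_dvd φ hb)
      exact (hsu.dvd_mul_left).1 ((hvu.mul_left_dvd).1 h2)
    obtain ⟨z, hz⟩ := (IsIntegrallyClosed.pow_dvd_pow_iff hn.ne').1 h1
    obtain ⟨⟨zn, zd⟩, hzd⟩ := IsLocalization.surj p.ideal.primeCompl z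
    change z * φ zd.1 = φ zn at hzd
    refine ⟨zd.1, zd.2, zn, hinj ?_⟩
    rw [map_mul, map_mul, hz, ← hzd]
    ring
  choose! ls lv lh hls hlv hfac hroot using hloc
  set z : Ideal C.R → C.R := fun Q => if Q ∈ P0 then lv Q * lh Q else F
  have hzF : ∀ Q ∈ T, F ∣ z Q ^ n := by
    intro Q hQ
    by_cases h : Q ∈ P0
    · refine ⟨lv Q ^ (n - 1) * ls Q, ?_⟩
      simp only [z, if_pos h, mul_pow]
      rw [show lv Q ^ n = lv Q ^ (n - 1) * lv Q by rw [← pow_succ, Nat.sub_add_cancel hn]]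
      linear_combination (-(lv Q ^ (n - 1))) * hfac Q h
    · simp only [z, if_neg h]
      exact dvd_pow_self _ hn.ne'
  set r := ∑ Q ∈ T, ep Q * z Q
  -- at a supersingular point
  have hrP : ∀ P ∈ P0, ∃ s a : C.R, s ∉ P ∧ a ∉ P ∧ s * r = a * lh P := by
    intro P hP
    have hPT : P ∈ T := Finset.mem_union_left _ hP
    haveI := hprime P hPT
    choose! s hs hdvd using fun Q (hQ : Q ∈ T) => hroot P hP (z Q) (hzF Q hQ)
    choose! d hd using hdvd
    refine ⟨∏ Q ∈ T.erase P, s Q,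
      (∏ Q ∈ T.erase P, s Q) * ep P * lv P + ∑ Q ∈ T.erase P,
        ep Q * d Q * ∏ R ∈ (T.erase P).erase Q, s R,
      fun h => ?_, fun h => ?_, ?_⟩
    · obtain ⟨Q, hQ, hm⟩ := (Ideal.IsPrime.prod_mem_iff).1 h
      exact hs Q (Finset.mem_erase.1 hQ).2 hm
    · have h2 : ∑ Q ∈ T.erase P, ep Q * d Q * ∏ R ∈ (T.erase P).erase Q, s R ∈ P := by
        refine sum_mem fun Q hQ => P.mul_mem_right _ (P.mul_mem_right _ ?_)
        obtain ⟨hne, hQT⟩ := Finset.mem_erase.1 hQ
        exact Ideal.mem_of_dvd _ (Finset.dvd_prod_of_mem _ (Finset.mem_erase.2 ⟨hne.symm, hPT⟩))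
          (he Q hQT P hPT hne.symm)
      have h3 := (Ideal.add_mem_iff_left _ h2).1 h
      rcases Ideal.IsPrime.mem_or_mem inferInstance h3 with h4 | h4
      · rcases Ideal.IsPrime.mem_or_mem inferInstance h4 with h5 | h5
        · obtain ⟨Q, hQ, hm⟩ := (Ideal.IsPrime.prod_mem_iff).1 h5
          exact hs Q (Finset.mem_erase.1 hQ).2 hm
        · obtain ⟨Q, hQ, hm⟩ := (Ideal.IsPrime.prod_mem_iff).1 h5
          exact he' P hPT Q (Finset.mem_erase.1 hQ).2 (Finset.mem_erase.1 hQ).1 hm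
      · exact hlv P hP h4
    · simp only [r, ← Finset.add_sum_erase _ _ hPT, mul_add, add_mul, Finset.mul_sum, Finset.sum_mul]
      congr 1
      · simp only [z, if_pos hP]; ring
      · refine Finset.sum_congr rfl fun Q hQ => ?_
        rw [← Finset.mul_prod_erase _ _ hQ]
        have := hd Q (Finset.mem_erase.1 hQ).2
        linear_combination (ep Q * ∏ R ∈ (T.erase P).erase Q, s R) * this
  have hrg : ∀ g j, Ω.rs g j r ≠ 0 := by
    intro g j h0
    by_cases h : ∃ P ∈ P0, RingHom.ker (Ω.rs g j) ≤ P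
    · obtain ⟨P, hP, hle⟩ := h
      obtain ⟨s, a, hs, ha, hsa⟩ := hrP P hP
      have h1 := congrArg (Ω.rs g j) hsa
      rw [map_mul, h0, mul_zero, map_mul] at h1
      have hne : Ω.rs g j (lh P) ≠ 0 := fun h2 => by
        have h3 := congrArg (Ω.rs g j) (hfac P hP)
        rw [map_mul, map_mul, map_pow, h2, zero_pow hn.ne', mul_zero, mul_eq_zero] at h3
        exact h3.elim (fun h4 => hls P hP (hle h4)) (hF g j)
      exact ha (hle ((mul_eq_zero.1 h1.symm).resolve_right hne))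
    · push Not at h
      set K := RingHom.ker (Ω.rs g j)
      have hK : K ∈ K0 := Finset.mem_filter.2
        ⟨Finset.mem_image.2 ⟨(g, j), Finset.mem_univ _, rfl⟩, h⟩
      have hKT : K ∈ T := Finset.mem_union_right _ hK
      have hKP : K ∉ P0 := fun hc => h K hc le_rfl
      haveI : K.IsPrime := RingHom.ker_isPrime _
      have h2 : ∑ Q ∈ T.erase K, ep Q * z Q ∈ K := by
        refine sum_mem fun Q hQ => K.mul_mem_right _ ?_
        obtain ⟨hne, hQT⟩ := Finset.mem_erase.1 hQ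
        exact Ideal.mem_of_dvd _ (Finset.dvd_prod_of_mem _ (Finset.mem_erase.2 ⟨hne.symm, hKT⟩))
          (he Q hQT K hKT hne.symm)
      have h3 : r ∈ K := h0
      simp only [r, ← Finset.add_sum_erase _ _ hKT] at h3
      rcases Ideal.IsPrime.mem_or_mem inferInstance ((Ideal.add_mem_iff_left _ h2).1 h3) with h4 | h4
      · obtain ⟨Q, hQ, hm⟩ := (Ideal.IsPrime.prod_mem_iff).1 h4
        exact he' K hKT Q (Finset.mem_erase.1 hQ).2 (Finset.mem_erase.1 hQ).1 hm
      · simp only [z, if_neg hKP] at h4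
        exact hF g j h4
  have hr0 : r ≠ 0 := fun h => hrg ⟨C.eta, C.eta_mem_nodes⟩ 0 (by rw [h, map_zero])
  -- clear the denominators
  let D : Ideal C.R := Submodule.comap (LinearMap.mulRight C.R F) (Ideal.span {r ^ n})
  have hD : ¬ (D : Set C.R) ⊆ ⋃ Q ∈ (T : Set (Ideal C.R)), (Q : Set C.R) := by
    intro hsub
    obtain ⟨Q, hQ, hle⟩ := (Ideal.subset_union_prime (s := T) (f := fun Q : Ideal C.R => Q)
      ⊥ ⊥ fun Q hQ _ _ => hprime Q hQ).1 hsub
    haveI := hprime Q hQ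
    rcases Finset.mem_union.1 hQ with h | h
    · obtain ⟨s, a, hs, ha, hsa⟩ := hrP Q h
      have hmem : a ^ n * ls Q ∈ D := by
        refine Ideal.mem_span_singleton.2 ⟨lv Q * s ^ n, ?_⟩
        show a ^ n * ls Q * F = _
        rw [mul_assoc, hfac Q h, show r ^ n * (lv Q * s ^ n) = lv Q * (s * r) ^ n by ring, hsa]
        ring
      rcases Ideal.IsPrime.mem_or_mem inferInstance (hle hmem) with h' | h'
      · exact ha (Ideal.IsPrime.mem_of_pow_mem inferInstance n h')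
      · exact hls Q h h'
    · obtain ⟨⟨g, j, rfl⟩, -⟩ := hK0 Q h
      have hmem : r ^ n ∈ D := Ideal.mem_span_singleton.2 ⟨F, rfl⟩
      exact hrg g j (Ideal.IsPrime.mem_of_pow_mem inferInstance n (hle hmem))
  obtain ⟨t, ht, ht'⟩ := Set.not_subset.1 hD
  obtain ⟨a, ha⟩ := Ideal.mem_span_singleton'.1 (show t * F ∈ Ideal.span {r ^ n} from ht)
  have htP : ∀ P ∈ P0, t ∉ P := fun P hP h =>
    ht' (Set.mem_biUnion (Finset.mem_coe.2 (Finset.mem_union_left _ hP)) h)
  have hpP0 : ∀ p : Pt Ω, p.π E.OmR = 0 → p.ideal ∈ P0 := fun p hp =>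
    Finset.mem_image.2 ⟨p, (Set.Finite.mem_toFinset _).2 hp, rfl⟩
  have htg : ∀ g j, Ω.rs g j t ≠ 0 := fun g j h0 => by
    by_cases h : ∃ P ∈ P0, RingHom.ker (Ω.rs g j) ≤ P
    · obtain ⟨P, hP, hle⟩ := h
      exact htP P hP (hle h0)
    · push Not at h
      exact ht' (Set.mem_biUnion (Finset.mem_coe.2 (Finset.mem_union_right _ (Finset.mem_filter.2
        ⟨Finset.mem_image.2 ⟨(g, j), Finset.mem_univ _, rfl⟩, h⟩))) h0)
  have hag : ∀ g j, Ω.rs g j a ≠ 0 := fun g j h0 => by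
    have := congrArg (Ω.rs g j) ha
    rw [map_mul, h0, zero_mul, map_mul] at this
    exact mul_ne_zero (htg g j) (hF g j) this.symm
  refine ⟨a * t ^ (n - 1), t, r, fun h => htg ⟨C.eta, C.eta_mem_nodes⟩ 0 (by rw [h, map_zero]), hr0,
    fun g j => by rw [map_mul, map_pow]; exact mul_ne_zero (hag g j) (pow_ne_zero _ (htg g j)),
    fun p hp => ?_, ?_⟩
  · have hP := hpP0 p hp
    obtain ⟨s, a', hs, ha', hsa⟩ := hrP _ hP
    have e1 : (a * a' ^ n * ls p.ideal - t * lv p.ideal * s ^ n) * lh p.ideal ^ n = 0 := by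
      have h2 : s ^ n * r ^ n = a' ^ n * lh p.ideal ^ n := by rw [← mul_pow, hsa, mul_pow]
      linear_combination (-(a * ls p.ideal)) * h2 + (ls p.ideal * s ^ n) * ha + (t * s ^ n) * hfac _ hP
    have hhne : lh p.ideal ≠ 0 := fun h0 => by
      have h2 := congrArg (Ω.rs ⟨C.eta, C.eta_mem_nodes⟩ 0) (hfac _ hP)
      rw [h0, zero_pow hn.ne', mul_zero, map_zero, map_mul, mul_eq_zero] at h2
      refine h2.elim (fun h3 => ?_) (hF _ _)
      have hsne : ls p.ideal ≠ 0 := fun h4 => hls _ hP (by rw [h4]; exact zero_mem _)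
      exact hsne ((mul_eq_zero.1 (show ls p.ideal * F = 0 by rw [hfac _ hP, h0, zero_pow hn.ne', mul_zero])).resolve_right
        fun h5 => hF ⟨C.eta, C.eta_mem_nodes⟩ 0 (by rw [h5, map_zero]))
    have e2 := congrArg p.π (sub_eq_zero.1 ((mul_eq_zero.1 e1).resolve_right (pow_ne_zero _ hhne)))
    simp only [map_mul, map_pow] at e2
    rw [map_mul, map_pow]
    refine mul_ne_zero (fun h0 => ?_) (pow_ne_zero _ fun h0 => htP _ hP (p.mem_ideal.2 h0))
    rw [h0, zero_mul, zero_mul] at e2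
    exact mul_ne_zero (mul_ne_zero (fun h => htP _ hP (p.mem_ideal.2 h))
      fun h => hlv _ hP (p.mem_ideal.2 h)) (pow_ne_zero _ fun h => hs (p.mem_ideal.2 h)) e2.symm
  · rw [show t ^ n = t ^ (n - 1) * t by rw [← pow_succ, Nat.sub_add_cancel hn]]
    linear_combination (-(t ^ (n - 1))) * ha

end Ram

end FLTAgent.Carayol
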