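import Fermat.Agent.Carayol.Constants
import Fermat.Agent.Carayol.Finite
import Fermat.Agent.EigenLattice.Push
import Fermat.Agent.LevelRaise.Transfer
import Fermat.Agent.Entry.QOne.Interface
import Fermat.Agent.Entry.QOne.Unit

/-!
# Lowering `q²` for `q ≡ 1`: the data of a class on the auxiliary cover and the parts of the proof

A fixed class killed by both push forwards gives a function `F` of the cover outside all branches,
a `p`th root `Φ` of it and the character `ψ` by which `Φ` transforms. Twisting the products of the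
translates of `Φ` over the labels by an element of inertia gives one scalar per class; where it
vanishes, there is a root of a power of `F` modulo a nilpotent element, hence on the cover.
-/

set_option autoImplicit false
set_option linter.unusedSectionVars false
set_option linter.style.haveILetI false
set_option synthInstance.maxHeartbeats 400000

noncomputable section

open Function AlgebraicCurve IsLocalRing ModularCurve FLTAgent.ModEq FLTAgent.GoodModel
open scoped MatrixGroups Classical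

namespace FLTAgent.Entry.QOne

open FLTAgent.Carayol FLTAgent.PeriodHecke

local notation "QA" => AlgebraicClosure ℚ

/-- The elements of the split group fixing the functions of the cover. -/
def KG (q M0 L : ℕ) : Subgroup SL(2, ℤ) where
  carrier := {γ | γ ∈ CongruenceSubgroup.Gamma M0 ∧ γ ∈ Split q L ∧
    (((γ 1 1 : ℤ) : ZMod L) = 1 ∨ ((γ 1 1 : ℤ) : ZMod L) = -1)}
  one_mem' := ⟨one_mem _, one_mem _, Or.inl (by simp)⟩
  mul_mem' := fun {a b} ha hb => by
    refine ⟨mul_mem ha.1 hb.1, mul_mem ha.2.1 hb.2.1, ?_⟩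
    have h10 : ((a 1 0 : ℤ) : ZMod L) = 0 := (ZMod.intCast_zmod_eq_zero_iff_dvd _ _).2 ha.2.1.2.2
    have h : (((a * b) 1 1 : ℤ) : ZMod L) = (a 1 1 : ℤ) * (b 1 1 : ℤ) := by
      simp [Matrix.SpecialLinearGroup.coe_mul, Matrix.mul_apply, Fin.sum_univ_two, h10]
    rw [h]
    rcases ha.2.2 with e | e <;> rcases hb.2.2 with e' | e' <;> simp [e, e']
  inv_mem' := fun {a} ha => by
    refine ⟨inv_mem ha.1, inv_mem ha.2.1, ?_⟩
    have h10 : ((a 1 0 : ℤ) : ZMod L) = 0 := (ZMod.intCast_zmod_eq_zero_iff_dvd _ _).2 ha.2.1.2.2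
    have hdet := congrArg (fun z : ℤ => (z : ZMod L)) a.2
    simp only [Matrix.det_fin_two, Int.cast_sub, Int.cast_mul, Int.cast_one, h10, mul_zero,
      sub_zero] at hdet
    simp only [Matrix.SpecialLinearGroup.coe_inv, Matrix.adjugate_fin_two, Matrix.of_apply,
      Matrix.cons_val', Matrix.cons_val_one, Matrix.cons_val_fin_one]
    rcases ha.2.2 with e | e
    · left; simpa [e] using hdet
    · right; rw [e] at hdet; linear_combination -hdet

/-- The root of unity of a residue. -/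
def rootC (p : ℕ) [NeZero p] (a : ZMod p) : ℂ := ((TorsionHom.rootHom p a).toMul : ℂˣ)

section Data

variable {q M0 N' : ℕ} [NeZero M0] [NeZero N'] [NeZero q] [Fact q.Prime]

theorem coprime_level (C : Ctx q M0 N') : Nat.Coprime q (M0 * N') :=
  C.hq.coprime_iff_not_dvd.2 C.hqm

/-- A function of the cover, a root of it and the character of the root. -/
structure KDatum (C : Ctx q M0 N') (p : ℕ) [Fact p.Prime] where
  F : C.R
  Φ : trRing C.S (M0 * (N' * q))
  hΦ : Φ ^ p = Subring.inclusion C.R_le F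
  ψ : Additive (CongruenceSubgroup.Gamma0 (q * (M0 * N') * q)) →+ ZMod p
  hchar : ∀ γ ∈ KG q M0 (M0 * N'), ∀ τ : UpperHalfPlane,
    (Φ : UpperHalfPlane → ℂ) (γ • τ) =
      rootC p (hs (coprime_level C) ψ γ) * (Φ : UpperHalfPlane → ℂ) τ

variable {C : Ctx q M0 N'} {p : ℕ} [Fact p.Prime]

/-- A product of powers of two data. -/
def KDatum.comb (D₁ D₂ : KDatum C p) (a₁ a₂ : ℕ) : KDatum C p where
  F := D₁.F ^ a₁ * D₂.F ^ a₂
  Φ := D₁.Φ ^ a₁ * D₂.Φ ^ a₂
  hΦ := by
    rw [mul_pow, ← pow_mul, ← pow_mul, mul_comm a₁, mul_comm a₂, pow_mul, pow_mul, D₁.hΦ, D₂.hΦ,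
      map_mul, map_pow, map_pow]
  ψ := a₁ • D₁.ψ + a₂ • D₂.ψ
  hchar := fun γ hγ τ => by
    have h : hs (coprime_level C) (a₁ • D₁.ψ + a₂ • D₂.ψ) γ =
        a₁ • hs (coprime_level C) D₁.ψ γ + a₂ • hs (coprime_level C) D₂.ψ γ := by
      simp only [hs, dif_pos hγ.2.1, AddMonoidHom.add_apply, AddMonoidHom.nsmul_apply]
    rw [h]
    simp only [rootC, map_add, map_nsmul, toMul_add, toMul_nsmul, Units.val_mul,
      Units.val_pow_eq_pow_val, SubmonoidClass.coe_pow, MulMemClass.coe_mul, Pi.mul_apply,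
      Pi.pow_apply, D₁.hchar γ hγ τ, D₂.hchar γ hγ τ, mul_pow]
    ring

variable {k : Type} [Field k] (Ω : Res C k)

/-- Outside all branches, with norms `p`th powers, a unit at the supersingular points. -/
structure KDatum.Good (D : KDatum C p) (E : Eqs Ω) : Prop where
  hF : ∀ g j, Ω.rs g j D.F ≠ 0
  hv : C.VDvd p D.F
  hα : C.RelB p false D.F
  hβ : C.RelB p true D.F
  hss : ∀ pt : Pt Ω, pt.π E.OmR = 0 → pt.π D.F ≠ 0

/-- Roots along the branches of two kinds of a product over the translates. -/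
structure KDatum.Middle (D : KDatum C p) where
  e : ℕ
  m' : ℕ
  hqm : q - 1 = p ^ e * m'
  hm : ¬ p ∣ m'
  a : C.R
  d : C.R
  hd : ∀ g j, Ω.rs g j d ≠ 0
  reg : ∀ pt : Pt Ω, ∃ num den : C.R, pt.π den ≠ 0 ∧ den * a = num * d
  kind0 : ∀ g, Ω.rs g 0 a ^ p = Ω.rs g 0 d ^ p * Ω.rs g 1 D.F ^ (q * m')
  kind1 : ∀ g, ∃ lam : k, Ω.rs g 1 a ^ p = HahnSeries.C lam * Ω.rs g 1 d ^ p *
    (Ω.rs g 0 D.F ^ m' * Ω.rs g 2 D.F ^ m' * Ω.rs g 1 D.F ^ ((q - 2) * m'))

end Data

/-- The sums over the labels form a coboundary, for this homomorphism. -/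
def Cob {q L p : ℕ} [Fact q.Prime] [NeZero (q * L)] (hco : Nat.Coprime q L)
    (ψ : Additive (CongruenceSubgroup.Gamma0 (q * L * q)) →+ ZMod p) : Prop :=
  ∀ [Fintype (Pair q)] (g : Pair q → SL(2, ℤ)), IsRep L g →
    ∃ E : Cls q p → ZMod p, ∀ (γ : CongruenceSubgroup.Gamma0 (q * L)) (y₀ : Pair q),
      haveI : DecidableEq (Cls q p) := Classical.decEq _
      (∑ y ∈ Finset.univ.filter (fun y : Pair q => lab (p := p) y = lab y₀),
        hs hco ψ (g y * (γ : SL(2, ℤ)) * (g (nxt γ y))⁻¹)) =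
        E (lab (nxt γ y₀)) - E (lab y₀)

/-- A class gives good data. -/
def TargetDatum : Prop :=
  ∀ (A : ValuationSubring QA) (q M0 N' M' p : ℕ) [Fact q.Prime] [NeZero q] [NeZero M0] [NeZero N']
    [NeZero M'] [Fact p.Prime] [NeZero p] [NeZero (q * M')] [NeZero (q * M' * q)]
    (_ : A.LiesOverPrime q) (m : Model A q M0 N' M') (E : Eqs m.Ω), p ≠ 2 → p ∣ q - 1 →
  ∀ (hle : q * M' * q ∣ q * (M0 * N') * q) (c : JZero (q * M' * q)), p • c = 0 →
    (∀ σ ∈ A.inertiaSubgroupIn ℚ, σ • c = c) →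
    EigenLattice.pushPic (q * M') q (heckeAlphaBar QA (q * M') q) c = 0 →
    EigenLattice.pushPic (q * M') q (heckeBetaBar QA (q * M') q) c = 0 →
  ∀ ψ₀ : Additive (CongruenceSubgroup.Gamma0 (q * M' * q)) →+ ZMod p,
    TorsionHom.IsKummer Kronecker.complexEmb p c ((TorsionHom.rootHom p).comp ψ₀) →
    ∃ D : KDatum m.C p, D.Good m.Ω E ∧ D.ψ = ψ₀.comp (LevelRaise.incl hle).toAdditive

/-- Among two data with coboundaries, a combination has roots along two kinds of branches. -/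
def TargetTwist : Prop :=
  ∀ (A : ValuationSubring QA) (q M0 N' M' p : ℕ) [Fact q.Prime] [NeZero q] [NeZero M0] [NeZero N']
    [NeZero M'] [NeZero (q * (M0 * N'))] [Fact p.Prime] [NeZero p]
    (_ : A.LiesOverPrime q) (m : Model A q M0 N' M') (E : Eqs m.Ω), p ≠ 2 → p ∣ q - 1 →
  ∀ D₁ D₂ : KDatum m.C p, D₁.Good m.Ω E → D₂.Good m.Ω E →
    Cob (coprime_level m.C) D₁.ψ → Cob (coprime_level m.C) D₂.ψ →
    ∃ a₁ a₂ : ℕ, ¬ (p ∣ a₁ ∧ p ∣ a₂) ∧ Nonempty ((D₁.comb D₂ a₁ a₂).Middle m.Ω)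

/-- The roots along two kinds of branches give a root on the cover. -/
def TargetRootOne : Prop :=
  ∀ (A : ValuationSubring QA) (q M0 N' M' p : ℕ) [Fact q.Prime] [NeZero q] [NeZero M0] [NeZero N']
    [NeZero M'] [Fact p.Prime] [NeZero p]
    (_ : A.LiesOverPrime q) (m : Model A q M0 N' M') (E : Eqs m.Ω), p ≠ 2 → p ∣ q - 1 →
  ∀ (D : KDatum m.C p), D.Good m.Ω E → ∀ w : D.Middle m.Ω,
    ∃ G ∈ m.P.Kc, G ^ p = m.P.eps 1 (D.F ^ (q * (q + 1) * w.m'))

/-- A root on the cover kills the character on the stabiliser. -/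
def TargetKill : Prop :=
  ∀ (q M0 N' M' p : ℕ) [Fact q.Prime] [NeZero q] [NeZero M0] [NeZero N'] [NeZero M'] [Fact p.Prime]
    [NeZero p] (C : Ctx q M0 N') (P : Pull C M') (D : KDatum C p) (n : ℕ), ¬ p ∣ n → D.F ≠ 0 →
    (∃ G ∈ P.Kc, G ^ p = P.eps 1 (D.F ^ n)) →
    ∀ γ ∈ KG q M0 (M0 * N'), hs (coprime_level C) D.ψ γ = 0

/-- A system away from `1 + r` killed on the stabiliser vanishes. -/
def TargetVanish : Prop :=
  ∀ (q M0 N' p : ℕ) [Fact q.Prime] [Fact p.Prime] [NeZero (q * (M0 * N') * q)]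
    (hco : Nat.Coprime q (M0 * N')), p ≠ 2 → p ∣ q - 1 →
  ∀ (bad : Finset ℕ) (a : ℕ → ℤ),
    (∃ r : ℕ, r.Prime ∧ r ∉ bad ∧ ¬ r ∣ q * (M0 * N') ∧
      ((a r : ℤ) : ZMod p) ≠ (r : ZMod p) + 1) →
  ∀ ψ ∈ Hpar (CongruenceSubgroup.Gamma0 (q * (M0 * N') * q)) (ZMod p),
    (∀ (r : ℕ) [Fact r.Prime], r ∉ bad → ¬ r ∣ q * (M0 * N') →
      (heckeFam' (q * (M0 * N') * q) r).hecke ψ = a r • ψ) →
    (∀ γ ∈ KG q M0 (M0 * N'), hs hco ψ γ = 0) → ψ = 0

end FLTAgent.Entry.QOne
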