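import Fermat.Agent.Entry.QOne.Stabiliser
import Fermat.Agent.Carayol.Finite

/-!
# A root on the cover kills the character on the stabiliser
-/

set_option autoImplicit false
set_option linter.unusedSectionVars false
set_option linter.style.haveILetI false
set_option synthInstance.maxHeartbeats 400000

noncomputable section

open UpperHalfPlane hiding I I_re I_im
open Function AlgebraicCurve IsLocalRing ModularCurve FLTAgent.ModEq FLTAgent.GoodModel
open scoped MatrixGroups Classical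

namespace FLTAgent.Entry.QOne

open FLTAgent.Carayol

variable {q M0 N' M' : ℕ} [Fact q.Prime] [NeZero q] [NeZero M0] [NeZero N'] [NeZero M']
variable {C : Ctx q M0 N'} (P : Pull C M')

/-- The functions with algebraic coefficients fixed by the stabiliser. -/
def kgFn : Subring P.Fn where
  carrier := {f | ∀ γ ∈ KG q M0 (M0 * N'), ∀ τ : ℍ, (f : ℍ → ℂ) (γ • τ) = (f : ℍ → ℂ) τ}
  zero_mem' := fun _ _ _ => rfl
  one_mem' := fun _ _ _ => rfl
  add_mem' := fun {a b} ha hb γ h τ => by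
    simp only [Subring.coe_add, Pi.add_apply, ha γ h τ, hb γ h τ]
  mul_mem' := fun {a b} ha hb γ h τ => by
    simp only [Subring.coe_mul, Pi.mul_apply, ha γ h τ, hb γ h τ]
  neg_mem' := fun {a} ha γ h τ => by
    simp only [Subring.coe_neg, Pi.neg_apply, ha γ h τ]

theorem exists_kgFn_div {x : LaurentSeries ℂ} (hx : x ∈ P.Kc) :
    ∃ a ∈ kgFn P, ∃ b ∈ kgFn P, b ≠ 0 ∧ x * P.big 1 b = P.big 1 a := by
  rw [Pull.Kc, Subfield.mem_closure_iff] at hx
  have hcl : Subring.closure (Set.range (fun c => HahnSeries.C (P.κ c)) ∪ Set.range (P.eps 1)) ≤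
      (kgFn P).map (P.big 1) := by
    refine Subring.closure_le.2 ?_
    rintro _ (⟨c, rfl⟩ | ⟨a, rfl⟩)
    · exact ⟨P.cst c, fun _ _ _ => rfl, P.big_cst 1 c⟩
    · exact ⟨P.ι a, fun γ h τ => congrFun (compg_of_mem C h a) τ, rfl⟩
  obtain ⟨y, hy, z, hz, rfl⟩ := hx
  obtain ⟨a, ha, rfl⟩ := hcl hy
  obtain ⟨b, hb, rfl⟩ := hcl hz
  rcases eq_or_ne b 0 with rfl | hb0
  · exact ⟨0, zero_mem _, 1, one_mem _, fun h => one_ne_zero
      (congrFun (congrArg (fun f : P.Fn => (f : ℍ → ℂ)) h) UpperHalfPlane.I), by simp⟩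
  · exact ⟨a, ha, b, hb, hb0,
      div_mul_cancel₀ _ fun h => hb0 (P.big_injective 1 (h.trans (map_zero _).symm))⟩

theorem targetKill : TargetKill := by
  intro q M0 N' M' p _ _ _ _ _ _ _ C P D n hn hF hG γ hγ
  have hp : p.Prime := Fact.out
  obtain ⟨G, hGK, hGp⟩ := hG
  obtain ⟨a, ha, b, hb, hb0, hab⟩ := exists_kgFn_div P hGK
  haveI : IsDomain P.Fn := (P.big_injective 1).isDomain _
  set Φ : P.Fn := Subring.inclusion (sPairs_le_of_le P.hS) D.Φ with hΦdef
  have hΦp : Φ ^ p = P.ι D.F := by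
    rw [hΦdef, ← map_pow, D.hΦ]; rfl
  set X : P.Fn := Φ ^ n * b with hXdef
  have hpow : a ^ p = X ^ p := P.big_injective 1 (by
    rw [map_pow, map_pow, ← hab, mul_pow, hGp, hXdef, map_mul, mul_pow, ← map_pow _ (Φ ^ n),
      ← pow_mul, mul_comm n p, pow_mul, hΦp, ← map_pow P.ι]
    rfl)
  have hι : P.eps 1 (D.F ^ n) ≠ 0 := fun h => by
    have h1 : (D.F ^ n : C.R) = 0 := Subtype.ext (congrArg (fun f : P.Fn => (f : ℍ → ℂ))
      (P.big_injective 1 (h.trans (map_zero _).symm) : P.ι (D.F ^ n) = 0))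
    exact pow_ne_zero n hF h1
  have hG0 : G ≠ 0 := fun h0 => hι (by rw [← hGp, h0, zero_pow hp.ne_zero])
  have ha0 : a ≠ 0 := fun h0 => by
    rw [h0, map_zero, mul_eq_zero] at hab
    exact hab.elim hG0 fun h => hb0 (P.big_injective 1 (h.trans (map_zero _).symm))
  have hX0 : X ≠ 0 := fun h0 => pow_ne_zero p ha0 (by rw [hpow, h0, zero_pow hp.ne_zero])
  obtain ⟨z, hz⟩ := HasEnoughRootsOfUnity.exists_primitiveRoot (AlgebraicClosure ℚ) p
  have hzF : IsPrimitiveRoot (P.cst z) p := by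
    set ψ : AlgebraicClosure ℚ →+* P.Fn :=
      { toFun := P.cst
        map_one' := P.big_injective 1 (by rw [P.big_cst, map_one, map_one, map_one])
        map_mul' := fun x y => P.big_injective 1 (by
          rw [map_mul, P.big_cst, P.big_cst, P.big_cst, map_mul, map_mul])
        map_zero' := P.big_injective 1 (by rw [P.big_cst, map_zero, map_zero, map_zero])
        map_add' := fun x y => P.big_injective 1 (by
          rw [map_add, P.big_cst, P.big_cst, P.big_cst, map_add, map_add]) }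
    exact hz.map_of_injective (f := ψ) ψ.injective
  obtain ⟨i, hi⟩ : ∃ i, a = P.cst z ^ i * X := by
    have hprod : ∏ ζ ∈ Polynomial.nthRootsFinset p (1 : P.Fn), (a - ζ * X) = 0 := by
      rw [← hzF.pow_sub_pow_eq_prod_sub_mul a X hp.pos, hpow, sub_self]
    obtain ⟨ζ', hζ', h0⟩ := Finset.prod_eq_zero_iff.1 hprod
    obtain ⟨i, -, hi⟩ := hzF.eq_pow_of_pow_eq_one
      ((Polynomial.mem_nthRootsFinset hp.pos 1).1 hζ')
    exact ⟨i, by rw [hi]; exact sub_eq_zero.1 h0⟩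
  set ξ : ℂ := rootC p (hs (coprime_level C) D.ψ γ) with hξ
  have hXγ : ∀ τ, (X : ℍ → ℂ) (γ • τ) = ξ ^ n * (X : ℍ → ℂ) τ := fun τ => by
    show (D.Φ : ℍ → ℂ) (γ • τ) ^ n * (b : ℍ → ℂ) (γ • τ) =
      ξ ^ n * ((D.Φ : ℍ → ℂ) τ ^ n * (b : ℍ → ℂ) τ)
    rw [D.hchar γ hγ τ, hb γ hγ τ, mul_pow, mul_assoc]
  obtain ⟨τ, hτ⟩ : ∃ τ, (a : ℍ → ℂ) τ ≠ 0 := by
    by_contra h
    push Not at h
    exact ha0 (Subtype.ext (funext h))
  have hξn : ξ ^ n = 1 := by
    have h1 : ∀ σ, (a : ℍ → ℂ) σ = P.κ z ^ i * (X : ℍ → ℂ) σ := fun σ =>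
      congrFun (congrArg Subtype.val hi) σ
    have h2 := ha γ hγ τ
    rw [h1, h1 τ, hXγ] at h2
    rw [h1 τ] at hτ
    exact mul_right_cancel₀ hτ (by rw [one_mul]; linear_combination h2)
  set u := hs (coprime_level C) D.ψ γ
  have hu : ((n : ZMod p)) * u = 0 := by
    rw [← nsmul_eq_mul]
    refine TorsionHom.rootHom_injective p ?_
    rw [map_nsmul, map_zero]
    exact Additive.toMul.injective (Units.ext (by
      simpa [rootC, hξ, toMul_nsmul] using hξn))
  exact (mul_eq_zero.1 hu).resolve_left fun h => hn ((ZMod.natCast_eq_zero_iff n p).1 h)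

end FLTAgent.Entry.QOne
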