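import Fermat.Agent.Entry.QOne.Datum
import Fermat.Agent.LevelRaise.Transfer

/-!
# Lowering `q²` for `q ≡ 1`: restriction to the level of the cover

Restriction commutes with the adjoint Hecke operators at good primes, keeps coboundaries, and is
injective on parabolic homomorphisms when the level grows by a divisor of four.
-/

set_option autoImplicit false
set_option linter.unusedSectionVars false
set_option linter.style.haveILetI false
set_option synthInstance.maxHeartbeats 400000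

noncomputable section

open scoped MatrixGroups
open CongruenceSubgroup FLTAgent.PeriodHecke

namespace FLTAgent.Entry.QOne

local notation "M2" => Matrix (Fin 2) (Fin 2) ℤ

/-- Change of representatives along a homomorphism between two groups. -/
theorem hecke_intertwine_hom {Γ Γ' : Subgroup SL(2, ℤ)} {I J A : Type*} [Fintype I] [Fintype J]
    [AddCommGroup A] (F : HeckeFamily Γ I) (G : HeckeFamily Γ' J) (c : Γ' →* Γ)
    (hc : ∀ γ : Γ', mat γ = mat (c γ)) (e : J ≃ I) (δ : J → Γ)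
    (hδ : ∀ j, G.α j = mat (δ j) * F.α (e j)) (φ : Additive Γ →+ A) :
    G.hecke (φ.comp c.toAdditive) = (F.hecke φ).comp c.toAdditive := by
  refine AddMonoidHom.ext fun γ => ?_
  obtain ⟨γ, rfl⟩ := Additive.ofMul.surjective γ
  show ∑ j, φ (Additive.ofMul (c (G.coc γ j))) = ∑ i, φ (Additive.ofMul (F.coc (c γ) i))
  have key : ∀ j, F.next (c γ) (e j) = e (G.next γ j) ∧
      F.coc (c γ) (e j) = (δ j)⁻¹ * c (G.coc γ j) * δ (G.next γ j) := by
    intro j
    refine F.eq_of_rel ?_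
    have h : mat (δ j) * (F.α (e j) * mat (c γ)) =
        mat (c (G.coc γ j) * δ (G.next γ j)) * F.α (e (G.next γ j)) := by
      rw [← mul_assoc, ← hδ, ← hc, G.rel, hδ, hc, mat_mul, mul_assoc]
    have h' := congrArg (fun X => mat (δ j)⁻¹ * X) h
    simp only [← mul_assoc, ← mat_mul, inv_mul_cancel, mat_one, one_mul] at h'
    exact h'
  conv_rhs => rw [← Equiv.sum_comp e, Finset.sum_congr rfl (fun j _ => by rw [(key j).2])]
  simp only [ofMul_mul, map_add, ofMul_inv, map_neg, Finset.sum_add_distrib, Finset.sum_neg_distrib]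
  rw [show ∑ j, φ (Additive.ofMul (δ (G.next γ j))) = ∑ j, φ (Additive.ofMul (δ j)) from
    Equiv.sum_comp (G.perm γ) (fun j => φ (Additive.ofMul (δ j)))]
  abel

/-- Restriction commutes with the adjoint Hecke operators at good primes. -/
theorem hecke_res' {N L r : ℕ} [NeZero N] [NeZero L] [Fact r.Prime] (h : N ∣ L) (hr : ¬ r ∣ L)
    {A : Type*} [AddCommGroup A] (φ : Additive (Gamma0 N) →+ A) :
    (heckeFam' L r).hecke (φ.comp (LevelRaise.incl h).toAdditive) =
      ((heckeFam' N r).hecke φ).comp (LevelRaise.incl h).toAdditive := by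
  classical
  obtain ⟨m, hm⟩ := id h
  have hrN : ¬ r ∣ N := fun h' => hr (h'.trans h)
  have hm0 : (m : ZMod r) ≠ 0 := fun h' =>
    hr (hm ▸ dvd_mul_of_dvd_right ((ZMod.natCast_eq_zero_iff _ _).1 h') N)
  let e : HeckeIdx L r ≃ HeckeIdx N r :=
    { toFun := fun i => ⟨i.1.map (fun j => (m : ZMod r) * j), fun _ => hrN⟩
      invFun := fun i => ⟨i.1.map (fun j => (m : ZMod r)⁻¹ * j), fun _ => hr⟩
      left_inv := fun i => Subtype.ext (by
        simp [Option.map_map, Function.comp_def, hm0])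
      right_inv := fun i => Subtype.ext (by
        simp [Option.map_map, Function.comp_def, hm0]) }
  let δ : HeckeIdx L r → Gamma0 N := fun i =>
    match i with
    | ⟨none, _⟩ => 1
    | ⟨some j, _⟩ => gamma0Mk N 1 0
        ((N : ℤ) * ((((m : ZMod r) * j).val - (m : ℤ) * j.val) / r)) 1 (by ring) (dvd_mul_right _ _)
  refine hecke_intertwine_hom (heckeFam' N r) (heckeFam' L r) (LevelRaise.incl h) (fun _ => rfl)
    e δ (fun i => ?_) φ
  rcases HeckeIdx.cases L r i with ⟨hn, rfl⟩ | ⟨j, rfl⟩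
  · show heckeRep' L r ⟨none, hn⟩ = mat (1 : Gamma0 N) * heckeRep' N r ⟨none, fun _ => hrN⟩
    rw [mat_one, one_mul]
    rfl
  · have hdvd : (r : ℤ) ∣ (((m : ZMod r) * j).val : ℤ) - (m : ℤ) * j.val := by
      refine not_dvd_of_coe_eq_zero ?_
      push_cast
      rw [ZMod.natCast_zmod_val, ZMod.natCast_zmod_val, sub_self]
    have hdiv := Int.ediv_mul_cancel hdvd
    show heckeRep' L r (idxSome L r j) = mat (gamma0Mk N 1 0 _ 1 _ _) *
      heckeRep' N r (idxSome N r ((m : ZMod r) * j))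
    rw [mat_gamma0Mk]
    simp only [heckeRep', idxSome]
    have hL : (L : ℤ) = (N : ℤ) * m := by exact_mod_cast hm
    ext a b
    fin_cases a <;> fin_cases b <;>
      simp [Matrix.mul_apply, Fin.sum_univ_two, -ZMod.natCast_val]
    linear_combination (-(N : ℤ)) * hdiv - (j.val : ℤ) * hL

/-- A homomorphism killed on a group with four times the level vanishes if parabolic. -/
theorem eq_zero_of_res {N L : ℕ} (h : N ∣ L) (hL : L ∣ 4 * N) {A : Type*} [AddCommGroup A]
    {φ : Additive (Gamma0 N) →+ A} (hφ : φ ∈ Hpar (Gamma0 N) A)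
    (h0 : φ.comp (LevelRaise.incl h).toAdditive = 0) : φ = 0 := by
  refine AddMonoidHom.ext fun x => ?_
  obtain ⟨γ, rfl⟩ := Additive.ofMul.surjective x
  set a := mat γ 0 0 with ha
  set b := mat γ 0 1 with hb
  set c := mat γ 1 0 with hc
  set d := mat γ 1 1 with hd
  have hdet : a * d - b * c = 1 := by
    have := mat_det γ
    rwa [Matrix.det_fin_two] at this
  obtain ⟨c', hc'⟩ := dvd_lower_left N γ
  obtain ⟨i, hi⟩ : ∃ i : ℤ, (a + i * c) % 2 = 1 := by
    by_cases h2 : a % 2 = 1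
    · exact ⟨0, by simpa using h2⟩
    · refine ⟨1, ?_⟩
      have h3 : c % 2 = 1 := by
        by_contra h4
        have e1 : (2 : ℤ) ∣ a := by omega
        have e2 : (2 : ℤ) ∣ c := by omega
        have : (2 : ℤ) ∣ a * d - b * c := dvd_sub (dvd_mul_of_dvd_left e1 d) (dvd_mul_of_dvd_right e2 b)
        rw [hdet] at this
        omega
      omega
  set a' := a + i * c
  obtain ⟨j, hj⟩ : ∃ j : ℤ, (4 : ℤ) ∣ c' + j * a' := by
    rcases (show a' % 4 = 1 ∨ a' % 4 = 3 by omega) with h4 | h4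
    · exact ⟨-c', ⟨-(c' * (a' / 4)), by linear_combination (-c') * (Int.emod_add_mul_ediv a' 4).symm.trans (by rw [h4])⟩⟩
    · exact ⟨c', ⟨c' * (a' / 4 + 1), by linear_combination c' * (Int.emod_add_mul_ediv a' 4).symm.trans (by rw [h4])⟩⟩
  set U : Gamma0 N := gamma0Mk N 1 0 ((N : ℤ) * j) 1 (by ring) (dvd_mul_right _ _)
  set T : Gamma0 N := gamma0Mk N 1 i 0 1 (by ring) (dvd_zero _)
  have hU : φ (Additive.ofMul U) = 0 := hφ U (by rw [mat_gamma0Mk, Matrix.trace_fin_two_of]; norm_num)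
  have hT : φ (Additive.ofMul T) = 0 := hφ T (by rw [mat_gamma0Mk, Matrix.trace_fin_two_of]; norm_num)
  have hlow : mat (U * T * γ) 1 0 = (N : ℤ) * (c' + j * a') := by
    rw [mat_mul, mat_mul, mat_gamma0Mk, mat_gamma0Mk, Matrix.eta_fin_two (mat γ)]
    simp [Matrix.mul_apply, Fin.sum_univ_two, a', a, c, hc']
    ring
  have hmem : ((U * T * γ : Gamma0 N) : SL(2, ℤ)) ∈ Gamma0 L := by
    rw [Gamma0_mem, ZMod.intCast_zmod_eq_zero_iff_dvd]
    show (L : ℤ) ∣ mat (U * T * γ) 1 0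
    rw [hlow]
    refine (Int.natCast_dvd_natCast.2 hL).trans ?_
    obtain ⟨k, hk⟩ := hj
    exact ⟨k, by rw [hk]; push_cast; ring⟩
  have h1 := DFunLike.congr_fun h0 (Additive.ofMul (⟨_, hmem⟩ : Gamma0 L))
  change φ (Additive.ofMul (U * T * γ)) = 0 at h1
  simpa [ofMul_mul, hU, hT] using h1

variable {q L₁ L₂ : ℕ}

theorem dvd_sq_level (h : L₁ ∣ L₂) : q * L₁ * q ∣ q * L₂ * q :=
  mul_dvd_mul (mul_dvd_mul_left q h) dvd_rfl

variable [Fact q.Prime]

/-- Coboundaries pass to larger levels. -/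
theorem cob_of_dvd [NeZero (q * L₁)] [NeZero (q * L₂)] {p : ℕ} (h : L₁ ∣ L₂)
    (hco₁ : Nat.Coprime q L₁) (hco₂ : Nat.Coprime q L₂)
    {ψ : Additive (Gamma0 (q * L₁ * q)) →+ ZMod p} (hψ : Cob hco₁ ψ) :
    Cob hco₂ (ψ.comp (LevelRaise.incl (dvd_sq_level h)).toAdditive) := by
  intro _ g hg
  have hg1 : IsRep L₁ g := fun y => ⟨LevelRaise.Gamma0_le h (hg y).1, (hg y).2⟩
  obtain ⟨E, hE⟩ := hψ g hg1
  refine ⟨E, fun γ y₀ => ?_⟩
  have h1 := hE (LevelRaise.incl (mul_dvd_mul_left q h) γ) y₀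
  refine Eq.trans (Finset.sum_congr rfl fun y _ => ?_) h1
  show hs hco₂ _ (g y * (γ : SL(2, ℤ)) * (g (nxt γ y))⁻¹) =
    hs hco₁ ψ (g y * (γ : SL(2, ℤ)) * (g (nxt γ y))⁻¹)
  have hm := hg.coc_mem γ y
  have hm1 : g y * (γ : SL(2, ℤ)) * (g (nxt γ y))⁻¹ ∈ Split q L₁ :=
    ⟨hm.1, hm.2.1, (Int.natCast_dvd_natCast.2 h).trans hm.2.2⟩
  rw [hs, hs, dif_pos hm, dif_pos hm1]
  rfl

end FLTAgent.Entry.QOne
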