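import Fermat.Agent.Entry.QOne.Datum
import Fermat.Agent.LevelRaise.DiamondTrivial

/-!
# Lowering `q²` for `q ≡ 1`: a system killed on the stabiliser vanishes

Up to a translation, the elements with lower right entry one modulo the level lie in the stabiliser,
so the homomorphism is an eigenvector with Eisenstein eigenvalues.
-/

set_option autoImplicit false
set_option linter.unusedSectionVars false
set_option linter.style.haveILetI false
set_option synthInstance.maxHeartbeats 400000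

noncomputable section

open scoped MatrixGroups
open CongruenceSubgroup FLTAgent.PeriodHecke

namespace FLTAgent.Entry.QOne

variable {q M0 N' : ℕ} [Fact q.Prime]

/-- A parabolic homomorphism killed on the stabiliser kills the elements with trivial diagonal. -/
theorem eq_zero_of_kg {A : Type*} [AddCommGroup A] (hco : Nat.Coprime q (M0 * N'))
    {ψ : Additive (Gamma0 (q * (M0 * N') * q)) →+ A}
    (hψ : ψ ∈ Hpar (Gamma0 (q * (M0 * N') * q)) A)
    (hkill : ∀ γ ∈ KG q M0 (M0 * N'), hs hco ψ γ = 0) (γ : Gamma0 (q * (M0 * N') * q))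
    (h11 : ((q * (M0 * N') * q : ℕ) : ℤ) ∣ mat γ 1 1 - 1) : ψ (Additive.ofMul γ) = 0 := by
  have hq0 : (q : ℤ) ≠ 0 := Int.natCast_ne_zero.2 (Fact.out : q.Prime).ne_zero
  set a := mat γ 0 0 with ha
  set b := mat γ 0 1 with hb
  set c := mat γ 1 0 with hc
  set d := mat γ 1 1 with hd
  have hdet : a * d - b * c = 1 := by
    have := mat_det γ
    rwa [Matrix.det_fin_two] at this
  obtain ⟨c', hc'⟩ := dvd_lower_left (q * (M0 * N') * q) γ
  obtain ⟨e, he⟩ := h11
  have hcN : c = (q : ℤ) * ((M0 : ℤ) * N') * q * c' := by rw [hc, hc']; push_cast; ring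
  have heN : d - 1 = (q : ℤ) * ((M0 : ℤ) * N') * q * e := by rw [he]; push_cast; ring
  -- a translate
  set T : Gamma0 (q * (M0 * N') * q) := gamma0Mk (q * (M0 * N') * q) 1 (-b) 0 1 (by ring) (dvd_zero _)
  have hT : ψ (Additive.ofMul T) = 0 := hψ T (by
    rw [mat_gamma0Mk, Matrix.trace_fin_two_of]; norm_num)
  set g := γ * T with hg
  have hmat : mat g = !![a, a * (-b) + b; c, c * (-b) + d] := by
    rw [hg, mat_mul, mat_gamma0Mk, Matrix.eta_fin_two (mat γ), ← ha, ← hb, ← hc, ← hd]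
    ext i j
    fin_cases i <;> fin_cases j <;> simp [Matrix.mul_apply, Fin.sum_univ_two]
  suffices h : ψ (Additive.ofMul g) = 0 by
    rw [hg, ofMul_mul, map_add, hT, add_zero] at h
    exact h
  -- the element of the stabiliser
  let s : SL(2, ℤ) := ⟨!![a, (a * (-b) + b) * q; (M0 : ℤ) * N' * q * c', c * (-b) + d], by
    rw [Matrix.det_fin_two_of]
    linear_combination hdet + (a * (-b) + b) * hcN⟩
  have hs1 : s ∈ Split q (M0 * N') := ⟨dvd_mul_left _ _, ⟨(M0 : ℤ) * N' * c', by simp [s]; ring⟩,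
    ⟨(q : ℤ) * c', by simp [s]; ring⟩⟩
  have hsK : s ∈ KG q M0 (M0 * N') := by
    have e1 : ((d : ℤ) : ZMod M0) = 1 := by
      rw [← sub_eq_zero, ← Int.cast_one, ← Int.cast_sub, heN]
      push_cast
      simp
    have e2 : ((c : ℤ) : ZMod M0) = 0 := by rw [hcN]; push_cast; simp
    have e3 : ((a : ℤ) : ZMod M0) = 1 := by
      have h1 := congrArg (fun z : ℤ => (z : ZMod M0)) hdet
      simpa [e1, e2] using h1
    refine ⟨?_, hs1, Or.inl ?_⟩
    · rw [Gamma_mem]
      refine ⟨?_, ?_, ?_, ?_⟩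
      · simpa [s] using e3
      · simp [s, e3]
      · simp [s]
      · simp [s, e1, e2]
    · have f1 : ((d : ℤ) : ZMod (M0 * N')) = 1 := by
        rw [← sub_eq_zero, ← Int.cast_one, ← Int.cast_sub, heN,
          show (q : ℤ) * ((M0 : ℤ) * N') * q * e = ((M0 * N' : ℕ) : ℤ) * (q * q * e) by
            push_cast; ring, Int.cast_mul, Int.cast_natCast, ZMod.natCast_self, zero_mul]
      have f2 : ((c : ℤ) : ZMod (M0 * N')) = 0 := by
        rw [hcN, show (q : ℤ) * ((M0 : ℤ) * N') * q * c' = ((M0 * N' : ℕ) : ℤ) * (q * q * c') by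
            push_cast; ring, Int.cast_mul, Int.cast_natCast, ZMod.natCast_self, zero_mul]
      simp [s, f1, f2]
  have h := hkill s hsK
  rw [hs, dif_pos hs1] at h
  rwa [show splitEmb q (M0 * N') ⟨s, hs1⟩ hco = g from ?_] at h
  apply mat_injective
  rw [splitEmb, mat_gamma0Mk, hmat]
  ext i j
  fin_cases i <;> fin_cases j <;> simp [s, hcN]
  all_goals first
    | ring1
    | exact Int.mul_ediv_cancel _ hq0

/-- **A system away from `1 + r` killed on the stabiliser vanishes.** -/
theorem targetVanish : TargetVanish := by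
  intro q M0 N' p _ _ _ hco _ _ bad a hne ψ hψ heig hkill
  obtain ⟨r, hr, hrb, hrN, hre⟩ := hne
  haveI := Fact.mk hr
  have hrN2 : ¬ r ∣ (q * (M0 * N') * q) := fun h => (hr.dvd_mul.1 h).elim hrN fun h' => hrN (h'.trans (dvd_mul_right q _))
  set φ : Additive (Gamma0 (q * (M0 * N') * q)) →+ ZMod p := ψ.comp (fricke (q * (M0 * N') * q)).toAdditive
  have h1 : ∀ γ : Gamma0 (q * (M0 * N') * q), ((q * (M0 * N') * q : ℕ) : ℤ) ∣ mat γ 1 1 - 1 → φ (Additive.ofMul γ) = 0 := fun γ hγ => by
    refine eq_zero_of_kg hco hψ hkill (fricke (q * (M0 * N') * q) γ) ?_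
    show ((q * (M0 * N') * q : ℕ) : ℤ) ∣ mat γ 0 0 - 1
    obtain ⟨c', hc'⟩ := dvd_lower_left (q * (M0 * N') * q) γ
    obtain ⟨e, he⟩ := hγ
    have hdet := mat_det γ
    rw [Matrix.det_fin_two, hc'] at hdet
    exact ⟨mat γ 0 1 * c' - mat γ 0 0 * e, by linear_combination hdet - mat γ 0 0 * he⟩
  have h2 : (r + 1) • φ = a r • φ := by
    rw [← LevelRaise.hecke_of_kills_Gamma1 hrN2 h1, hecke_fricke, heig r hrb hrN]
    rfl
  refine AddMonoidHom.ext fun x => ?_
  obtain ⟨γ, rfl⟩ := Additive.ofMul.surjective x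
  have h3 := DFunLike.congr_fun h2 (Additive.ofMul (fricke (q * (M0 * N') * q) γ))
  change (r + 1) • ψ (Additive.ofMul (fricke (q * (M0 * N') * q) (fricke (q * (M0 * N') * q) γ))) =
    a r • ψ (Additive.ofMul (fricke (q * (M0 * N') * q) (fricke (q * (M0 * N') * q) γ))) at h3
  rw [fricke_fricke, nsmul_eq_mul, zsmul_eq_mul, Nat.cast_add, Nat.cast_one] at h3
  exact (mul_eq_mul_right_iff.1 h3).resolve_left (Ne.symm hre)

end FLTAgent.Entry.QOne
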