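import Fermat.Agent.Entry.Assembly.FixedPair
import Fermat.Agent.Entry.Gluing.Split
import Fermat.Agent.Entry.Gluing.Datum
import Fermat.Agent.Entry.QOne.Coboundary
import Fermat.Agent.Entry.QOne.Restrict
import Fermat.Agent.Entry.QOne.Vanish

/-!
# Lowering `q²` for `q ≡ 1`: assembly

Two independent fixed eigenvectors give two data with coboundaries. A combination of them is
killed on the stabiliser, so it vanishes, against independence.
-/

set_option autoImplicit false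
set_option linter.style.haveILetI false
set_option linter.unusedSectionVars false
set_option synthInstance.maxHeartbeats 400000
set_option maxHeartbeats 1000000

noncomputable section

open AlgebraicCurve ModularCurve IsLocalRing CongruenceSubgroup
open scoped MatrixGroups

namespace FLTAgent.Entry.QOne

open Matrix FLTAgent.PeriodHecke FLTAgent.Carayol
open FLTAgent.EigenLattice (pushPic Ix vecEquiv torsCoord vecEquiv_actA evalGood)
open FLTAgent.MazurPrinciple (eigenSpace classOf evalGood_mulVec pushPic_classOf heckeP nsmul_classOf)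
open FLTAgent.Lowering.P7 (Seen exists_killed)
open FLTAgent.TorsionHom (rootHom torsEquiv kummer kummer_spec torsEquiv_spec)

local notation "QA" => AlgebraicClosure ℚ
local notation "GG" => (AlgebraicClosure ℚ ≃ₐ[ℚ] AlgebraicClosure ℚ)

section Good

variable {q M0 N' : ℕ} [NeZero M0] [NeZero N'] [NeZero q] [Fact q.Prime] {C : Ctx q M0 N'}
variable {k : Type} [Field k] {Ω : Res C k} {p : ℕ} [Fact p.Prime]

/-- Combinations of good data are good. -/
theorem KDatum.Good.comb {E : Eqs Ω} {D₁ D₂ : KDatum C p} (h₁ : D₁.Good Ω E) (h₂ : D₂.Good Ω E)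
    (a₁ a₂ : ℕ) : (D₁.comb D₂ a₁ a₂).Good Ω E := by
  have hne : ∀ D : KDatum C p, D.Good Ω E → D.F ≠ 0 := fun D h h0 =>
    h.hF ⟨C.eta, C.eta_mem_nodes⟩ 0 (by rw [h0, map_zero])
  refine ⟨fun g j => ?_, ?_, ?_, ?_, fun pt hpt => ?_⟩
  · show Ω.rs g j (D₁.F ^ a₁ * D₂.F ^ a₂) ≠ 0
    rw [map_mul, map_pow, map_pow]
    exact mul_ne_zero (pow_ne_zero _ (h₁.hF g j)) (pow_ne_zero _ (h₂.hF g j))
  · exact Ctx.vDvd_mul (pow_ne_zero _ (hne _ h₁)) (pow_ne_zero _ (hne _ h₂))
      (Ctx.vDvd_pow (hne _ h₁) h₁.hv _) (Ctx.vDvd_pow (hne _ h₂) h₂.hv _)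
  · exact Ctx.relB_mul (Ctx.relB_pow h₁.hα _) (Ctx.relB_pow h₂.hα _)
  · exact Ctx.relB_mul (Ctx.relB_pow h₁.hβ _) (Ctx.relB_pow h₂.hβ _)
  · show pt.π (D₁.F ^ a₁ * D₂.F ^ a₂) ≠ 0
    rw [map_mul, map_pow, map_pow]
    exact mul_ne_zero (pow_ne_zero _ (h₁.hss pt hpt)) (pow_ne_zero _ (h₂.hss pt hpt))

end Good

section System

variable {p : ℕ} [Fact p.Prime] [NeZero p] {N : ℕ} [NeZero N] {bad : Finset ℕ} {a : ℕ → ℤ}

/-- A system not seen at a level has no eigenclass there. -/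
theorem eq_zero_of_not_seen (hbad : ∀ r : ℕ, r.Prime → r ∣ N → r ∈ bad) {tr : GG → ZMod p}
    (ha : ∀ r : ℕ, r.Prime → r ∉ bad → ∀ V : ValuationSubring QA, V.LiesOverPrime r →
      ∀ σ : GG, V.IsFrobeniusAt σ r → tr σ = (a r : ZMod p))
    (hns : ¬ Seen N bad tr) {η : Additive (Gamma0 N) →+ ZMod p}
    (hη : η ∈ Hpar (Gamma0 N) (ZMod p))
    (heig : ∀ (r : ℕ) [Fact r.Prime], r ∉ bad → ¬ r ∣ N → (heckeFam N r).hecke η = a r • η) :
    η = 0 := by
  obtain ⟨P, hP0, hPa⟩ := exists_killed (p := p) (a := a) dvd_rfl hbad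
    (fun r hr _ hrb V hV σ hσ => ha r hr hrb V hV σ hσ) hns
  set v := vecEquiv N (ZMod p) ⟨η, hη⟩
  have hv : v ∈ eigenSpace N p bad a := fun r h1 h2 => by
    haveI := Fact.mk r.2
    rw [heckeP, ← vecEquiv_actA, actA_heckeGen, Int.cast_smul_eq_zsmul, ← map_zsmul]
    exact congrArg _ (Subtype.ext (heig r h2 h1))
  have h1 := evalGood_mulVec N p bad a P hv
  have hz : EigenLattice.heckeMx N (0 : CuspForm.heckeAlgebra N 2 (∅ : Set ℕ)) = 0 := by
    simpa using EigenLattice.heckeMx_intCast (N := N) 0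
  rw [hP0, heckeP, hz, Matrix.map_zero _ (map_zero _), Matrix.zero_mulVec] at h1
  have h2 := (vecEquiv N (ZMod p)).map_eq_zero_iff.1 ((smul_eq_zero.1 h1.symm).resolve_left hPa)
  exact congrArg Subtype.val h2

variable (N bad a)

/-- The homomorphism of a class in the normalisation of the Kummer character. -/
def homOf (v : Ix N → ZMod p) : Additive (Gamma0 N) →+ ZMod p :=
  ((vecEquiv N (ZMod p)).symm v).1.comp (fricke N).toAdditive

variable {N bad a}

theorem homOf_mem (v : Ix N → ZMod p) : homOf N v ∈ Hpar (Gamma0 N) (ZMod p) :=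
  fricke_mem_Hpar (N := N) ((vecEquiv N (ZMod p)).symm v).2

theorem hecke_homOf {v : Ix N → ZMod p} (hv : v ∈ eigenSpace N p bad a) (r : ℕ) [Fact r.Prime]
    (hrb : r ∉ bad) (hrN : ¬ r ∣ N) :
    (heckeFam' N r).hecke (homOf N v) = a r • homOf N v := by
  set φ := (vecEquiv N (ZMod p)).symm v
  have h1 : (heckeFam N r).heckePar φ = a r • φ := by
    refine (vecEquiv N (ZMod p)).injective ?_
    rw [← actA_heckeGen, vecEquiv_actA, map_zsmul, AddEquiv.apply_symm_apply,
      ← Int.cast_smul_eq_zsmul (ZMod p)]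
    exact hv ⟨r, Fact.out⟩ hrN hrb
  have h2 : (φ.1.comp (fricke N).toAdditive).comp (fricke N).toAdditive = φ.1 :=
    AddMonoidHom.ext fun γ => congrArg φ.1 (congrArg Additive.ofMul (fricke_fricke N γ.toMul))
  have h3 := hecke_fricke N r (φ.1.comp (fricke N).toAdditive)
  rw [h2] at h3
  refine AddMonoidHom.ext fun x => ?_
  obtain ⟨γ, rfl⟩ := Additive.ofMul.surjective x
  have h4 := DFunLike.congr_fun h3 (Additive.ofMul (fricke N γ))
  rw [show (heckeFam N r).hecke φ.1 = a r • φ.1 from congrArg Subtype.val h1] at h4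
  change a r • φ.1 (Additive.ofMul (fricke N γ)) = (heckeFam' N r).hecke (homOf N v)
    (Additive.ofMul (fricke N (fricke N γ))) at h4
  rw [fricke_fricke] at h4
  exact h4.symm

theorem isKummer_homOf (v : Ix N → ZMod p) :
    TorsionHom.IsKummer Kronecker.complexEmb p (classOf N Kronecker.complexEmb p v)
      ((rootHom p).comp (homOf N v)) := by
  set c := (torsCoord (N := N) Kronecker.complexEmb p).symm v with hc
  have h0 : (vecEquiv N (ZMod p)).symm v = torsEquiv Kronecker.complexEmb p c := by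
    refine (vecEquiv N (ZMod p)).injective ?_
    rw [AddEquiv.apply_symm_apply]
    exact ((torsCoord (N := N) Kronecker.complexEmb p).apply_symm_apply v).symm
  have h1 : (rootHom p).comp (homOf N v) = (kummer Kronecker.complexEmb p c).1 := by
    have h2 := congrArg Subtype.val (torsEquiv_spec Kronecker.complexEmb p c)
    refine AddMonoidHom.ext fun x => ?_
    obtain ⟨γ, rfl⟩ := Additive.ofMul.surjective x
    have h3 := DFunLike.congr_fun h2 (Additive.ofMul (fricke N γ))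
    change rootHom p ((torsEquiv Kronecker.complexEmb p c).1 (Additive.ofMul (fricke N γ))) =
      (kummer Kronecker.complexEmb p c).1 (Additive.ofMul (fricke N (fricke N γ))) at h3
    rw [fricke_fricke] at h3
    show rootHom p (((vecEquiv N (ZMod p)).symm v).1 (Additive.ofMul (fricke N γ))) = _
    rw [h0]
    exact h3
  rw [h1]
  exact kummer_spec _ _ _

theorem smul_homOf_eq_zero {u v : Ix N → ZMod p} {a₁ a₂ : ℕ}
    (h : a₁ • homOf N u + a₂ • homOf N v = 0) : (a₁ : ZMod p) • u + (a₂ : ZMod p) • v = 0 := by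
  rw [Nat.cast_smul_eq_nsmul, Nat.cast_smul_eq_nsmul]
  refine (vecEquiv N (ZMod p)).symm.injective (Subtype.ext (AddMonoidHom.ext fun x => ?_))
  obtain ⟨γ, rfl⟩ := Additive.ofMul.surjective x
  have h1 := DFunLike.congr_fun h (Additive.ofMul (fricke N γ))
  change a₁ • ((vecEquiv N (ZMod p)).symm u).1 (Additive.ofMul (fricke N (fricke N γ))) +
    a₂ • ((vecEquiv N (ZMod p)).symm v).1 (Additive.ofMul (fricke N (fricke N γ))) = 0 at h1
  rw [fricke_fricke] at h1
  rw [map_add, map_nsmul, map_nsmul, map_zero]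
  exact h1

end System

/-- Two independent fixed classes at level `q²M'` force the system to be seen lower. -/
theorem false_of_pair (hD : TargetDatum) (hT : TargetTwist) (hR : TargetRootOne) (hK : TargetKill)
    {p : ℕ} [Fact p.Prime] [NeZero p] (S : Sys p) (hp2 : p ≠ 2) {q : ℕ} [Fact q.Prime] [NeZero q]
    (hq1 : p ∣ q - 1) {M' M'' : ℕ} [NeZero M'] [NeZero M''] [NeZero (q * M')]
    [NeZero (q * M' * q)] (hqM : ¬ q ∣ M') (hdvd : M' ∣ M'') (hev : 2 ∣ M'') (h4 : M'' ∣ 4 * M')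
    {bad₀ bad : Finset ℕ} (hsub : bad₀ ⊆ bad) (hpb : p ∈ bad₀)
    (hbad₀ : ∀ r : ℕ, r.Prime → r ∣ q * M' * q → r ∈ bad₀)
    (hbad : ∀ r : ℕ, r.Prime → r ∣ q * M'' → r ∈ bad) (hS : S.bad ⊆ bad₀) {a : ℕ → ℤ}
    (hsys : ∀ r : ℕ, r.Prime → r ∉ bad₀ → ∀ V : ValuationSubring QA, V.LiesOverPrime r →
      ∀ σ : GG, V.IsFrobeniusAt σ r → S.tr σ = (a r : ZMod p))
    (hns₀ : ¬ Seen (q * M') bad₀ S.tr) (hns : ¬ Seen (q * M'') bad S.tr)
    {A : ValuationSubring QA} (hA : A.LiesOverPrime q) {u v : Ix (q * M' * q) → ZMod p}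
    (hu : u ∈ eigenSpace (q * M' * q) p bad₀ a) (hv : v ∈ eigenSpace (q * M' * q) p bad₀ a)
    (hli : LinearIndependent (ZMod p) ![u, v])
    (hfix : ∀ τ ∈ A.inertiaSubgroupIn ℚ,
      τ • classOf (q * M' * q) Kronecker.complexEmb p u =
          classOf (q * M' * q) Kronecker.complexEmb p u ∧
        τ • classOf (q * M' * q) Kronecker.complexEmb p v =
          classOf (q * M' * q) Kronecker.complexEmb p v) : False := by
  classical
  have hq : q.Prime := Fact.out
  have hp : p.Prime := Fact.out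
  have hqodd : q ≠ 2 := fun h => by
    subst h
    exact hp.not_dvd_one hq1
  have hq2 : ¬ q ∣ 2 := fun h => hqodd ((Nat.prime_dvd_prime_iff_eq hq Nat.prime_two).1 h)
  haveI : NeZero (2 * M') := ⟨mul_ne_zero two_ne_zero (NeZero.ne M')⟩
  obtain ⟨m⟩ := nonempty_model (M' := M') hA (M0 := 2) (Or.inl rfl) hq2 hqM
  haveI := m.dvr
  haveI := m.noeth
  haveI : IsAlgClosed (ResidueField A) := FrobTrace.isAlgClosed_residueField A
  haveI : CharP (ResidueField A) q := FrobTrace.charP_residueField hA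
  obtain ⟨E⟩ : Nonempty (Eqs m.Ω) := m.Ω.nonempty_eqs
  set L₀ : ℕ := 2 * (2 * M') with hL₀
  haveI : NeZero (q * L₀) := ⟨mul_ne_zero (NeZero.ne q) (mul_ne_zero two_ne_zero (NeZero.ne _))⟩
  haveI : NeZero (q * L₀ * q) := ⟨mul_ne_zero (NeZero.ne _) (NeZero.ne q)⟩
  haveI : NeZero (q * M'') := ⟨mul_ne_zero (NeZero.ne q) (NeZero.ne M'')⟩
  haveI : NeZero (q * M'' * q) := ⟨mul_ne_zero (NeZero.ne _) (NeZero.ne q)⟩
  have hd1 : M' ∣ L₀ := ⟨4, by rw [hL₀]; ring⟩
  have hd2 : M'' ∣ L₀ := by rw [hL₀, ← mul_assoc]; exact h4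
  have hle : q * M' * q ∣ q * L₀ * q := dvd_sq_level hd1
  have hco0 := coprime_level m.C
  have hco : Nat.Coprime q M'' := Nat.Coprime.coprime_dvd_right hd2 hco0
  have hbig : ∀ r : ℕ, r.Prime → r ∣ q * L₀ → r ∈ bad := fun r hr h => by
    rcases hr.dvd_mul.1 h with h | h
    · exact hbad r hr (h.trans (dvd_mul_right q M''))
    · refine hbad r hr (dvd_mul_of_dvd_right ?_ q)
      rcases hr.dvd_mul.1 h with h | h
      · exact h.trans hev
      · rcases hr.dvd_mul.1 h with h | h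
        · exact h.trans hev
        · exact h.trans hdvd
  -- the pushes vanish
  obtain ⟨P, hP0, hPa⟩ := exists_killed (p := p) (a := a) (N := q * M' * q) (M := q * M')
    (dvd_mul_right _ q) hbad₀ (fun r hr _ hrb V hV σ hσ => hsys r hr hrb V hV σ hσ) hns₀
  -- data with coboundaries
  have hwit : ∃ r : ℕ, r.Prime ∧ r ∉ bad ∧ ¬ r ∣ q * L₀ ∧ ((a r : ℤ) : ZMod p) ≠ (r : ZMod p) + 1 := by
    obtain ⟨r, V, τ, hr, hrT, hV, hτ, hdet, htr⟩ := S.exists_aux hp2 bad
    have hrb₀ : r ∉ bad₀ := fun h => hrT (hsub h)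
    refine ⟨r, hr, hrT, fun h => hrT (hbig r hr h), ?_⟩
    rw [← hsys r hr hrb₀ V hV τ hτ, ← S.det_frobenius hr (S.ne_p_of_notMem fun h => hrb₀ (hS h)) hV hτ,
      hdet, neg_add_cancel]
    exact htr
  have hrN : ∀ {r : ℕ}, r.Prime → ¬ r ∣ q * L₀ → ∀ {X : ℕ}, X ∣ L₀ → ¬ r ∣ q * X * q :=
    fun {r} hr h {X} hX h' => h ((hr.dvd_mul.1 h').elim (fun h => h.trans (mul_dvd_mul_left q hX))
      fun h => h.trans (dvd_mul_right q _))
  have key : ∀ w ∈ eigenSpace (q * M' * q) p bad₀ a,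
      (∀ τ ∈ A.inertiaSubgroupIn ℚ, τ • classOf (q * M' * q) Kronecker.complexEmb p w =
        classOf (q * M' * q) Kronecker.complexEmb p w) →
      ∃ D : KDatum m.C p, D.Good m.Ω E ∧ Cob hco0 D.ψ ∧
        D.ψ = (homOf (q * M' * q) w).comp (LevelRaise.incl hle).toAdditive := by
    intro w hw hwfix
    obtain ⟨D, hDg, hDψ⟩ := hD A q 2 (2 * M') M' p hA m E hp2 hq1 hle _
      (nsmul_classOf (q * M' * q) Kronecker.complexEmb p w) hwfix
      (pushPic_classOf Kronecker.complexEmb p _ a _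
        (fun σ x => EigenLattice.alpha_compat (q * M') q σ x) hpb P hP0 hPa hw)
      (pushPic_classOf Kronecker.complexEmb p _ a _
        (fun σ x => EigenLattice.beta_compat (q * M') q σ x) hpb P hP0 hPa hw)
      (homOf (q * M' * q) w) (isKummer_homOf w)
    refine ⟨D, hDg, ?_, hDψ⟩
    set ψ'' : Additive (Gamma0 (q * M'' * q)) →+ ZMod p :=
      (homOf (q * M' * q) w).comp (LevelRaise.incl (dvd_sq_level hdvd)).toAdditive with hψ''
    have hcob : Cob hco ψ'' := by
      intro _ g hg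
      refine targetCoboundary q M'' p hco hev hp2 hq1 bad a ?_ ?_ ψ'' ?_ ?_ g hg
      · obtain ⟨r, hr, hrb, hrN', hne⟩ := hwit
        exact ⟨r, hr, hrb, fun h => hrN' (h.trans (mul_dvd_mul_left q hd2)), hne⟩
      · exact fun η hη heig => eq_zero_of_not_seen hbad
          (fun r hr hrb V hV σ hσ => hsys r hr (fun h => hrb (hsub h)) V hV σ hσ) hns hη heig
      · exact fun γ hγ => homOf_mem w _ hγ
      · intro r _ hrb hrN'
        have hr : r.Prime := Fact.out
        have h2 : ¬ r ∣ q * M'' * q := fun h => (hr.dvd_mul.1 h).elim hrN'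
          fun h => hrN' (h.trans (dvd_mul_right q _))
        rw [hψ'', hecke_res' _ h2, hecke_homOf hw r (fun h => hrb (hsub h))
          (fun h => h2 (h.trans (dvd_sq_level hdvd)))]
        rfl
    rw [hDψ]
    intro _ g hg
    exact cob_of_dvd hd2 hco hco0 hcob g hg
  obtain ⟨D₁, hg₁, hc₁, hψ₁⟩ := key u hu fun τ hτ => (hfix τ hτ).1
  obtain ⟨D₂, hg₂, hc₂, hψ₂⟩ := key v hv fun τ hτ => (hfix τ hτ).2
  obtain ⟨a₁, a₂, hnd, ⟨w⟩⟩ := hT A q 2 (2 * M') M' p hA m E hp2 hq1 D₁ D₂ hg₁ hg₂ hc₁ hc₂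
  set D := D₁.comb D₂ a₁ a₂
  have hDg := hg₁.comb hg₂ a₁ a₂
  have hn : ¬ p ∣ q * (q + 1) * w.m' := fun h => by
    rcases hp.dvd_mul.1 h with h | h
    · rcases hp.dvd_mul.1 h with h | h
      · have h1 := (Nat.prime_dvd_prime_iff_eq hp hq).1 h
        have h2 := Nat.le_of_dvd (by have := hq.two_le; omega) hq1
        have := hq.two_le
        omega
      · have h1 : p ∣ (q + 1) - (q - 1) := Nat.dvd_sub h hq1
        rw [show q + 1 - (q - 1) = 2 by have := hq.two_le; omega] at h1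
        exact hp2 ((Nat.prime_dvd_prime_iff_eq hp Nat.prime_two).1 h1)
    · exact w.hm h
  have hkill := hK q 2 (2 * M') M' p m.C m.P D _ hn
    (fun h => hDg.hF ⟨m.C.eta, m.C.eta_mem_nodes⟩ 0 (by rw [h, map_zero]))
    (hR A q 2 (2 * M') M' p hA m E hp2 hq1 D hDg w)
  set φ : Additive (Gamma0 (q * M' * q)) →+ ZMod p :=
    a₁ • homOf (q * M' * q) u + a₂ • homOf (q * M' * q) v with hφ
  have hφmem : φ ∈ Hpar (Gamma0 (q * M' * q)) (ZMod p) :=
    add_mem (AddSubgroup.nsmul_mem _ (homOf_mem u) _) (AddSubgroup.nsmul_mem _ (homOf_mem v) _)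
  have hDψ : D.ψ = φ.comp (LevelRaise.incl hle).toAdditive := by
    show a₁ • D₁.ψ + a₂ • D₂.ψ = _
    rw [hψ₁, hψ₂]
    rfl
  have h0 : D.ψ = 0 := by
    refine targetVanish q 2 (2 * M') p hco0 hp2 hq1 bad a hwit D.ψ ?_ ?_ hkill
    · rw [hDψ]
      exact fun γ hγ => hφmem _ hγ
    · intro r _ hrb hrN'
      have hr : r.Prime := Fact.out
      have h2 : ¬ r ∣ q * L₀ * q := hrN hr hrN' dvd_rfl
      have h3 : ¬ r ∣ q * M' * q := hrN hr hrN' hd1
      have h4 : r ∉ bad₀ := fun h => hrb (hsub h)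
      rw [hDψ, hecke_res' hle h2, hφ, map_add, map_nsmul, map_nsmul, hecke_homOf hu r h4 h3,
        hecke_homOf hv r h4 h3, smul_comm a₁, smul_comm a₂, ← smul_add]
      rfl
  have hzero : φ = 0 := eq_zero_of_res hle (dvd_of_eq (by rw [hL₀]; ring)) hφmem (hDψ ▸ h0)
  obtain ⟨h1, h2⟩ := LinearIndependent.pair_iff.1 hli _ _ (smul_homOf_eq_zero hzero)
  exact hnd ⟨(ZMod.natCast_eq_zero_iff _ _).1 h1, (ZMod.natCast_eq_zero_iff _ _).1 h2⟩

/-- **Lowering `q²` for `q ≡ 1`.** -/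
theorem targetLowerSqOne_of (hD : TargetDatum) (hT : TargetTwist) (hR : TargetRootOne)
    (hK : TargetKill) : TargetLowerSqOne := by
  intro p _ S q M hp2 hq hqp hM hqM hU hbad hq1 hseen
  classical
  haveI : Fact q.Prime := ⟨hq⟩
  haveI : NeZero q := ⟨hq.ne_zero⟩
  haveI : NeZero M := ⟨hM.ne'⟩
  haveI : NeZero p := ⟨(Fact.out : p.Prime).ne_zero⟩
  have hqodd : q ≠ 2 := fun h => by
    subst h
    exact (Fact.out : p.Prime).not_dvd_one hq1
  obtain ⟨l, a, _, hl, hlMq, hlb, -, hsys, hpair⟩ :=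
    targetFixedPair p S q M hp2 hq hqp hqM hU hbad hseen
  by_contra hlow
  simp only [Lowered, not_exists, not_and, not_or] at hlow
  obtain ⟨A, hA⟩ := Frobenius.exists_liesOverPrime q hq
  obtain ⟨u, v, hu, hv, hli, hfix⟩ := hpair A hA
  have hqMl : ¬ q ∣ M * l := fun h => by
    rcases hq.dvd_mul.1 h with h | h
    · exact hqM h
    · exact hlMq (((Nat.prime_dvd_prime_iff_eq hq hl).1 h) ▸ dvd_mul_left q M)
  have hbad0 : ∀ r : ℕ, r.Prime → r ∣ q * (M * l) * q → r ∈ insert l S.bad := fun r hr h => by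
    rcases hr.dvd_mul.1 h with h | h
    · rcases hr.dvd_mul.1 h with h | h
      · exact Finset.mem_insert_of_mem (hbad r hr (h.trans (dvd_mul_left q M)))
      · rcases hr.dvd_mul.1 h with h | h
        · exact Finset.mem_insert_of_mem (hbad r hr (h.trans (dvd_mul_right M q)))
        · exact ((Nat.prime_dvd_prime_iff_eq hr hl).1 h) ▸ Finset.mem_insert_self _ _
    · exact Finset.mem_insert_of_mem (hbad r hr (h.trans (dvd_mul_left q M)))
  -- a squarefree multiple of `l` giving an even level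
  obtain ⟨L, hLsq, hLco, hlL, hev, h4⟩ : ∃ L : ℕ, Squarefree L ∧ Nat.Coprime L (M * q) ∧ l ∣ L ∧
      2 ∣ M * L ∧ M * L ∣ 4 * (M * l) := by
    by_cases h2 : 2 ∣ M * l
    · exact ⟨l, hl.squarefree, (hl.coprime_iff_not_dvd).2 hlMq, dvd_rfl, h2, dvd_mul_left _ _⟩
    · have hl2 : l ≠ 2 := fun h => h2 (h ▸ dvd_mul_left 2 M)
      have h2Mq : ¬ 2 ∣ M * q := fun h => (Nat.prime_two.dvd_mul.1 h).elim
        (fun h => h2 (dvd_mul_of_dvd_left h l))
        (fun h => hqodd ((Nat.prime_dvd_prime_iff_eq Nat.prime_two hq).1 h).symm)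
      refine ⟨2 * l, (Nat.squarefree_mul ((Nat.coprime_primes Nat.prime_two hl).2 hl2.symm)).2
          ⟨Nat.prime_two.squarefree, hl.squarefree⟩,
        Nat.Coprime.mul_left ((Nat.prime_two.coprime_iff_not_dvd).2 h2Mq)
          ((hl.coprime_iff_not_dvd).2 hlMq), dvd_mul_left l 2,
        dvd_mul_of_dvd_right (dvd_mul_right 2 l) M, ⟨2, by ring⟩⟩
  have hL0 : L ≠ 0 := hLsq.ne_zero
  have hMl := hlow l hl.squarefree ((hl.coprime_iff_not_dvd).2 hlMq)
  have hML := hlow L hLsq hLco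
  rw [hl.primeFactors, show S.bad ∪ {l} = insert l S.bad by
    rw [Finset.union_comm, Finset.insert_eq]] at hMl
  haveI : NeZero (M * l) := ⟨mul_ne_zero (NeZero.ne M) hl.ne_zero⟩
  haveI : NeZero (M * L) := ⟨mul_ne_zero (NeZero.ne M) hL0⟩
  haveI : NeZero (q * (M * l)) := ⟨mul_ne_zero (NeZero.ne q) (NeZero.ne _)⟩
  haveI : NeZero (q * (M * l) * q) := ⟨mul_ne_zero (NeZero.ne _) (NeZero.ne q)⟩
  haveI : NeZero (M * l * q) := ⟨mul_ne_zero (NeZero.ne _) (NeZero.ne q)⟩
  haveI : NeZero (M * l * q * q) := ⟨mul_ne_zero (NeZero.ne _) (NeZero.ne q)⟩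
  have hsub : insert l S.bad ⊆ S.bad ∪ L.primeFactors := Finset.insert_subset
    (Finset.mem_union_right _ (Nat.mem_primeFactors.2 ⟨hl, hlL, hL0⟩)) Finset.subset_union_left
  have hbadL : ∀ r : ℕ, r.Prime → r ∣ q * (M * L) → r ∈ S.bad ∪ L.primeFactors := fun r hr h => by
    rcases hr.dvd_mul.1 h with h | h
    · exact Finset.mem_union_left _ (hbad r hr (h.trans (dvd_mul_left q M)))
    · rcases hr.dvd_mul.1 h with h | h
      · exact Finset.mem_union_left _ (hbad r hr (h.trans (dvd_mul_right M q)))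
      · exact Finset.mem_union_right _ (Nat.mem_primeFactors.2 ⟨hr, h, hL0⟩)
  have main : ∀ (N : ℕ) [NeZero N], N = q * (M * l) * q → ∀ u v : Ix N → ZMod p,
      u ∈ eigenSpace N p (insert l S.bad) a → v ∈ eigenSpace N p (insert l S.bad) a →
      LinearIndependent (ZMod p) ![u, v] →
      (∀ τ ∈ A.inertiaSubgroupIn ℚ,
        τ • classOf N Kronecker.complexEmb p u = classOf N Kronecker.complexEmb p u ∧
          τ • classOf N Kronecker.complexEmb p v = classOf N Kronecker.complexEmb p v) → False := by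
    intro N _ hN u v hu hv hli hfix
    subst hN
    exact false_of_pair hD hT hR hK S hp2 hq1 hqMl (mul_dvd_mul_left M hlL) hev h4 hsub
      (Finset.mem_insert_of_mem S.p_mem) hbad0 hbadL (Finset.subset_insert _ _) hsys
      (by rw [mul_comm]; exact hMl.1) (by rw [mul_comm]; exact hML.1) hA hu hv hli hfix
  exact main (M * l * q * q) (by ring) u v hu hv hli hfix

end FLTAgent.Entry.QOne
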