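import Fermat.Agent.Carayol.Glue
import Fermat.Agent.Carayol.Series

/-!
# A root on the cover from compatible roots on the branches

Roots of a function on all branches, rational on each kind and with one common value at each
supersingular point, come from a root in the function field of the cover.
-/

set_option autoImplicit false
set_option linter.unusedSectionVars false
set_option linter.style.haveILetI false
set_option synthInstance.maxHeartbeats 400000

noncomputable section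

open UpperHalfPlane hiding I I_re I_im
open Filter Topology Complex Function FLTAgent.ModEq FLTAgent.GoodModel ModularCurve
open scoped MatrixGroups Manifold Classical

namespace FLTAgent.Carayol

variable {q M0 N' : ℕ} [NeZero M0] [NeZero N'] [NeZero q] [Fact q.Prime]
variable {C : Ctx q M0 N'} {k : Type} [Field k] {Ω : Res C k}
variable [IsAlgClosed k] [IsNoetherianRing C.W]

namespace Pt

variable (p : Pt Ω)

/-- At an ordinary point rational roots on the branches have a common value. -/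
theorem exists_residue_ordinary (E : Eqs Ω) (hss : p.π E.OmR ≠ 0) {n : ℕ} (hn : n ≠ 0) {F : C.R}
    (hF : ∀ g j, Ω.rs g j F ≠ 0) (S : C.Sheet → Fin 3 → LaurentSeries k)
    (hS : ∀ g j, S g j ^ n = Ω.rs g j F) (hmem : ∀ j, (fun g => S g j) ∈ Ω.UF j)
    {s v h : C.R} (hs : p.π s ≠ 0) (hv : p.π v ≠ 0) (he : s * F = v * h ^ n) :
    ∃ ω : k, ω ≠ 0 ∧ ∀ g j, RingHom.ker (Ω.rs g j) ≤ p.ideal →
      (S g j / Ω.rs g j h, ω) ∈ p.EV g j := by
  haveI := p.isNoetherian_loc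
  by_cases hnone : ∀ g j, ¬ RingHom.ker (Ω.rs g j) ≤ p.ideal
  · exact ⟨1, one_ne_zero, fun g j h' => absurd h' (hnone g j)⟩
  push Not at hnone
  obtain ⟨g0, j0, hg0⟩ := hnone
  have hfact : ∀ g j, Ω.rs g j s * Ω.rs g j F = Ω.rs g j v * Ω.rs g j h ^ n := fun g j => by
    rw [← map_mul, he, map_mul, map_pow]
  obtain ⟨A', D', hAD⟩ := hmem j0
  have hh : ∀ g j, RingHom.ker (Ω.rs g j) ≤ p.ideal → Ω.rs g j h ≠ 0 := fun g j hle h0 =>
    mul_ne_zero (p.rs_ne hle hs) (hF g j) (by rw [hfact, h0, zero_pow hn, mul_zero])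
  set X : C.Sheet → LaurentSeries k := fun g => S g j0 / Ω.rs g j0 h
  have hXrel : ∀ g, RingHom.ker (Ω.rs g j0) ≤ p.ideal →
      Ω.rs g j0 (D' * h) ≠ 0 ∧ Ω.rs g j0 (D' * h) * X g = Ω.rs g j0 A' := fun g hle => by
    have := hh g j0 hle
    refine ⟨by rw [map_mul]; exact mul_ne_zero (hAD g).1 this, ?_⟩
    rw [map_mul, mul_assoc, mul_div_cancel₀ _ this]
    exact (hAD g).2
  have hXpow : ∀ g, RingHom.ker (Ω.rs g j0) ≤ p.ideal →
      Ω.rs g j0 s * X g ^ n = Ω.rs g j0 v := fun g hle => by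
    rw [div_pow, hS, ← mul_div_assoc, div_eq_iff (pow_ne_zero _ (hh g j0 hle)), hfact]
  obtain ⟨ω, hω⟩ := p.ev_root E hg0 hn (hXrel g0 hg0).1 (hXrel g0 hg0).2 hs (hXpow g0 hg0)
  refine ⟨ω, fun h0 => ?_, fun g j hle => ?_⟩
  · have h1 := (p.EV g0 j0).mul_mem (p.ev_self g0 j0 s) ((p.EV g0 j0).pow_mem hω n)
    rw [show (Ω.rs g0 j0 s, p.π s) * (X g0, ω) ^ n = (Ω.rs g0 j0 v, p.π s * ω ^ n) from
      Prod.ext (hXpow g0 hg0) rfl] at h1
    have h2 := p.ev_unique hg0 (p.ev_self g0 j0 v) h1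
    rw [h0, zero_pow hn, mul_zero] at h2
    exact hv h2
  · obtain rfl := p.kind_unique E hss hle hg0
    have hker := p.ker_unique E hg0 hle
    obtain ⟨c, d, hd, h1, h2⟩ := hω
    refine ⟨c, d, hd, ?_, h2⟩
    show Ω.rs g j d * X g = Ω.rs g j c
    obtain ⟨hne, hrel⟩ := hXrel g hle
    have hmem : d * A' - c * (D' * h) ∈ RingHom.ker (Ω.rs g0 j) := by
      rw [RingHom.mem_ker, map_sub, map_mul, map_mul, ← (hXrel g0 hg0).2, ← h1]
      ring
    have h3 := RingHom.mem_ker.1 (hker hmem)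
    rw [map_sub, map_mul, map_mul, ← hrel] at h3
    refine mul_left_cancel₀ hne ?_
    linear_combination h3

end Pt

variable [IsDiscreteValuationRing C.S]

namespace Ram

variable (ρ : Ram Ω)

include ρ in
/-- The root modulo a nilpotent element from compatible roots. -/
theorem exists_root_mod (E : Eqs Ω) {n : ℕ} (hn : (n : k) ≠ 0) {F : C.R}
    (hF : ∀ g j, Ω.rs g j F ≠ 0) (hv : C.VDvd n F) (S : C.Sheet → Fin 3 → LaurentSeries k)
    (hS : ∀ g j, S g j ^ n = Ω.rs g j F) (hmem : ∀ j, (fun g => S g j) ∈ Ω.UF j)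
    (hss : ∀ p : Pt Ω, p.π E.OmR = 0 → p.π F ≠ 0 ∧ ∃ ω : k, ω ≠ 0 ∧
      ∀ g j, RingHom.ker (Ω.rs g j) ≤ p.ideal → (S g j, ω) ∈ p.EV g j) :
    ∃ (a j : C.R) (e : ℕ), a ^ n = F * (1 + j) ∧ (q : C.R) ∣ j ^ e := by
  haveI : Fintype C.Sheet := Finset.Subtype.fintype C.nodes
  have hn0 : n ≠ 0 := fun h => hn (by simp [h])
  haveI : NeZero n := ⟨hn0⟩
  have hloc : ∀ P : Ideal C.R, P.IsMaximal → (q : C.R) ∈ P → ∃ (s v h t c : C.R),
      s ∉ P ∧ v ∉ P ∧ t ∉ P ∧ s * F = v * h ^ n ∧ (∀ g j, Ω.rs g j t * S g j = Ω.rs g j (h * c)) ∧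
      ∀ b, F ∣ b ^ n → ∃ s, s ∉ P ∧ h ∣ s * b := by
    intro P hP hqP
    haveI := hP
    obtain ⟨p, rfl⟩ := Ω.exists_pt P hqP
    by_cases hp : p.π E.OmR = 0
    · obtain ⟨hFp, ω, hω, hres⟩ := hss p hp
      have h1 : p.π (1 : C.R) ≠ 0 := by rw [map_one]; exact one_ne_zero
      obtain ⟨t, c, ht, htc⟩ := p.exists_local_root hn S (s := 1) (v := F) (h := 1) h1 hFp
        (fun g j hle => ⟨by rw [hS, map_one, one_mul, one_pow, mul_one],
          by rw [map_one]; exact one_ne_zero⟩) hω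
        (fun g j hle => by rw [map_one, div_one]; exact hres g j hle)
      exact ⟨1, F, 1, t, c, fun h0 => h1 (p.mem_ideal.1 h0), fun h0 => hFp (p.mem_ideal.1 h0),
        fun h0 => ht (p.mem_ideal.1 h0), by rw [one_pow, one_mul, mul_one], htc,
        fun b _ => ⟨1, fun h0 => h1 (p.mem_ideal.1 h0), one_dvd _⟩⟩
    obtain ⟨s, v, h, hs, hv', he⟩ := ρ.exists_local_factor hF hv p
    obtain ⟨ω, hω, hres⟩ := p.exists_residue_ordinary E hp hn0 hF S hS hmem hs hv' he
    have hhne : ∀ g j, RingHom.ker (Ω.rs g j) ≤ p.ideal → Ω.rs g j h ≠ 0 := fun g j hle h0 => by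
      have h1 := congrArg (Ω.rs g j) he
      rw [map_mul, map_mul, map_pow, h0, zero_pow hn0, mul_zero] at h1
      exact mul_ne_zero (p.rs_ne hle hs) (hF g j) h1
    obtain ⟨t, c, ht, htc⟩ := p.exists_local_root hn S hs hv'
      (fun g j hle => ⟨by rw [hS, ← map_mul, he, map_mul, map_pow], hhne g j hle⟩) hω hres
    refine ⟨s, v, h, t, c, fun h0 => hs (p.mem_ideal.1 h0), fun h0 => hv' (p.mem_ideal.1 h0),
      fun h0 => ht (p.mem_ideal.1 h0), he, htc, fun b hb => ?_⟩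
    haveI := p.isNoetherian_loc
    haveI := p.ufd_loc
    haveI := p.isIntegrallyClosed_loc
    set φ := algebraMap C.R p.Loc
    have hinj : Injective φ :=
      IsLocalization.injective p.Loc (Ideal.primeCompl_le_nonZeroDivisors p.ideal)
    have hsu : IsUnit (φ s) := p.isUnit_algebraMap hs
    have hvu : IsUnit (φ v) := p.isUnit_algebraMap hv'
    have h1 : φ h ^ n ∣ φ b ^ n := by
      have h2 : φ v * φ h ^ n ∣ φ s * φ b ^ n := by
        rw [← map_pow φ h, ← map_mul, ← he, map_mul, ← map_pow φ b]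
        exact mul_dvd_mul_left _ (map_dvd φ hb)
      exact (hsu.dvd_mul_left).1 ((hvu.mul_left_dvd).1 h2)
    obtain ⟨z, hz⟩ := (IsIntegrallyClosed.pow_dvd_pow_iff hn0).1 h1
    obtain ⟨⟨zn, zd⟩, hzd⟩ := IsLocalization.surj p.ideal.primeCompl z
    change z * φ zd.1 = φ zn at hzd
    refine ⟨zd.1, zd.2, zn, hinj ?_⟩
    rw [map_mul, map_mul, hz, ← hzd]
    ring
  choose! ls lv lh lt lc hls hlv hlt hfac hglue hroot using hloc
  -- the global element
  let I : Ideal C.R :=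
    { carrier := {t | ∃ a, ∀ g j, Ω.rs g j a = Ω.rs g j t * S g j}
      add_mem' := by
        rintro x y ⟨a, ha⟩ ⟨a', ha'⟩
        exact ⟨a + a', fun g j => by rw [map_add, ha, ha', map_add, add_mul]⟩
      zero_mem' := ⟨0, fun g j => by simp⟩
      smul_mem' := by
        rintro c x ⟨a, ha⟩
        exact ⟨c * a, fun g j => by rw [smul_eq_mul, map_mul, ha, map_mul, mul_assoc]⟩ }
  have hqI : (q : C.R) ∈ I := ⟨0, fun g j => by
    rw [map_zero, show Ω.rs g j (q : C.R) = 0 from Ω.red_natCast _, zero_mul]⟩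
  have hI : I = ⊤ := by
    by_contra hne
    obtain ⟨P, hP, hle⟩ := Ideal.exists_le_maximal _ hne
    exact hlt P hP (hle hqI) (hle ⟨lh P * lc P, fun g j => (hglue P hP (hle hqI) g j).symm⟩)
  obtain ⟨a0, ha0⟩ : (1 : C.R) ∈ I := hI ▸ Submodule.mem_top
  set J : Ideal C.R := ⨅ i : C.Sheet × Fin 3, RingHom.ker (Ω.rs i.1 i.2) with hJ
  have hmemJ : ∀ {z : C.R}, (∀ g j, Ω.rs g j z = 0) → z ∈ J := fun {z} hz => by
    rw [hJ, Ideal.mem_iInf]
    exact fun i => hz i.1 i.2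
  have hqJ : ∀ P : Ideal C.R, J ≤ P → (q : C.R) ∈ P := fun P hP =>
    hP (hmemJ fun g j => Ω.red_natCast _)
  haveI : ∀ i : C.Sheet × Fin 3, (RingHom.ker (Ω.rs i.1 i.2)).IsPrime :=
    fun i => RingHom.ker_isPrime _
  obtain ⟨a', j, hj, hjJ⟩ := exists_lift_root J
    (fun i : C.Sheet × Fin 3 => RingHom.ker (Ω.rs i.1 i.2)) hJ
    (Nat.pos_of_ne_zero hn0) (f := F) (a := a0)
    (fun i h0 => hF i.1 i.2 h0)
    (hmemJ fun g j => by rw [map_sub, map_pow, ha0, map_one, one_mul, hS, sub_self]) lh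
    (fun P hP hJP => ⟨ls P, lv P, hls P hP (hqJ P hJP), hlv P hP (hqJ P hJP), hfac P hP (hqJ P hJP)⟩)
    (fun P hP hJP => hroot P hP (hqJ P hJP))
    (fun P hP hJP => ⟨lt P, lc P, hlt P hP (hqJ P hJP), hmemJ fun g j => by
      rw [map_sub, map_mul, ha0, map_one, one_mul, hglue P hP (hqJ P hJP) g j, sub_self]⟩)
  refine ⟨a', j, Fintype.card C.Idx, hj, Ω.isNilpotent_of_forall fun l => ?_⟩
  show Ω.red (C.rep l) j = 0
  rw [Ω.red_rep]
  rw [hJ, Ideal.mem_iInf] at hjJ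
  exact hjJ (C.sheet l, C.kind l)

variable {L : Type*} [Field L] [IsAlgClosed L] {A : ValuationSubring L} {π : A →+* k}

include ρ in
set_option maxHeartbeats 400000 in
/-- A function with compatible roots on the branches is a power in the function field. -/
theorem exists_root_branches (hπ : Surjective π) (hA : Specialization.RankOne π) (jO : C.S →+* A)
    (hjO : Injective jO) (hjφ : π.comp jO = Ω.φ) (E : Eqs Ω) {n : ℕ} (hn : (n : k) ≠ 0)
    (hnW : IsUnit (n : C.W)) {F : C.R}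
    (hF : ∀ g j, Ω.rs g j F ≠ 0) (hvF : C.VDvd n F) (S : C.Sheet → Fin 3 → LaurentSeries k)
    (hS : ∀ g j, S g j ^ n = Ω.rs g j F) (hmem : ∀ j, (fun g => S g j) ∈ Ω.UF j)
    (hss : ∀ p : Pt Ω, p.π E.OmR = 0 → p.π F ≠ 0 ∧ ∃ ω : k, ω ≠ 0 ∧
      ∀ g j, RingHom.ker (Ω.rs g j) ≤ p.ideal → (S g j, ω) ∈ p.EV g j)
    (K : Subfield (LaurentSeries L)) (hC : ∀ x : L, HahnSeries.C x ∈ K)
    (hR : ∀ a : C.R, toL jO (C.emb C.one' a) ∈ K) :
    ∃ g ∈ K, g ^ n = toL jO (C.emb C.one' F) := by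
  have hn0 : n ≠ 0 := fun h => hn (by simp [h])
  haveI : NeZero n := ⟨hn0⟩
  obtain ⟨a, j, e, ha, hj⟩ := ρ.exists_root_mod E hn hF hvF S hS hmem hss
  have hF0 : F ≠ 0 := fun h => by
    obtain ⟨l⟩ : Nonempty C.Idx := ⟨C.one'⟩
    exact hF (C.sheet l) (C.kind l) (by rw [h, map_zero])
  obtain ⟨rb, hrb⟩ := C.exists_basis
  set eq' := Fintype.equivFin C.Idx
  set σ : Option (Fin M0) → Fin (Fintype.card C.Idx) → C.R →+* LaurentSeries C.S :=
    fun c l => C.embAt (C.rep (eq'.symm l) * C.cr c) with hσ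
  have hσn : ∀ l, σ none l = C.emb (eq'.symm l) := fun l => by
    simp only [hσ, Ctx.cr, mul_one, Ctx.emb]
  have hjφ' : ∀ x, π (jO x) = Ω.φ x := fun x => RingHom.congr_fun hjφ x
  obtain ⟨u, hu⟩ := hnW.exists_right_inv
  have hϖdvd : ∀ (c : Option (Fin M0)) (l : Fin (Fintype.card C.Idx)),
      HahnSeries.C ρ.ϖ ∣ σ c l (q : C.R) := fun c l => by
    rw [map_natCast, ← map_natCast (HahnSeries.C : C.S →+* LaurentSeries C.S), ρ.hq, map_mul, map_pow]
    exact dvd_mul_of_dvd_right (dvd_pow_self _ (by have := C.hq.two_le; omega)) _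
  obtain ⟨g, hgK, hg⟩ := exists_nth_root (F := FractionRing C.R) hπ hA jO hjO ρ.irr
    (by rw [hjφ', ρ.φϖ]) (fun x hx => ρ.ker_φ (by rwa [← hjφ']))
    (fun y => by obtain ⟨w, hw⟩ := Ω.surjW y; exact ⟨C.inc w, (hjφ' _).trans hw⟩)
    C.cW C.inc (fun i => C.inc (C.co.c i)) (fun i i' hne => by
      rw [← map_sub]; exact (C.co.cusp.1 i i' hne).map C.inc)
    C.Tc (Nat.pos_of_ne_zero (NeZero.ne (N' * q))) C.atPuncture_Tc C.leadAt_Tc_none
    σ (fun c l => C.embAt_injective _) (fun c l w => C.embAt_cW _ w)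
    (fun a => by
      obtain ⟨P, s, hP⟩ := C.exists_trace_cusp Ω.fixed a
      refine ⟨P, s, fun c => ?_⟩
      rw [← hP c]
      congr 1
      exact Fintype.sum_equiv eq'.symm _ _ fun l => rfl)
    rb (by simpa only [hσn] using hrb) hn (f := F) hF0 hvF
    (fun c l => by
      rw [hjφ]
      show Ω.red (C.rep (eq'.symm l) * C.cr c) F ≠ 0
      obtain ⟨l', hl'⟩ := Ω.exists_ker_eq (C.rep (eq'.symm l) * C.cr c)
      refine fun h0 => hF (C.sheet l') (C.kind l') ?_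
      have h1 : F ∈ Ω.ker (C.rep l') := by rw [← hl']; exact h0
      rw [← Ω.red_rep]
      exact h1)
    (u := C.cW u) (by rw [← map_natCast C.cW, ← map_mul, hu, map_one])
    (ϖR := (q : C.R)) hϖdvd ha hj (eq' C.one') K hC
    (by
      have h1 := hR C.yR
      rwa [show C.emb C.one' C.yR = C.Tc none from by
        rw [C.emb_one', C.embAt_apply, Ctx.Tc]; exact congrArg ser (Subtype.ext rfl)] at h1)
    (fun a => by rw [hσn, Equiv.symm_apply_apply]; exact hR a)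
  rw [hσn, Equiv.symm_apply_apply] at hg
  exact ⟨g, hgK, hg⟩

end Ram

end FLTAgent.Carayol
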