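import Fermat.Agent.Entry.QOne.Datum
import Fermat.Agent.Entry.QOne.Glue
import Fermat.Agent.Entry.QOne.Orders

/-!
# Lowering `q²` for `q ≡ 1`: the root on the cover

The roots along the two outer kinds of branches are built from the norm relations and the two
given roots on the middle kinds. Where the constant of the middle kind is one, all of them take
one value at each supersingular point, and they glue to a root of a power of the function.
-/

set_option autoImplicit false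
set_option linter.unusedSectionVars false
set_option linter.style.haveILetI false
set_option synthInstance.maxHeartbeats 400000

noncomputable section

open Function FLTAgent.ModEq FLTAgent.GoodModel ModularCurve IsLocalRing
open scoped MatrixGroups Classical

namespace FLTAgent.Entry.QOne

open FLTAgent.Carayol

variable {q M0 N' : ℕ} [NeZero M0] [NeZero N'] [NeZero q] [Fact q.Prime] {C : Ctx q M0 N'}
variable {k : Type} [Field k] {Ω : Res C k}

/-- Quotients of uniformly rational functions. -/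
theorem uf_div {j : Fin 3} {X Y : C.Sheet → LaurentSeries k} (hX : X ∈ Ω.UF j) (hY : Y ∈ Ω.UF j)
    (hne : ∀ g, Y g ≠ 0) : (fun g => X g / Y g) ∈ Ω.UF j := by
  convert (Ω.UF j).mul_mem hX (Ω.UF_inv hY hne) using 1
  funext g
  exact div_eq_mul_inv _ _

/-- The constants are uniformly rational. -/
theorem uf_const (j : Fin 3) (c : k) :
    (fun _ : C.Sheet => (HahnSeries.C c : LaurentSeries k)) ∈ Ω.UF j := by
  obtain ⟨w, hw⟩ := Ω.surjW c
  convert Ω.rs_mem_UF j (C.cW w) using 1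
  funext g
  rw [Res.rs, Ω.red_cW]
  exact congrArg _ hw.symm

/-- The roots of norm relations are uniformly rational on all kinds. -/
theorem uf_gS {n : ℕ} {b : Bool} {F : C.R} (N : Ram.NRel Ω n b F) (κ : k) (j j' : Fin 3) :
    (fun g => Ram.gS N κ g j') ∈ Ω.UF j :=
  uf_div ((Ω.UF j).mul_mem (uf_const j κ) (Ω.UF_transfer j j' N.G0)) (Ω.UF_transfer j j' N.G1)
    fun g => (N.hG g j').2

/-- The indicator of one value of a uniformly rational constant is uniformly rational. -/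
theorem exists_indicator (lam : C.Sheet → k) (h : ∀ j, (fun g => HahnSeries.C (lam g)) ∈ Ω.UF j) :
    ∃ δ : C.Sheet → LaurentSeries k, (∀ j, δ ∈ Ω.UF j) ∧
      ∀ g, (lam g = 1 → δ g = 1) ∧ (lam g ≠ 1 → δ g = 0) := by
  haveI : Fintype C.Sheet := Finset.Subtype.fintype C.nodes
  set T : Finset k := (Finset.univ.image lam).erase 1
  set Z : k → C.Sheet → LaurentSeries k := fun v =>
    ((fun g => HahnSeries.C (lam g)) - fun _ => HahnSeries.C v) *
      fun _ => HahnSeries.C ((1 - v)⁻¹)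
  have hZ : ∀ v g, Z v g = HahnSeries.C ((lam g - v) * (1 - v)⁻¹) := fun v g => by
    simp only [Z, Pi.mul_apply, Pi.sub_apply, map_mul, map_sub]
  refine ⟨∏ v ∈ T, Z v, fun j => (Ω.UF j).prod_mem fun v _ =>
    (Ω.UF j).mul_mem ((Ω.UF j).sub_mem (h j) (uf_const j v)) (uf_const j _), fun g => ⟨?_, ?_⟩⟩
  · intro h1
    rw [Finset.prod_apply]
    refine Finset.prod_eq_one fun v hv => ?_
    rw [hZ, h1, mul_inv_cancel₀ (sub_ne_zero.2 (Finset.ne_of_mem_erase hv).symm), map_one]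
  · intro h1
    rw [Finset.prod_apply]
    refine Finset.prod_eq_zero (i := lam g)
      (Finset.mem_erase.2 ⟨h1, Finset.mem_image_of_mem _ (Finset.mem_univ g)⟩) ?_
    rw [hZ, sub_self, zero_mul, map_zero]

variable {p : ℕ} [Fact p.Prime]

theorem pow_side {K : Type*} [Field K] {A0 A1 f0 f1 f2 t0 t1 : K} {n e m : ℕ} (he : 2 ≤ e)
    (h1 : f1 ≠ 0) (h2 : f2 ≠ 0) (a0 : A0 ^ n = f0 ^ e) (a1 : A1 ^ n = f2 * f1 ^ (e - 1))
    (k0 : t0 ^ n = f1 ^ (e * m)) (k1 : t1 ^ n = f0 ^ m * f2 ^ m * f1 ^ ((e - 2) * m)) :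
    ((A0 / A1) ^ (e * m) * t1 ^ e * t0) ^ n = f0 ^ (e * (e + 1) * m) := by
  obtain ⟨d, rfl⟩ : ∃ d, e = d + 2 := ⟨e - 2, by omega⟩
  simp only [show d + 2 - 1 = d + 1 from rfl, show d + 2 - 2 = d from rfl] at a1 k1
  rw [mul_pow, mul_pow, pow_right_comm (A0 / A1), pow_right_comm t1, div_pow, a0, a1, k0, k1]
  simp only [div_pow, mul_pow, ← pow_mul]
  field_simp
  ring

variable [IsAlgClosed k] [IsNoetherianRing C.W] [IsDiscreteValuationRing C.S]

/-- Compatible roots on all branches. -/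
theorem exists_roots (ρ : Ram Ω) (E : Eqs Ω) (D : KDatum C p) (hD : D.Good Ω E)
    (w : D.Middle Ω) :
    ∃ S : C.Sheet → Fin 3 → LaurentSeries k,
      (∀ g j, S g j ^ p = Ω.rs g j (D.F ^ (q * (q + 1) * w.m'))) ∧
      (∀ j, (fun g => S g j) ∈ Ω.UF j) ∧
      ∀ pt : Pt Ω, pt.π E.OmR = 0 → pt.π (D.F ^ (q * (q + 1) * w.m')) ≠ 0 ∧
        ∃ ω : k, ω ≠ 0 ∧ ∀ g j, RingHom.ker (Ω.rs g j) ≤ pt.ideal → (S g j, ω) ∈ pt.EV g j := by
  have hp0 : p ≠ 0 := (Fact.out : p.Prime).ne_zero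
  have hq2 : 2 ≤ q := C.hq.two_le
  have hF := hD.hF
  obtain ⟨NA⟩ := ρ.nonempty_nrel_one hp0 hF hD.hα
  obtain ⟨NB⟩ := ρ.nonempty_nrel_one hp0 hF hD.hβ
  obtain ⟨κα, hκα0, hκα⟩ := Ram.exists_kappa hp0 NA
  obtain ⟨κβ, hκβ0, hκβ⟩ := Ram.exists_kappa hp0 NB
  set m := w.m'
  set f : C.Sheet → Fin 3 → LaurentSeries k := fun g j => Ω.rs g j D.F
  set τ : C.Sheet → Fin 3 → LaurentSeries k := fun g j => Ω.rs g j w.a / Ω.rs g j w.d
  have hτ : ∀ j j', (fun g => τ g j') ∈ Ω.UF j := fun j j' =>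
    uf_div (Ω.UF_transfer j j' w.a) (Ω.UF_transfer j j' w.d) fun g => w.hd g j'
  have hk0 : ∀ g, τ g 0 ^ p = f g 1 ^ (q * m) := fun g => by
    simp only [τ]
    rw [div_pow, w.kind0 g, mul_div_cancel_left₀ _ (pow_ne_zero _ (w.hd g 0))]
  choose lam hlam using w.kind1
  set R : C.Sheet → LaurentSeries k := fun g =>
    f g 0 ^ m * f g 2 ^ m * f g 1 ^ ((q - 2) * m) with hR
  have hRne : ∀ g, R g ≠ 0 := fun g =>
    mul_ne_zero (mul_ne_zero (pow_ne_zero _ (hF g 0)) (pow_ne_zero _ (hF g 2)))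
      (pow_ne_zero _ (hF g 1))
  have hk1 : ∀ g, τ g 1 ^ p = HahnSeries.C (lam g) * R g := fun g => by
    simp only [τ, hR, f]
    rw [div_pow, hlam g, mul_comm (HahnSeries.C (lam g)), mul_assoc,
      mul_div_cancel_left₀ _ (pow_ne_zero _ (w.hd g 1))]
  have hlamUF : ∀ j, (fun g => HahnSeries.C (lam g)) ∈ Ω.UF j := fun j => by
    have hRmem : R ∈ Ω.UF j := (Ω.UF j).mul_mem ((Ω.UF j).mul_mem
      ((Ω.UF j).pow_mem (Ω.UF_transfer j 0 D.F) _) ((Ω.UF j).pow_mem (Ω.UF_transfer j 2 D.F) _))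
      ((Ω.UF j).pow_mem (Ω.UF_transfer j 1 D.F) _)
    convert uf_div ((Ω.UF j).pow_mem (hτ j 1) p) hRmem hRne using 1
    funext g
    rw [Pi.pow_apply, hk1, mul_div_assoc, div_self (hRne g), mul_one]
  obtain ⟨δ, hδ, hδv⟩ := exists_indicator lam hlamUF
  -- the roots
  set Z0 : C.Sheet → LaurentSeries k := fun g =>
    (Ram.gS NA κα g 0 / Ram.gS NA κα g 1) ^ (q * m) * τ g 1 ^ q * τ g 0
  set Z2 : C.Sheet → LaurentSeries k := fun g =>
    (Ram.gS NB κβ g 2 / Ram.gS NB κβ g 1) ^ (q * m) * τ g 1 ^ q * τ g 0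
  set S : C.Sheet → Fin 3 → LaurentSeries k := fun g =>
    ![δ g * Z0 g + (1 - δ g) * Ram.gS NA κα g 0 ^ ((q + 1) * m), τ g 0 ^ (q + 1),
      δ g * Z2 g + (1 - δ g) * Ram.gS NB κβ g 2 ^ ((q + 1) * m)]
  have hnorm : ∀ g, Ram.gS NA κα g 0 ^ p = f g 0 ^ q ∧
      Ram.gS NA κα g 1 ^ p = f g 2 * f g 1 ^ (q - 1) ∧ Ram.gS NB κβ g 2 ^ p = f g 2 ^ q ∧
      Ram.gS NB κβ g 1 ^ p = f g 0 * f g 1 ^ (q - 1) := fun g => by
    obtain ⟨p1, p2, p3, p4⟩ := C.prod_fib_kind g (fun l => Ω.rd (C.emb l D.F))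
      (fun j => Ω.rs g j D.F) fun l hl => by rw [Ω.rd_emb, hl]
    exact ⟨(Ram.red_rel NA hκα g 0).symm.trans p1, (Ram.red_rel NA hκα g 1).symm.trans p2,
      (Ram.red_rel NB hκβ g 2).symm.trans p3, (Ram.red_rel NB hκβ g 1).symm.trans p4⟩
  have hS : ∀ g j, S g j ^ p = Ω.rs g j (D.F ^ (q * (q + 1) * m)) := by
    intro g j
    obtain ⟨a0, a1, b2, b1⟩ := hnorm g
    rw [map_pow]
    have hside : lam g = 1 → Z0 g ^ p = f g 0 ^ (q * (q + 1) * m) ∧
        Z2 g ^ p = f g 2 ^ (q * (q + 1) * m) := fun h1 => by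
      have k1 : τ g 1 ^ p = f g 0 ^ m * f g 2 ^ m * f g 1 ^ ((q - 2) * m) := by
        rw [hk1, h1, map_one, one_mul]
      exact ⟨pow_side hq2 (hF g 1) (hF g 2) a0 a1 (hk0 g) k1,
        pow_side hq2 (hF g 1) (hF g 0) b2 b1 (hk0 g) (by rw [k1]; ring)⟩
    fin_cases j
    · show (δ g * Z0 g + (1 - δ g) * Ram.gS NA κα g 0 ^ ((q + 1) * m)) ^ p = f g 0 ^ _
      by_cases h1 : lam g = 1
      · rw [(hδv g).1 h1, one_mul, sub_self, zero_mul, add_zero, (hside h1).1]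
      · rw [(hδv g).2 h1, zero_mul, sub_zero, one_mul, zero_add, ← pow_mul, mul_comm _ p, pow_mul,
          a0, ← pow_mul, ← mul_assoc]
    · show (τ g 0 ^ (q + 1)) ^ p = f g 1 ^ _
      rw [← pow_mul, mul_comm _ p, pow_mul, hk0, ← pow_mul]
      congr 1
      ring
    · show (δ g * Z2 g + (1 - δ g) * Ram.gS NB κβ g 2 ^ ((q + 1) * m)) ^ p = f g 2 ^ _
      by_cases h1 : lam g = 1
      · rw [(hδv g).1 h1, one_mul, sub_self, zero_mul, add_zero, (hside h1).2]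
      · rw [(hδv g).2 h1, zero_mul, sub_zero, one_mul, zero_add, ← pow_mul, mul_comm _ p, pow_mul,
          b2, ← pow_mul, ← mul_assoc]
  have hmem : ∀ j, (fun g => S g j) ∈ Ω.UF j := by
    intro j
    fin_cases j
    · exact (Ω.UF 0).add_mem ((Ω.UF 0).mul_mem (hδ 0) ((Ω.UF 0).mul_mem ((Ω.UF 0).mul_mem
        ((Ω.UF 0).pow_mem (uf_div (uf_gS NA κα 0 0) (uf_gS NA κα 0 1)
          fun g => Ram.gS_ne NA hκα0 g 1) _) ((Ω.UF 0).pow_mem (hτ 0 1) _)) (hτ 0 0)))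
        ((Ω.UF 0).mul_mem ((Ω.UF 0).sub_mem (Ω.UF 0).one_mem (hδ 0))
          ((Ω.UF 0).pow_mem (uf_gS NA κα 0 0) _))
    · exact (Ω.UF 1).pow_mem (hτ 1 0) _
    · exact (Ω.UF 2).add_mem ((Ω.UF 2).mul_mem (hδ 2) ((Ω.UF 2).mul_mem ((Ω.UF 2).mul_mem
        ((Ω.UF 2).pow_mem (uf_div (uf_gS NB κβ 2 2) (uf_gS NB κβ 2 1)
          fun g => Ram.gS_ne NB hκβ0 g 1) _) ((Ω.UF 2).pow_mem (hτ 2 1) _)) (hτ 2 0)))
        ((Ω.UF 2).mul_mem ((Ω.UF 2).sub_mem (Ω.UF 2).one_mem (hδ 2))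
          ((Ω.UF 2).pow_mem (uf_gS NB κβ 2 2) _))
  refine ⟨S, hS, hmem, fun pt hpt => ?_⟩
  have hV : pt.π D.F ≠ 0 := hD.hss pt hpt
  refine ⟨by rw [map_pow]; exact pow_ne_zero _ hV, ?_⟩
  by_cases hnone : ∀ g j, ¬ RingHom.ker (Ω.rs g j) ≤ pt.ideal
  · exact ⟨1, one_ne_zero, fun g j h' => absurd h' (hnone g j)⟩
  push Not at hnone
  obtain ⟨g0, j0, hg0⟩ := hnone
  obtain ⟨num, den, hden, hreg⟩ := w.reg pt
  set t : k := pt.π num * (pt.π den)⁻¹
  have hτv : ∀ {g : C.Sheet} {j : Fin 3}, RingHom.ker (Ω.rs g j) ≤ pt.ideal →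
      ∀ j', (τ g j', t) ∈ pt.EV g j := fun {g j} hle j' => by
    have hne : Ω.rs g j' den ≠ 0 := pt.ev_ne hle (pt.ev_transfer hle E hpt j' den) hden
    convert (pt.EV g j).mul_mem (pt.ev_transfer hle E hpt j' num)
      (pt.ev_inv hle (pt.ev_transfer hle E hpt j' den) hden) using 1
    refine Prod.ext ?_ rfl
    show Ω.rs g j' w.a / Ω.rs g j' w.d = Ω.rs g j' num * (Ω.rs g j' den)⁻¹
    rw [← div_eq_mul_inv, div_eq_div_iff (w.hd g j') hne, ← map_mul, mul_comm w.a, hreg, map_mul]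
  have hfv : ∀ {g : C.Sheet} {j : Fin 3}, RingHom.ker (Ω.rs g j) ≤ pt.ideal →
      ∀ j', (f g j', pt.π D.F) ∈ pt.EV g j := fun {g j} hle j' => pt.ev_transfer hle E hpt j' D.F
  have ht : t ^ p = pt.π D.F ^ (q * m) := by
    have h1 := (pt.EV g0 j0).pow_mem (hτv hg0 0) p
    have h2 := (pt.EV g0 j0).pow_mem (hfv hg0 1) (q * m)
    rw [Prod.pow_mk, hk0] at h1
    rw [Prod.pow_mk] at h2
    exact pt.ev_unique hg0 h1 h2
  have ht0 : t ≠ 0 := fun h0 => pow_ne_zero (q * m) hV (by rw [← ht, h0, zero_pow hp0])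
  have hone : ∀ {g : C.Sheet} {j : Fin 3}, RingHom.ker (Ω.rs g j) ≤ pt.ideal → lam g = 1 :=
    fun {g j} hle => by
    have hc : ((HahnSeries.C (lam g) : LaurentSeries k), lam g) ∈ pt.EV g j := by
      obtain ⟨wl, hwl⟩ := Ω.surjW (lam g)
      have := pt.ev_self g j (C.cW wl)
      rwa [show Ω.rs g j (C.cW wl) = HahnSeries.C (lam g) from
          (Ω.red_cW _ _).trans (congrArg _ hwl),
        show pt.π (C.cW wl) = lam g from (pt.π_cW _).trans hwl] at this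
    have h1 := (pt.EV g j).mul_mem hc ((pt.EV g j).mul_mem ((pt.EV g j).mul_mem
      ((pt.EV g j).pow_mem (hfv hle 0) m) ((pt.EV g j).pow_mem (hfv hle 2) m))
      ((pt.EV g j).pow_mem (hfv hle 1) ((q - 2) * m)))
    simp only [Prod.pow_mk, Prod.mk_mul_mk] at h1
    rw [show HahnSeries.C (lam g) * (f g 0 ^ m * f g 2 ^ m * f g 1 ^ ((q - 2) * m)) = τ g 1 ^ p from
      (hk1 g).symm] at h1
    have h5 := (pt.EV g j).pow_mem (hτv hle 1) p
    rw [Prod.pow_mk] at h5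
    have h2 := pt.ev_unique hle h1 h5
    have h3 : m + m + (q - 2) * m = q * m := by
      obtain ⟨d, hd⟩ : ∃ d, q = d + 2 := ⟨q - 2, by omega⟩
      rw [hd, show d + 2 - 2 = d from rfl]
      ring
    rw [← pow_add, ← pow_add, h3] at h2
    refine mul_right_cancel₀ (pow_ne_zero (q * m) hV) ?_
    rw [one_mul, h2, ← ht]
  obtain ⟨uα, hu1, hα⟩ := pt.exists_norm_value E hpt hg0 hp0 hF NA hκα (s := 1) (v := D.F) (h := 1)
    (by rw [map_one]; exact one_ne_zero) hV (by rw [one_pow, one_mul, mul_one])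
  obtain ⟨uβ, hu2, hβ⟩ := pt.exists_norm_value E hpt hg0 hp0 hF NB hκβ (s := 1) (v := D.F) (h := 1)
    (by rw [map_one]; exact one_ne_zero) hV (by rw [one_pow, one_mul, mul_one])
  rw [map_one, div_one] at hu1 hu2
  have hα0 : uα ≠ 0 := fun h0 => pow_ne_zero q hV (by rw [← hu1, h0, zero_pow hp0])
  have hβ0 : uβ ≠ 0 := fun h0 => pow_ne_zero q hV (by rw [← hu2, h0, zero_pow hp0])
  refine ⟨t ^ (q + 1), pow_ne_zero _ ht0, fun g j hle => ?_⟩
  have hquot : ∀ {X Y : LaurentSeries k} {u : k}, u ≠ 0 → (X, u) ∈ pt.EV g j →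
      (Y, u) ∈ pt.EV g j →
      ((X / Y) ^ (q * m) * τ g 1 ^ q * τ g 0, t ^ (q + 1)) ∈ pt.EV g j :=
    fun {X Y u} hu hX hY => by
    have h1 := (pt.EV g j).mul_mem ((pt.EV g j).mul_mem
      ((pt.EV g j).pow_mem ((pt.EV g j).mul_mem hX (pt.ev_inv hle hY hu)) (q * m))
      ((pt.EV g j).pow_mem (hτv hle 1) q)) (hτv hle 0)
    simp only [Prod.pow_mk, Prod.mk_mul_mk] at h1
    rwa [← div_eq_mul_inv, mul_inv_cancel₀ hu, one_pow, one_mul, ← pow_succ] at h1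
  have hA : ∀ j', (Ram.gS NA κα g j', uα) ∈ pt.EV g j := fun j' => by
    simpa using hα g j hle j'
  have hB : ∀ j', (Ram.gS NB κβ g j', uβ) ∈ pt.EV g j := fun j' => by
    simpa using hβ g j hle j'
  have hδ1 := (hδv g).1 (hone hle)
  fin_cases j
  · show (δ g * Z0 g + (1 - δ g) * _, _) ∈ _
    rw [hδ1, one_mul, sub_self, zero_mul, add_zero]
    exact hquot hα0 (hA 0) (hA 1)
  · exact (pt.EV g _).pow_mem (hτv hle 0) (q + 1)
  · show (δ g * Z2 g + (1 - δ g) * _, _) ∈ _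
    rw [hδ1, one_mul, sub_self, zero_mul, add_zero]
    exact hquot hβ0 (hB 2) (hB 1)

/-- **The roots along two kinds of branches give a root on the cover.** -/
theorem targetRootOne : TargetRootOne := by
  intro A q M0 N' M' p _ _ _ _ _ _ _ hA m E hp2 hp1 D hD w
  haveI := m.dvr
  haveI := m.noeth
  haveI : IsAlgClosed (ResidueField A) := FrobTrace.isAlgClosed_residueField A
  haveI := FrobTrace.charP_residueField hA
  have hp : p.Prime := Fact.out
  have hq : q.Prime := Fact.out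
  have hpq : p ≠ q := fun h => by
    have h1 := Nat.le_of_dvd (by have := hq.two_le; omega) hp1
    have := hq.two_le
    omega
  have hnk : (p : ResidueField A) ≠ 0 := fun h => hpq
    ((Nat.prime_dvd_prime_iff_eq hq hp).1 ((CharP.cast_eq_zero_iff _ q p).1 h)).symm
  have hqp : ¬ q ∣ p := fun h => hpq ((Nat.prime_dvd_prime_iff_eq hq hp).1 h).symm
  obtain ⟨S, hS, hmem, hss⟩ := exists_roots m.ρ E D hD w
  have hne : D.F ≠ 0 := fun h => hD.hF ⟨m.C.eta, m.C.eta_mem_nodes⟩ 0 (by rw [h, map_zero])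
  have hcoe : (Kronecker.complexEmb.comp (A.subtype.comp m.jO)) = m.C.S.subtype :=
    RingHom.ext m.hjκ
  have hemb : ∀ x : m.C.R, coeffMap Kronecker.complexEmb (toL m.jO (m.C.emb m.C.one' x)) =
      m.P.eps 1 x := fun x => by
    rw [toL, coeffMap_coeffMap, hcoe, m.C.emb_one', m.P.eps_eq]
  obtain ⟨G, hG, hGn⟩ := m.ρ.exists_root_branches IsLocalRing.residue_surjective
    (Specialization.rankOne_residue hA) m.jO m.hjO m.hjφ E hnk (m.unitW p hqp)
    (fun g j => by rw [map_pow]; exact pow_ne_zero _ (hD.hF g j))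
    (Ctx.vDvd_pow hne hD.hv _) S hS hmem hss
    (m.P.Kc.comap (coeffMap Kronecker.complexEmb))
    (fun x => by
      show coeffMap Kronecker.complexEmb (HahnSeries.C x) ∈ m.P.Kc
      rw [HahnSeries.C_apply, coeffMap_single, ← HahnSeries.C_apply, ← m.hκ]
      exact m.P.C_mem_Kc x)
    (fun x => by
      show coeffMap Kronecker.complexEmb _ ∈ m.P.Kc
      rw [hemb]
      exact m.P.eps_mem_Kc x)
  exact ⟨coeffMap Kronecker.complexEmb G, hG, by rw [← map_pow, hGn, hemb]⟩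

end FLTAgent.Entry.QOne
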