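import Fermat.Agent.Carayol.Constants

/-!
# Roots of units in the constants of the cover

A root of order prime to `q` of a unit at a place over `q` is fixed by every automorphism fixing
the inertia field and the unit; so it lies among the constants.
-/

set_option autoImplicit false
set_option linter.unusedSectionVars false
set_option linter.style.haveILetI false

noncomputable section

open Function IsLocalRing ModularCurve FLTAgent.GoodModel FLTAgent.ModEq
open scoped Classical Pointwise

namespace FLTAgent.Carayol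

local notation "QA" => AlgebraicClosure ℚ
local notation "GG" => (AlgebraicClosure ℚ ≃ₐ[ℚ] AlgebraicClosure ℚ)

/-- The automorphisms fixing the inertia field are in inertia. -/
theorem mem_inertia_of_fix (A : ValuationSubring QA) {σ : GG} (h : ∀ x ∈ K0 A, σ x = x) :
    σ ∈ A.inertiaSubgroupIn ℚ := by
  haveI := Mazur.isGalois_QQb
  have hdec : ∀ τ : GG, τ ∈ A.decompositionSubgroup ℚ ↔ ∀ z : QA, τ z ∈ A ↔ z ∈ A := by
    intro τ
    constructor
    · intro hτ z
      refine ⟨fun hz => ?_, fun hz => Places.smul_mem_of_decomposition A hτ hz⟩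
      have h1 := Places.smul_mem_of_decomposition A (inv_mem hτ) hz
      simpa [AlgEquiv.aut_inv] using h1
    · intro hτ
      refine MulAction.mem_stabilizer_iff.2 (SetLike.ext fun z => ?_)
      rw [ValuationSubring.mem_pointwise_smul_iff_inv_smul_mem, ← hτ]
      simp [AlgEquiv.aut_inv]
  have hclosed : IsClosed (A.inertiaSubgroupIn ℚ : Set GG) := by
    have he : (A.inertiaSubgroupIn ℚ : Set GG) =
        ⋂ z : QA, {τ : GG | (τ z ∈ A ↔ z ∈ A) ∧ (z ∈ A → τ z - z ∈ A.nonunits)} := by
      ext τ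
      simp only [SetLike.mem_coe, Places.mem_inertia_iff, hdec, Set.mem_iInter, Set.mem_ofPred_eq]
      exact ⟨fun h z => ⟨h.1 z, h.2 z⟩, fun h => ⟨fun z => (h z).1, fun z => (h z).2⟩⟩
    rw [he]
    refine isClosed_iInter fun z => ⟨?_⟩
    rw [isOpen_iff_forall_mem_open]
    intro τ hτ
    haveI : FiniteDimensional ℚ (IntermediateField.adjoin ℚ {z} : IntermediateField ℚ QA) :=
      IntermediateField.adjoin.finiteDimensional
        ((AlgebraicClosure.isAlgebraic ℚ).isAlgebraic z).isIntegral
    refine ⟨(fun x => τ * x) '' ((IntermediateField.adjoin ℚ {z}).fixingSubgroup : Set GG), ?_, ?_,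
      ⟨1, one_mem _, mul_one τ⟩⟩
    · rintro _ ⟨x, hx, rfl⟩
      have hxz : x z = z :=
        (IntermediateField.mem_fixingSubgroup_iff _ _).1 hx z (IntermediateField.mem_adjoin_simple_self ℚ z)
      simpa [hxz] using hτ
    · exact isOpenMap_mul_left τ _ (IntermediateField.adjoin ℚ {z}).fixingSubgroup_isOpen
  have h1 : σ ∈ (K0 A).fixingSubgroup := (IntermediateField.mem_fixingSubgroup_iff _ _).2 h
  rwa [K0, InfiniteGalois.fixingSubgroup_fixedField ⟨A.inertiaSubgroupIn ℚ, hclosed⟩] at h1

namespace Model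

variable {A : ValuationSubring QA} {q M0 N' M' : ℕ} [Fact q.Prime] [NeZero q] [NeZero M0]
  [NeZero N'] [NeZero M'] (m : Model A q M0 N' M')

/-- Roots of units lie in the constants. -/
theorem exists_root_unit (hA : A.LiesOverPrime q) {n : ℕ} (hn : ¬ q ∣ n) {v : m.C.S}
    (hv : m.Ω.φ v ≠ 0) {y : QA} (hy : y ^ n = ((m.jO v : A) : QA)) :
    ∃ x : m.C.S, ((m.jO x : A) : QA) = y ∧ x ^ n = v := by
  haveI := m.dvr
  haveI := Mazur.isGalois_QQb
  haveI := FrobTrace.charP_residueField hA
  have hn0 : n ≠ 0 := fun h => hn (h ▸ dvd_zero q)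
  set ι : m.C.S →+* QA := A.subtype.comp m.jO with hι
  have hιinj : Injective ι := Subtype.val_injective.comp m.hjO
  set L : IntermediateField ℚ QA :=
    Subfield.toIntermediateField (Subfield.closure (Set.range ι)) fun x => by
      simp [eq_ratCast] with hL
  have hιL : ∀ s, ι s ∈ L := fun s => Subfield.subset_closure ⟨s, rfl⟩
  have hva : residue A (m.jO v) ≠ 0 := by rwa [← RingHom.comp_apply, m.hjφ]
  have hval : A.valuation (ι v) = 1 := by
    rw [Ne, residue_eq_zero_iff, IsLocalRing.mem_maximalIdeal, mem_nonunits_iff, not_not] at hva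
    exact (A.valuation_eq_one_iff _).1 hva
  have hy1 : A.valuation y = 1 := by
    refine (pow_eq_one_iff_of_nonneg zero_le hn0).1 ?_
    rw [← map_pow, hy]
    exact hval
  have hyA : y ∈ A := (A.valuation_le_one_iff y).1 hy1.le
  have hy0 : y ≠ 0 := fun h0 => by rw [h0, map_zero] at hy1; exact zero_ne_one hy1
  -- the automorphisms fixing the constants fix the root
  have hyL : y ∈ L := by
    rw [← InfiniteGalois.fixedField_fixingSubgroup L, IntermediateField.mem_fixedField_iff]
    intro σ hσ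
    rw [IntermediateField.mem_fixingSubgroup_iff] at hσ
    have hσI : σ ∈ A.inertiaSubgroupIn ℚ := mem_inertia_of_fix A fun c hc => by
      obtain ⟨w, w', hw', h⟩ := m.small.frac c hc
      have hw'' : ι (m.C.inc w') ≠ 0 := (map_ne_zero_iff _ hιinj).2
        ((map_ne_zero_iff _ (Subring.inclusion_injective _)).2 hw')
      have hc' : c = ι (m.C.inc w) / ι (m.C.inc w') := by
        rw [eq_div_iff hw'']
        refine (Kronecker.complexEmb).injective ?_
        rw [map_mul]
        show Kronecker.complexEmb c * Kronecker.complexEmb ((m.jO (m.C.inc w') : A) : QA) =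
          Kronecker.complexEmb ((m.jO (m.C.inc w) : A) : QA)
        rw [m.hjκ, m.hjκ, ← m.hκ]
        exact h
      exact hσ c (hc' ▸ L.div_mem (hιL _) (hιL _))
    set u : QA := σ y / y
    have hu : u ^ n = 1 := by
      rw [div_pow, ← map_pow, hy, show σ ((m.jO v : A) : QA) = ((m.jO v : A) : QA) from hσ _ (hιL v)]
      exact div_self fun h0 => by rw [show ι v = 0 from h0, map_zero] at hval; exact zero_ne_one hval
    by_contra hne
    have hu1 : u ≠ 1 := fun h => hne (by rwa [div_eq_one_iff_eq hy0] at h)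
    have huA : u ∈ A := (A.valuation_le_one_iff u).1 (valuation_eq_one_of_pow_eq_one hn0 hu).le
    have hd := ((Places.mem_inertia_iff A).1 hσI).2 y hyA
    have hres : residue A ⟨u, huA⟩ = 1 := by
      rw [← map_one (residue A), ← sub_eq_zero, ← map_sub, residue_eq_zero_iff,
        ← ValuationSubring.coe_mem_nonunits_iff, ValuationSubring.mem_nonunits_iff]
      show A.valuation (u - 1) < 1
      rw [show u - 1 = (σ y - y) / y by rw [sub_div, div_self hy0], map_div₀, hy1, div_one]
      exact A.mem_nonunits_iff.1 hd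
    have hsum : ∑ i ∈ Finset.range n, u ^ i = 0 := by
      have := geom_sum_mul u n
      rw [hu, sub_self, mul_eq_zero] at this
      exact this.resolve_right (sub_ne_zero.2 hu1)
    have h1 : residue A (∑ i ∈ Finset.range n, (⟨u, huA⟩ : A) ^ i) = 0 := by
      rw [show (∑ i ∈ Finset.range n, (⟨u, huA⟩ : A) ^ i) = 0 from
        Subtype.ext (by push_cast; exact hsum), map_zero]
    rw [map_sum, Finset.sum_congr rfl fun i _ => by rw [map_pow, hres, one_pow]] at h1
    exact hn ((CharP.cast_eq_zero_iff (ResidueField A) q n).1 (by simpa using h1))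
  -- a quotient of constants which is integral
  obtain ⟨a, ha, b, hb, hab⟩ := Subfield.mem_closure_iff.1 (show y ∈ Subfield.closure (Set.range ι) from hyL)
  rw [← RingHom.coe_range, Subring.closure_eq] at ha hb
  obtain ⟨s, rfl⟩ := ha
  obtain ⟨t, rfl⟩ := hb
  have ht : ι t ≠ 0 := fun h0 => hy0 (by rw [← hab, h0, div_zero])
  have ht' : t ≠ 0 := fun h0 => ht (by rw [h0, map_zero])
  have hst : v * t ^ n = s ^ n := hιinj (by
    rw [map_mul, map_pow, map_pow, show ι v = y ^ n from hy.symm, ← hab, div_pow,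
      div_mul_cancel₀ _ (pow_ne_zero _ ht)])
  obtain ⟨x, hx⟩ := (IsIntegrallyClosed.pow_dvd_pow_iff hn0).1 (⟨v, by rw [← hst, mul_comm]⟩ : t ^ n ∣ s ^ n)
  refine ⟨x, ?_, ?_⟩
  · show ι x = y
    rw [← hab, hx, map_mul, mul_div_cancel_left₀ _ ht]
  · refine mul_right_cancel₀ (pow_ne_zero n ht') ?_
    rw [hst, ← mul_pow, mul_comm x t, ← hx]

/-- A power series with unit constant term is a power. -/
theorem exists_root_powerSeries (hA : A.LiesOverPrime q) {n : ℕ} (hn : ¬ q ∣ n)
    {P : PowerSeries m.C.S} (hP : m.Ω.φ (PowerSeries.constantCoeff P) ≠ 0) :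
    ∃ R : PowerSeries m.C.S, R ^ n = P := by
  have hn0 : n ≠ 0 := fun h => hn (h ▸ dvd_zero q)
  obtain ⟨y, hy⟩ := IsAlgClosed.exists_pow_nat_eq ((m.jO (PowerSeries.constantCoeff P) : A) : QA)
    (Nat.pos_of_ne_zero hn0)
  obtain ⟨x, -, hx⟩ := m.exists_root_unit hA hn hP hy
  haveI := m.dvr
  have hxu : IsUnit x := by
    refine (isUnit_pow_iff hn0).1 ?_
    rw [hx]
    by_contra hnu
    obtain ⟨c, hc⟩ : m.ρ.ϖ ∣ PowerSeries.constantCoeff P := by
      rw [← Ideal.mem_span_singleton, ← m.ρ.irr.maximalIdeal_eq]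
      exact hnu
    exact hP (by rw [hc, map_mul, m.ρ.φϖ, zero_mul])
  set I : Ideal (PowerSeries m.C.S) := Ideal.span {PowerSeries.X}
  set f : Polynomial (PowerSeries m.C.S) := Polynomial.X ^ n - Polynomial.C P
  have hnu : IsUnit ((n : ℕ) : m.C.S) := by
    simpa using (m.unitW n hn).map m.C.inc
  obtain ⟨R, hR, -⟩ := HenselianRing.is_henselian (I := I) f (Polynomial.monic_X_pow_sub_C P hn0)
    (PowerSeries.C x) (by
      rw [Ideal.mem_span_singleton, PowerSeries.X_dvd_iff]
      simp [f, hx]) (by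
      refine IsUnit.map (Ideal.Quotient.mk I) ?_
      rw [PowerSeries.isUnit_iff_constantCoeff]
      simp [f, Polynomial.derivative_X_pow]
      exact ⟨hnu, hxu.pow _⟩)
  refine ⟨R, sub_eq_zero.1 ?_⟩
  simpa [f, Polynomial.IsRoot] using hR

/-- Roots of series of the form a unit times a power have coefficients among the constants. -/
theorem exists_root_series (hA : A.LiesOverPrime q) {n : ℕ} (hn : ¬ q ∣ n)
    {v h : LaurentSeries m.C.S} (hv : GeOrd v 0) (hv0 : m.Ω.φ (v.coeff 0) ≠ 0) (hh : h ≠ 0)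
    {H : LaurentSeries ℂ} (hH : H ^ n = sIncl m.C.S (v * h ^ n)) :
    ∃ H' : LaurentSeries m.C.S, sIncl m.C.S H' = H := by
  have hn0 : n ≠ 0 := fun h => hn (h ▸ dvd_zero q)
  haveI : NeZero n := ⟨hn0⟩
  set P : PowerSeries m.C.S := PowerSeries.mk fun i => v.coeff (i : ℤ) with hPdef
  have hPv : HahnSeries.ofPowerSeries ℤ m.C.S P = v := by
    refine HahnSeries.ext (funext fun k => ?_)
    rcases lt_or_ge k 0 with hk | hk
    · rw [hv k hk, ofPowerSeries_coeff_of_neg _ hk]
    · obtain ⟨i, rfl⟩ := Int.eq_ofNat_of_zero_le hk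
      rw [HahnSeries.ofPowerSeries_apply_coeff, PowerSeries.coeff_mk]
  obtain ⟨R, hR⟩ := m.exists_root_powerSeries hA hn (P := P) (by simpa [hPdef] using hv0)
  set W : LaurentSeries m.C.S := HahnSeries.ofPowerSeries ℤ m.C.S R * h
  have hW : W ^ n = v * h ^ n := by rw [mul_pow, ← map_pow, hR, hPv]
  have hv_ne : v ≠ 0 := fun h0 => hv0 (by rw [h0, HahnSeries.coeff_zero, map_zero])
  have hW0 : sIncl m.C.S W ≠ 0 := by
    intro h0
    have h1 : W = 0 := sIncl_injective (h0.trans (map_zero _).symm)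
    rw [h1, zero_pow hn0] at hW
    exact mul_ne_zero hv_ne (pow_ne_zero _ hh) hW.symm
  set φ : QA →+* LaurentSeries ℂ := (HahnSeries.C : ℂ →+* LaurentSeries ℂ).comp Kronecker.complexEmb
  obtain ⟨z, hz⟩ := HasEnoughRootsOfUnity.exists_primitiveRoot QA n
  obtain ⟨i, -, hi⟩ := (hz.map_of_injective (f := φ) φ.injective).eq_pow_of_pow_eq_one
    (ξ := H / sIncl m.C.S W) (by
      rw [div_pow, hH, ← hW, map_pow]
      exact div_self (pow_ne_zero _ hW0))
  obtain ⟨x, hx, -⟩ := m.exists_root_unit hA hn (v := 1) (y := z)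
    (by rw [map_one]; exact one_ne_zero)
    (by rw [hz.pow_eq_one, map_one]; rfl)
  refine ⟨HahnSeries.C x ^ i * W, ?_⟩
  rw [map_mul, map_pow, ← eq_div_iff hW0, ← hi]
  congr 1
  show sIncl m.C.S (HahnSeries.C x) = HahnSeries.C (Kronecker.complexEmb z)
  rw [← hx, m.hjκ, sIncl, HahnSeries.C_apply, HahnSeries.C_apply, coeffMap_single]
  rfl

end Model

end FLTAgent.Carayol
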