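import Fermat.Agent.Carayol.Invariant
import Fermat.Agent.Entry.QOne.Datum

/-!
# The stabiliser fixes the functions of the cover
-/

set_option autoImplicit false
set_option linter.unusedSectionVars false
set_option linter.style.haveILetI false

noncomputable section

open UpperHalfPlane hiding I I_re I_im
open Function FLTAgent.ModEq FLTAgent.GoodModel ModularCurve FLTAgent.Carayol
open scoped MatrixGroups Classical

namespace FLTAgent.Entry.QOne

variable {q M0 N' : ℕ} [NeZero M0] [NeZero N'] [NeZero q] [Fact q.Prime] (C : Ctx q M0 N')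

theorem eta_of_lower {γ : SL(2, ℤ)} (hγ : γ ∈ CongruenceSubgroup.Gamma M0)
    (h10 : ((M0 * N' : ℕ) : ℤ) ∣ γ 1 0)
    (h11 : ((γ 1 1 : ℤ) : ZMod (M0 * N')) = 1 ∨ ((γ 1 1 : ℤ) : ZMod (M0 * N')) = -1) :
    compg γ C.eta = C.eta := by
  have h01 := (level_nz (n := M0 * N') C.hM rfl).2.2.2.2
  rw [Ctx.eta, f0, compg_fvv (n := M0 * N') rfl hγ, fvv_congr_iff C.hM rfl (h01.vmul γ) h01]
  have h0 := (ZMod.intCast_zmod_eq_zero_iff_dvd _ _).2 h10
  rcases h11 with e | e
  · exact Or.inl ⟨by simpa [vmul] using h0, by simpa [vmul] using e⟩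
  · exact Or.inr ⟨by simpa [vmul] using h0, by simpa [vmul] using e⟩

theorem triple_of_mem {γ : SL(2, ℤ)} (hγ : γ ∈ KG q M0 (M0 * N')) :
    C.triple γ = C.triple 1 := by
  obtain ⟨h0, ⟨h01, h10, hL⟩, h11⟩ := hγ
  simp only [Ctx.triple, compg_one, eta_of_lower C h0 hL h11, (C.fix_sX_iff h0).2 h10,
    (C.fix_rX0_iff h0).2 h01]

/-- The stabiliser fixes the functions of the cover. -/
theorem compg_of_mem {γ : SL(2, ℤ)} (hγ : γ ∈ KG q M0 (M0 * N')) (a : C.R) :
    compg γ (a : ℍ → ℂ) = a := by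
  rw [C.compg_congr hγ.1 (one_mem _) (triple_of_mem C hγ) a, compg_one]

end FLTAgent.Entry.QOne
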