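import Fermat.Agent.Carayol.Bound
import Fermat.Agent.Entry.QOne.SRoots
import Fermat.Agent.Entry.QOne.Stabiliser
import Fermat.Agent.TorsionHom.Kummer
import Fermat.Agent.TorsionHom.Converse
import Fermat.Agent.Mazur.PointFam

/-!
# A class gives good data on the cover

The root of a rational function of the class, after the scaling `τ ↦ τ/q`, gives a holomorphic
root of the normalised function of the cover; its character is the Kummer character.
-/

set_option autoImplicit false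
set_option linter.unusedSectionVars false
set_option linter.style.haveILetI false
set_option synthInstance.maxHeartbeats 400000
set_option maxHeartbeats 1000000

noncomputable section

open UpperHalfPlane hiding I I_re I_im
open Function AlgebraicCurve IsLocalRing ModularCurve FLTAgent.ModEq FLTAgent.GoodModel
open scoped MatrixGroups Manifold Classical

namespace FLTAgent.Entry.QOne

open FLTAgent.Carayol

local notation "QA" => AlgebraicClosure ℚ
local notation "κA" => Kronecker.complexEmb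

theorem jfun_eq_jFun (τ : ℍ) : ES.jfun τ = jFun τ := by
  simp [ES.jfun, jFun, ES.e4, ES.dlt, div_eq_mul_inv]

/-- Composition with `τ ↦ τ / q`. -/
def scl (q : ℕ) [NeZero q] : X0Fn.Hol →+* X0Fn.Hol where
  toFun f := ⟨fun τ => (f : ℍ → ℂ) (affPt 1 0 q τ), mdiff_comp_affPt 1 0 q f.2⟩
  map_one' := rfl
  map_zero' := rfl
  map_add' _ _ := rfl
  map_mul' _ _ := rfl

theorem scl_apply (q : ℕ) [NeZero q] (f : X0Fn.Hol) (τ : ℍ) :
    (scl q f : ℍ → ℂ) τ = (f : ℍ → ℂ) (affPt 1 0 q τ) := rfl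

theorem affPt_scale (q : ℕ) [NeZero q] (τ : ℍ) : affPt 1 0 q (CuspForms.mulHalfPlane q τ) = τ := by
  refine UpperHalfPlane.ext ?_
  rw [coe_affPt, CuspForms.coe_mulHalfPlane]
  have hq : (q : ℂ) ≠ 0 := Nat.cast_ne_zero.2 (NeZero.ne q)
  push_cast
  field_simp
  ring

theorem scl_injective (q : ℕ) [NeZero q] : Injective (scl q) := fun f g h =>
  Subtype.ext (funext fun τ => by
    have := congrFun (congrArg Subtype.val h) (CuspForms.mulHalfPlane q τ)
    simpa [scl_apply, affPt_scale] using this)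

/-- The scaled element of `Γ₀(q²L)`. -/
theorem splitEmb_smul {q L : ℕ} [NeZero q] (γ : Split q L) (hco : Nat.Coprime q L) (τ : ℍ) :
    ((splitEmb q L γ hco : CongruenceSubgroup.Gamma0 (q * L * q)) : SL(2, ℤ)) • affPt 1 0 q τ =
      affPt 1 0 q ((γ : SL(2, ℤ)) • τ) := by
  obtain ⟨b, hb⟩ := γ.2.1
  refine UpperHalfPlane.ext ?_
  have hq : (q : ℂ) ≠ 0 := Nat.cast_ne_zero.2 (NeZero.ne q)
  have hq' : (q : ℤ) ≠ 0 := by exact_mod_cast NeZero.ne q
  have hd : (((γ : SL(2, ℤ)) 1 0 : ℤ) : ℂ) * τ + ((γ : SL(2, ℤ)) 1 1 : ℤ) ≠ 0 :=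
    den_ne_zero (γ : SL(2, ℤ)) τ
  rw [coe_sl_smul', coe_affPt, coe_affPt, coe_sl_smul']
  show ((((γ : SL(2, ℤ)) 0 0 : ℤ) : ℂ) * _ + ((((γ : SL(2, ℤ)) 0 1 / q : ℤ)) : ℂ)) /
      ((((γ : SL(2, ℤ)) 1 0 * q : ℤ) : ℂ) * _ + _) = _
  rw [hb, Int.mul_ediv_cancel_left _ hq']
  show _ / (_ + (((γ : SL(2, ℤ)) 1 1 : ℤ) : ℂ)) = _
  push_cast
  field_simp
  ring

variable {q M0 N' M' : ℕ} [Fact q.Prime] [NeZero q] [NeZero M0] [NeZero N'] [NeZero M']
  [NeZero (q * M' * q)]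

/-- The functions of the cover as holomorphic functions. -/
def holFn {C : Ctx q M0 N'} (P : Pull C M') : P.Fn →+* X0Fn.Hol where
  toFun f := ⟨(f : ℍ → ℂ), by
    obtain ⟨G, hG⟩ := mem_trRing.mp f.2 1
    rw [compg_one] at hG
    exact (mem_sPairs.mp hG).1⟩
  map_one' := rfl
  map_zero' := rfl
  map_add' _ _ := rfl
  map_mul' _ _ := rfl

theorem holFn_injective {C : Ctx q M0 N'} (P : Pull C M') : Injective (holFn P) := fun _ _ h =>
  Subtype.ext (congrArg (fun g : X0Fn.Hol => (g : ℍ → ℂ)) h)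

/-- The functions of level `q²M'` on the cover are the scaled ones. -/
theorem holFn_fn {C : Ctx q M0 N'} (P : Pull C M') (x : X0Fn.XA QA (q * M' * q)) :
    holFn P (P.fn x) = scl q (TorsionHom.toHol (X0Fn.toW P.κ x)) := by
  obtain ⟨x, hx⟩ := x
  induction hx using Algebra.adjoin_induction with
  | mem y hy =>
    obtain ⟨_, ⟨d, hne, hd, rfl⟩, rfl⟩ := hy
    have h : qExpand QA d (jqModC QA) = coeffEmb QA (qExpand ℚ d jq) := by
      rw [coeffEmb, coeffMap_qExpand, ← jqModC_rat, coeffMap_jqModC]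
    have hd' : d ∣ q * q * M' := hd.trans (dvd_of_eq (by ring))
    have h1 : qExpand QA d (jqModC QA) ∈ X0Fn.XA QA (q * M' * q) := by
      rw [h]; exact Algebra.subset_adjoin ⟨_, ⟨d, hne, hd, rfl⟩, rfl⟩
    have e1 : (⟨coeffEmb QA (qExpand ℚ d jq), Algebra.subset_adjoin ⟨_, ⟨d, hne, hd, rfl⟩, rfl⟩⟩ :
        X0Fn.XA QA (q * M' * q)) = ⟨_, h1⟩ := Subtype.ext h.symm
    rw [X0Fn.toW_gen P.κ hd, e1, P.fn_gen hd' h1]
    refine Subtype.ext (funext fun τ => ?_)
    show GoodModel.jd q d τ = X0Fn.jd d (affPt 1 0 q τ)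
    rw [GoodModel.jd, X0Fn.jd, jfun_eq_jFun]
    congr 1
    refine UpperHalfPlane.ext ?_
    rw [coe_affPt, CuspForms.coe_mulHalfPlane, coe_affPt]
    push_cast
    ring
  | algebraMap r =>
    rw [show (⟨algebraMap QA (LaurentSeries QA) r, _⟩ : X0Fn.XA QA (q * M' * q)) =
      algebraMap QA (X0Fn.XA QA (q * M' * q)) r from rfl, P.fn_algebraMap, X0Fn.toW_algebraMap]
    rfl
  | add a b ha hb iha ihb =>
    rw [show (⟨a + b, _⟩ : X0Fn.XA QA (q * M' * q)) = ⟨a, ha⟩ + ⟨b, hb⟩ from rfl]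
    simp only [map_add, iha, ihb]
  | mul a b ha hb iha ihb =>
    rw [show (⟨a * b, _⟩ : X0Fn.XA QA (q * M' * q)) = ⟨a, ha⟩ * ⟨b, hb⟩ from rfl]
    simp only [map_mul, iha, ihb]

/-- Divisibility of the orders of the bottom of an identity of powers. -/
theorem dvd_order_of_mul_pow {n : ℕ} {F X Y : X0Fn.Hol} (hn : n ≠ 0) (hF : F ≠ 0) (hX : X ≠ 0)
    (h : F * X ^ n = Y ^ n) (τ : ℍ) : n ∣ analyticOrderNatAt ((F : ℍ → ℂ) ∘ ofComplex) τ := by
  have ho : ∀ f : X0Fn.Hol, (X0Fn.taylorAt τ f).order =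
      (analyticOrderNatAt ((f : ℍ → ℂ) ∘ ofComplex) τ : ℕ∞) ∨ f = 0 := fun f =>
    (eq_or_ne f 0).symm.imp_left fun hf => TorsionHom.taylor_order_eq hf τ
  have h1 := congrArg (fun f => (X0Fn.taylorAt τ f).order) h
  simp only [map_mul, map_pow, PowerSeries.order_mul, PowerSeries.order_pow, nsmul_eq_mul] at h1
  have hY : Y ≠ 0 := fun h0 => mul_ne_zero hF (pow_ne_zero n hX) (by rw [h, h0, zero_pow hn])
  rw [(ho F).resolve_right hF, (ho X).resolve_right hX, (ho Y).resolve_right hY] at h1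
  norm_cast at h1
  exact (Nat.dvd_add_left (dvd_mul_right _ _)).1 (h1 ▸ dvd_mul_right _ _)

theorem targetDatum : TargetDatum := by
  intro A q M0 N' M' p _ _ _ _ _ _ _ _ _ hA m E hp2 hqp hle c hc hfix hpa hpb ψ₀ hψ₀
  haveI := m.dvr
  haveI := m.noeth
  haveI : IsAlgClosed (ResidueField A) := FrobTrace.isAlgClosed_residueField A
  have hp : p.Prime := Fact.out
  have hq : q.Prime := Fact.out
  have hp0 : p ≠ 0 := hp.ne_zero
  have hqne : ¬ q ∣ p := fun h => by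
    have h1 := (Nat.prime_dvd_prime_iff_eq hq hp).1 h
    subst h1
    have := Nat.le_of_dvd (by have := hq.two_le; omega) hqp
    omega
  -- the function of the class and the normalised function of the cover
  obtain ⟨D, f, hf, hDc, hdiv, hgal⟩ := EigenLattice.exists_rational_function hp0 hc
  have hord : ∀ v : Place QA (modularFunctionFieldBar (q * M' * q)),
      (p : ℤ) * (D : Divisor QA _) v = v.ord f := fun v => by
    rw [← Curves.divOf_apply (K := QA) f v, ← hdiv]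
    simp
  have hpush : ∀ b, EigenLattice.pushPic (q * M') q (Pull.deg q M' b) c = 0 := fun b => by
    cases b <;> assumption
  have hprin : ∀ b, (Divisor.pushforwardAlong (Pull.deg q M' b) (Kronecker.isIntegralAlong _)
      (D : Divisor QA _)).IsPrincipal := fun b => by
    obtain ⟨h1, h2⟩ := EigenLattice.pushPic_mk (q * M') q (Pull.deg q M' b) D
    have h3 := hpush b
    rw [← hDc, h2] at h3
    exact (QuotientAddGroup.eq_zero_iff _).1 h3
  have hK := m.small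
  have hfK : ∀ i, (f : LaurentSeries QA).coeff i ∈ K0 A := fun i => by
    rw [mem_K0]
    intro σ hσ
    have h := congrArg (fun z : LaurentSeries QA => z.coeff i) (hgal σ (hfix σ hσ))
    simp only [coeffMap_coeff] at h
    exact h
  obtain ⟨a, e, he, hae⟩ := m.P.exists_frac_Theta hK f hfK
  have ha : a ≠ 0 := fun h0 => by
    have h1 := hae 1
    rw [h0, map_zero, mul_eq_zero] at h1
    rcases h1 with h | h
    · exact he (m.P.eps_injective 1 (h.trans (map_zero _).symm))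
    · exact hf ((m.P.Theta 1).injective (h.trans (map_zero _).symm))
  set F0 : m.C.R := a * e ^ (p - 1) with hF0def
  have hF0 : F0 ≠ 0 := mul_ne_zero ha (pow_ne_zero _ he)
  have hrel : ∀ b, m.C.RelB p b F0 := fun b => by
    obtain ⟨g, hg, cst, hcst, hn⟩ := EigenLattice.exists_norm_eq (Pull.deg q M' b)
      (Kronecker.isIntegralAlong _) hf hord (hprin b)
    exact m.P.relB_of_norm hK hp0 b hfK hf he hae hg hcst hn
  have hv0 : m.C.VDvd p F0 := m.P.vDvd hK hf hp0 _ hord he (hae 1)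
  obtain ⟨J, F1, t, r, ht, hr, hF1, he1, hv1, hα1, hβ1⟩ :=
    m.ρ.exists_normalised_one hp2 hqp hF0 (hrel false) (hrel true) hv0
  obtain ⟨F, t', r', ht', hr', hF, hss, he2⟩ := m.ρ.exists_ss_unit E hp.pos hF1 hv1
  have hne : ∀ {G : m.C.R}, (∀ g j, m.Ω.rs g j G ≠ 0) → G ≠ 0 := fun {G} hG h0 =>
    hG ⟨m.C.eta, m.C.eta_mem_nodes⟩ 0 (by rw [h0, map_zero])
  have he2' : t' ^ p * F1 = F * m.C.cW 1 * r' ^ p := by rw [map_one, mul_one, he2]
  have hvF : m.C.VDvd p F :=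
    Ctx.vDvd_change one_ne_zero (hne hF1) (hne hF) ht' hr' he2' hv1
  have hrelF : ∀ b, m.C.RelB p b F := fun b => by
    refine Ctx.relB_change m.Ω.fixed one_ne_zero ht' hr' he2' ?_
    cases b
    exacts [hα1, hβ1]
  -- the character
  have hdiv' : ∀ v : Place QA (modularFunctionFieldBar (q * M' * q)), (p : ℤ) ∣ v.ord f :=
    fun v => ⟨_, (hord v).symm⟩
  obtain ⟨χ, hχ, -, hchar⟩ := TorsionHom.exists_isCharFn (N := q * M' * q) κA hf hp0 hdiv'
  have hχψ : χ = (TorsionHom.rootHom p).comp ψ₀ :=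
    TorsionHom.IsKummer.unique hp0 ⟨D, f, hDc, hf, hord, hchar⟩ hψ₀
  obtain ⟨R, ⟨Aw, Bw, hBw, hAB, hRp⟩, hRc⟩ := hchar
  have hBh : TorsionHom.toHol Bw ≠ 0 := (map_ne_zero_iff _ TorsionHom.toHol_injective).2 hBw
  -- the identity of holomorphic functions
  set H := holFn m.P
  set s := scl q
  set ι := fun x : m.C.R => H (m.P.ι x)
  have key : ι e * s (TorsionHom.toHol Aw) = ι a * s (TorsionHom.toHol Bw) := by
    obtain ⟨x, y, hxy⟩ := X0Fn.exists_incA_div f
    have hy : y ≠ 0 := fun h0 => hf (by rw [hxy, h0, map_zero, div_zero])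
    have h1 := hae 1
    rw [hxy, map_div₀, m.P.Theta_incA, m.P.Theta_incA] at h1
    have hy1 : m.P.big 1 (m.P.fn y) ≠ 0 := fun h0 => hy (m.P.fn_injective
      ((m.P.big_injective 1 (h0.trans (map_zero _).symm)).trans (map_zero _).symm))
    have h2 : m.P.ι e * m.P.fn x = m.P.ι a * m.P.fn y := m.P.big_injective 1 (by
      rw [map_mul, map_mul]
      rw [mul_div, div_eq_iff hy1] at h1
      exact h1)
    have h3 : Aw * X0Fn.toW κA y = X0Fn.toW κA x * Bw := X0Fn.expW_injective (by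
      rw [map_mul, map_mul, X0Fn.expW_toW, X0Fn.expW_toW, ← hAB, mul_right_comm, ← map_mul]
      congr 2
      have h4 : f * X0Fn.incA QA _ y = X0Fn.incA QA _ x := by
        rw [hxy, div_mul_cancel₀ _ ((map_ne_zero_iff _ (Subalgebra.inclusion_injective _)).2 hy)]
      exact congrArg (fun z : modularFunctionFieldBar (q * M' * q) => (z : LaurentSeries QA)) h4)
    have h5 := congrArg H h2
    rw [map_mul, map_mul, holFn_fn, holFn_fn, m.hκ] at h5
    have h6 := congrArg (fun z => s (TorsionHom.toHol z)) h3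
    simp only [map_mul] at h6
    have hy' : s (TorsionHom.toHol (X0Fn.toW κA y)) ≠ 0 :=
      (map_ne_zero_iff _ (scl_injective q)).2 ((map_ne_zero_iff _ TorsionHom.toHol_injective).2
        ((map_ne_zero_iff _ (X0Fn.toW_injective κA)).2 hy))
    refine mul_right_cancel₀ hy' ?_
    linear_combination (ι e) * h6 + s (TorsionHom.toHol Bw) * h5
  have hιne : ∀ {x : m.C.R}, x ≠ 0 → ι x ≠ 0 := fun {x} hx h0 => hx <| Subtype.ext <|
    congrArg (fun z : m.P.Fn => (z : ℍ → ℂ))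
      (holFn_injective m.P (h0.trans (map_zero H).symm) : m.P.ι x = 0)
  have hιmul : ∀ x y : m.C.R, ι (x * y) = ι x * ι y := fun x y => by simp [ι]
  have hιpow : ∀ (x : m.C.R) (n : ℕ), ι (x ^ n) = ι x ^ n := fun x n => by simp [ι]
  set w : m.C.W := (q : m.C.W) ^ J
  have hw : (w : ℂ) ≠ 0 := by
    simp only [w, SubmonoidClass.coe_pow, SubringClass.coe_natCast]
    exact pow_ne_zero _ (Nat.cast_ne_zero.2 (NeZero.ne q))
  obtain ⟨z, hz⟩ := IsAlgClosed.exists_pow_nat_eq (w : ℂ) hp.pos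
  have hz0 : z ≠ 0 := fun h0 => hw (by rw [← hz, h0, zero_pow hp0])
  set cz : X0Fn.Hol := algebraMap ℂ X0Fn.Hol z
  have hcz : cz ^ p = ι (m.C.cW w) := by
    rw [← map_pow, hz]
    rfl
  set X : X0Fn.Hol := cz * (ι r' * ι r * s (TorsionHom.toHol Bw))
  set Y : X0Fn.Hol := ι t' * ι t * ι e * s R
  have hX : X ≠ 0 := mul_ne_zero ((map_ne_zero_iff _ (algebraMap ℂ X0Fn.Hol).injective).2 hz0)
    (mul_ne_zero (mul_ne_zero (hιne hr') (hιne hr)) ((map_ne_zero_iff _ (scl_injective q)).2 hBh))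
  have hXY : ι F * X ^ p = Y ^ p := by
    obtain ⟨k, hk⟩ : ∃ k, p = k + 1 := ⟨p - 1, (Nat.sub_add_cancel hp.one_le).symm⟩
    have hF0ι : ι F0 = ι a * ι e ^ k := by
      rw [hF0def, hιmul, hιpow, hk, Nat.add_sub_cancel]
    have hR : s R ^ p = s (TorsionHom.toHol Aw) * s (TorsionHom.toHol Bw) ^ k := by
      rw [← map_pow, hRp, map_mul, map_pow, map_mul, map_pow, hk, Nat.add_sub_cancel]
    have e1 := congrArg ι he1
    have e2 := congrArg ι he2
    simp only [hιmul, hιpow] at e1 e2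
    rw [← hcz] at e1
    rw [hF0ι] at e1
    simp only [X, Y, mul_pow, hR]
    have hpe : ι e ^ p = ι e ^ k * ι e := by rw [hk, pow_succ]
    have hpb : s (TorsionHom.toHol Bw) ^ p = s (TorsionHom.toHol Bw) ^ k *
        s (TorsionHom.toHol Bw) := by rw [hk, pow_succ]
    rw [hpe, hpb]
    linear_combination
      (-(s (TorsionHom.toHol Bw) ^ k * s (TorsionHom.toHol Bw) * ι t' ^ p)) * e1 -
      (cz ^ p * ι r ^ p * s (TorsionHom.toHol Bw) ^ k * s (TorsionHom.toHol Bw)) * e2 -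
      (ι t' ^ p * ι t ^ p * ι e ^ k * s (TorsionHom.toHol Bw) ^ k) * key
  obtain ⟨Φ, hΦ⟩ := TorsionHom.exists_root hp0 (hιne (hne hF))
    (dvd_order_of_mul_pow hp0 (hιne (hne hF)) hX hXY)
  obtain ⟨ζ, hζ, hYΦ⟩ := TorsionHom.eq_smul_of_pow_eq hp0 (f := Y) (g := Φ * X)
    (by rw [mul_pow Φ X, hΦ, hXY])
  -- the transformation law
  set ψ : Additive (CongruenceSubgroup.Gamma0 (q * (M0 * N') * q)) →+ ZMod p :=
    ψ₀.comp (LevelRaise.incl hle).toAdditive
  have hlaw : ∀ γ ∈ KG q M0 (M0 * N'), ∀ τ : ℍ,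
      (Φ : ℍ → ℂ) (γ • τ) = rootC p (hs (coprime_level m.C) ψ γ) * (Φ : ℍ → ℂ) τ := by
    intro γ hγ
    set ξ := rootC p (hs (coprime_level m.C) ψ γ) with hξ
    set g := LevelRaise.incl hle (splitEmb q (M0 * N') ⟨γ, hγ.2.1⟩ (coprime_level m.C))
    have hgs : ∀ τ, ((g : CongruenceSubgroup.Gamma0 (q * M' * q)) : SL(2, ℤ)) • affPt 1 0 q τ =
        affPt 1 0 q (γ • τ) := fun τ => splitEmb_smul ⟨γ, hγ.2.1⟩ (coprime_level m.C) τ
    have hξ' : TorsionHom.mult χ g = ξ := by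
      rw [hξ, hs, dif_pos hγ.2.1, hχψ]
      rfl
    let T : X0Fn.Hol →+* X0Fn.Hol :=
      { toFun := fun f => ⟨fun τ => (f : ℍ → ℂ) (γ • τ), X0Fn.comp_smul_mdiff f.2 _⟩
        map_one' := rfl
        map_zero' := rfl
        map_add' := fun _ _ => rfl
        map_mul' := fun _ _ => rfl }
    have hTι : ∀ x : m.C.R, T (ι x) = ι x := fun x =>
      Subtype.ext (funext fun τ => congrFun (compg_of_mem m.C hγ x) τ)
    have hTc : ∀ c : ℂ, T (algebraMap ℂ X0Fn.Hol c) = algebraMap ℂ X0Fn.Hol c := fun _ => rfl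
    have hTB : T (s (TorsionHom.toHol Bw)) = s (TorsionHom.toHol Bw) :=
      Subtype.ext (funext fun τ => by
        show (Bw : ℍ → ℂ) (affPt 1 0 q (γ • τ)) = (Bw : ℍ → ℂ) (affPt 1 0 q τ)
        rw [← hgs τ]
        exact Bw.2.2.1 _ g.2 _)
    have hTR : T (s R) = algebraMap ℂ X0Fn.Hol ξ * s R :=
      Subtype.ext (funext fun τ => by
        show (R : ℍ → ℂ) (affPt 1 0 q (γ • τ)) = ξ * (R : ℍ → ℂ) (affPt 1 0 q τ)
        rw [← hgs τ, hRc g, hξ'])
    have hTY : T Y = algebraMap ℂ X0Fn.Hol ξ * Y := by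
      simp only [Y, map_mul, hTι, hTR]
      ring
    have hTX : T X = X := by simp only [X, map_mul, hTι, hTB, cz, hTc]
    have hζ0 : ζ ≠ 0 := fun h0 => by rw [h0, zero_pow hp0] at hζ; exact zero_ne_one hζ
    have h7 := congrArg T hYΦ
    rw [hTY, map_mul, map_mul, hTc, hTX, hYΦ] at h7
    have h8 : T Φ = algebraMap ℂ X0Fn.Hol ξ * Φ := by
      refine mul_right_cancel₀ hX (mul_left_cancel₀
        ((map_ne_zero_iff _ (algebraMap ℂ X0Fn.Hol).injective).2 hζ0) ?_)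
      linear_combination -h7
    exact fun τ => congrFun (congrArg Subtype.val h8) τ
  -- the coefficients
  have hmem : (Φ : ℍ → ℂ) ∈ trRing m.C.S (M0 * (N' * q)) := by
    refine mem_trRing.mpr fun σ => ?_
    set n := M0 * (N' * q) with hn
    set f0 : trRing m.C.S n := Subring.inclusion m.C.R_le F
    have hG := ser_spec (trComp σ f0)
    obtain ⟨hGd, hGe⟩ := mem_sPairs.mp hG
    have hpowΦ : ∀ τ, (compg σ (Φ : ℍ → ℂ)) τ ^ p = (trComp σ f0 : ℍ → ℂ) τ := fun τ =>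
      congrFun (congrArg Subtype.val hΦ) (σ • τ)
    have hdΦ : MDiff (compg σ (Φ : ℍ → ℂ)) := X0Fn.comp_smul_mdiff Φ.2 σ
    -- periodicity
    have hTn : σ * ModularGroup.T ^ ((n : ℕ) : ℤ) * σ⁻¹ ∈ CongruenceSubgroup.Gamma n := by
      refine (CongruenceSubgroup.Gamma_normal n).conj_mem _ ?_ σ
      rw [CongruenceSubgroup.Gamma_mem, ModularGroup.coe_T_zpow]
      simp
    obtain ⟨g00, g01, g10, g11⟩ := CongruenceSubgroup.Gamma_mem.mp hTn
    set γ := σ * ModularGroup.T ^ ((n : ℕ) : ℤ) * σ⁻¹ with hγdef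
    have hcast : ∀ (k : ℕ) (a : ℤ), (a : ZMod k) = 1 ↔ (k : ℤ) ∣ a - 1 := fun k a => by
      rw [← ZMod.intCast_zmod_eq_zero_iff_dvd, Int.cast_sub, Int.cast_one, sub_eq_zero]
    rw [hcast] at g00 g11
    rw [ZMod.intCast_zmod_eq_zero_iff_dvd] at g01 g10
    have hdM : ((M0 : ℕ) : ℤ) ∣ (n : ℤ) := Int.natCast_dvd_natCast.2 ⟨N' * q, rfl⟩
    have hdL : ((M0 * N' : ℕ) : ℤ) ∣ (n : ℤ) :=
      Int.natCast_dvd_natCast.2 ⟨q, by rw [hn]; ring⟩
    have hdq : ((q : ℕ) : ℤ) ∣ (n : ℤ) := Int.natCast_dvd_natCast.2 ⟨M0 * N', by rw [hn]; ring⟩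
    have hγKG : γ ∈ KG q M0 (M0 * N') := by
      refine ⟨?_, ⟨hdq.trans g01, hdq.trans g10, hdL.trans g10⟩, Or.inl ?_⟩
      · rw [CongruenceSubgroup.Gamma_mem, hcast, hcast, ZMod.intCast_zmod_eq_zero_iff_dvd,
          ZMod.intCast_zmod_eq_zero_iff_dvd]
        exact ⟨hdM.trans g00, hdM.trans g01, hdM.trans g10, hdM.trans g11⟩
      · rw [hcast]
        exact hdL.trans g11
    have hone : rootC p (hs (coprime_level m.C) ψ γ) = 1 := by
      set g := LevelRaise.incl hle (splitEmb q (M0 * N') ⟨γ, hγKG.2.1⟩ (coprime_level m.C))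
      have h0 : χ (Additive.ofMul g) = 0 := by
        refine hχ g (le_of_eq ?_)
        show (Matrix.trace (PeriodHecke.mat g)) ^ 2 = 4
        have e : Matrix.trace (PeriodHecke.mat g) = Matrix.trace (γ : Matrix (Fin 2) (Fin 2) ℤ) := by
          rw [Matrix.trace_fin_two, Matrix.trace_fin_two]
          rfl
        rw [e, hγdef, Matrix.SpecialLinearGroup.coe_mul, Matrix.SpecialLinearGroup.coe_mul,
          Matrix.trace_mul_comm, ← mul_assoc, ← Matrix.SpecialLinearGroup.coe_mul, inv_mul_cancel,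
          Matrix.SpecialLinearGroup.coe_one, one_mul, ModularGroup.coe_T_zpow, Matrix.trace_fin_two]
        simp
      have h1 : TorsionHom.mult χ g = rootC p (hs (coprime_level m.C) ψ γ) := by
        rw [hs, dif_pos hγKG.2.1, hχψ]
        rfl
      rw [← h1, TorsionHom.mult, h0]
      rfl
    have hperΦ : ∀ τ, (compg σ (Φ : ℍ → ℂ)) (ModularGroup.T ^ ((n : ℕ) : ℤ) • τ) =
        (compg σ (Φ : ℍ → ℂ)) τ := fun τ => by
      show (Φ : ℍ → ℂ) (σ • _) = (Φ : ℍ → ℂ) (σ • τ)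
      have h9 := hlaw γ hγKG (σ • τ)
      rw [hone, one_mul, hγdef, ← mul_smul, inv_mul_cancel_right, mul_smul] at h9
      exact h9
    have hPp : (fun τ => (compg σ (Φ : ℍ → ℂ)) τ ^ p) ∈ X0Fn.PerL ((n : ℕ) : ℝ) := by
      rw [show (fun τ => (compg σ (Φ : ℍ → ℂ)) τ ^ p) = (trComp σ f0 : ℍ → ℂ) from funext hpowΦ]
      refine Mazur.mem_PerL_of_hasExp hGd (fun τ => ?_) hGe
      rw [← hpowΦ, ← hpowΦ, show ((n : ℕ) : ℝ) +ᵥ τ = ModularGroup.T ^ ((n : ℕ) : ℤ) • τ by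
        rw [UpperHalfPlane.modular_T_zpow_smul]; simp, hperΦ]
    have hP : compg σ (Φ : ℍ → ℂ) ∈ X0Fn.PerL ((n : ℕ) : ℝ) :=
      TorsionHom.root_mem_PerL hdΦ hperΦ hp0 hPp
    set S := X0Fn.expL ((n : ℕ) : ℝ) ⟨_, hP⟩
    have hS : HasExp n (compg σ (Φ : ℍ → ℂ)) S := Mazur.hasExp_expL (N := n) ⟨_, hP⟩
    have hSp : S ^ p = sIncl m.C.S (ser (trComp σ f0)) := by
      refine (hS.pow p).unique ?_
      convert hGe using 1
      exact funext hpowΦ
    -- the series of the normalised function is a unit times a power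
    obtain ⟨v, h, k, hv, hv0', -, hh, hfac⟩ := exists_series_factor (F := FractionRing m.C.R)
      m.Ω.φ m.ρ.irr (fun x hx => m.ρ.ker_φ hx) m.ρ.φϖ m.C.cW m.C.inc (m.C.embAt σ)
      (m.C.embAt_injective σ) (fun u => m.C.embAt_cW σ u) hp.pos (hne hF) hvF (by
        show m.Ω.red σ F ≠ 0
        obtain ⟨l, hl⟩ := m.Ω.exists_ker_eq σ
        refine fun h0 => hF (m.C.sheet l) (m.C.kind l) ?_
        have h1 : F ∈ m.Ω.ker (m.C.rep l) := by rw [← hl]; exact h0
        rw [← m.Ω.red_rep]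
        exact h1)
    obtain ⟨H', hH'⟩ := m.exists_root_series hA hqne (n := p) hv hv0'
      (h := h) (fun h0 => hh (by rw [h0, map_zero])) (H := S) (by
        rw [hSp, ← hfac]
        rfl)
    exact ⟨H', mem_sPairs.mpr ⟨hdΦ, by rw [hH']; exact hS⟩⟩
  refine ⟨⟨F, ⟨_, hmem⟩, Subtype.ext ?_, ψ, hlaw⟩, ⟨hF, hvF, hrelF false, hrelF true, hss⟩, rfl⟩
  show (Φ : ℍ → ℂ) ^ p = (F : ℍ → ℂ)
  exact congrArg Subtype.val hΦ

end FLTAgent.Entry.QOne
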