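import Fermat.Agent.Entry.FixedBound
import Fermat.Agent.Entry.Old.Target
import Fermat.Agent.Entry.Other.Entry
import Fermat.Agent.Entry.QOne.Kill
import Fermat.Agent.Entry.QOne.Main
import Fermat.Agent.Entry.QOne.Residue
import Fermat.Agent.Entry.QOne.Root
import Fermat.Agent.Entry.QOne.Twist.Target

/-!
# The entry: a system seen at a level with a squared prime is seen at a lower level
-/

set_option autoImplicit false

noncomputable section

namespace FLTAgent.Entry

/-- Lowering `q²` for `q ≡ 1`. -/
theorem targetLowerSqOne : TargetLowerSqOne :=
  QOne.targetLowerSqOne_of QOne.targetDatum QOne.targetTwist QOne.targetRootOne QOne.targetKill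

/-- **The entry.** -/
theorem targetEntry : ModLift.TargetEntry :=
  targetEntry_of_counts targetFixedBound targetOldImage targetLowerSqOne

end FLTAgent.Entry
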